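import Mathlib

/-!
# Residue fields of valuation rings of algebraically closed fields

These apply to the valuation rings of `Q̄` over `ℓ`, whose residue fields are the constants of the
reduced curves.
-/

noncomputable section

namespace Fermat.Agent.Red

variable {L : Type*} [Field L] (A : ValuationSubring L)

/-- The residue field is algebraically closed. -/
theorem isAlgClosed_residueField [IsAlgClosed L] : IsAlgClosed (IsLocalRing.ResidueField A) := by
  refine IsAlgClosed.of_exists_root _ fun p hp hirr => ?_
  obtain ⟨q, hqp, hdeg, hq⟩ := Polynomial.lifts_and_degree_eq_and_monic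
    ((Polynomial.lifts_iff_coeff_lifts p).mpr fun n => IsLocalRing.residue_surjective (p.coeff n))
      hp
  have hne : (q.map (algebraMap A L)).degree ≠ 0 := by
    rw [hq.degree_map, hdeg]
    exact (Polynomial.degree_pos_of_irreducible hirr).ne'
  obtain ⟨z, hz⟩ := IsAlgClosed.exists_root _ hne
  have hint : IsIntegral A z := ⟨q, hq, by rwa [← Polynomial.eval_map]⟩
  obtain ⟨y, rfl⟩ := IsIntegrallyClosed.isIntegral_iff.mp hint
  refine ⟨IsLocalRing.residue A y, ?_⟩
  rw [← hqp, Polynomial.eval_map_apply]
  rw [Polynomial.IsRoot, Polynomial.eval_map_apply,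
    map_eq_zero_iff _ (IsFractionRing.injective A L)] at hz
  rw [hz, map_zero]

/-- A number in the maximal ideal vanishes in the residue field. -/
theorem natCast_residue_self {ℓ : ℕ} (hA : (ℓ : L) ∈ A.nonunits) :
    (ℓ : IsLocalRing.ResidueField A) = 0 := by
  obtain ⟨_, hnu⟩ := ValuationSubring.mem_nonunits_iff_exists_mem_maximalIdeal.mp hA
  rw [← map_natCast (IsLocalRing.residue A), IsLocalRing.residue_eq_zero_iff]
  exact hnu

/-- A number prime to `ℓ` is nonzero in the residue field. -/
theorem natCast_residue_ne_zero {ℓ : ℕ} (hℓ : ℓ.Prime) (hA : (ℓ : L) ∈ A.nonunits) {m : ℕ}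
    (hm : ¬ ℓ ∣ m) : (m : IsLocalRing.ResidueField A) ≠ 0 := by
  intro h0
  obtain ⟨a, b, hab⟩ := (Nat.Coprime.isCoprime ((Nat.Prime.coprime_iff_not_dvd hℓ).mpr hm))
  have := congrArg (Int.cast : ℤ → IsLocalRing.ResidueField A) hab
  push_cast at this
  rw [natCast_residue_self A hA, h0, mul_zero, mul_zero, add_zero] at this
  exact zero_ne_one this

end Fermat.Agent.Red
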