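import Fermat.Agent.FF.Basic

/-!
# The Riemann–Roch hypotheses used for reduction, and elementary consequences

The reduction arguments only use these hypotheses, so they apply to both the curve over
`Q̄` and the reduced curve.
-/

noncomputable section

open AlgebraicCurve WithZero

namespace Fermat.Agent.Red

variable {K F : Type*} [Field K] [Field F] [Algebra K F]

/-- `ℓ(D)`, the dimension of the Riemann–Roch space `L(D)`. -/
def ell (D : Divisor K F) : ℕ := Module.finrank K (riemannRochSpace D)

/-- What we use about a function field of genus `g` over an algebraically closed field. -/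
structure RR (K F : Type*) [Field K] [Field F] [Algebra K F] (g : ℕ) : Prop where
  deg_one : ∀ v : Place K F, v.deg = 1
  exists_div : ∀ f : F, f ≠ 0 → ∃ D : Divisor K F,
    (∀ v : Place K F, D v = v.ord f) ∧ Divisor.degree D = 0
  finiteDim : ∀ D : Divisor K F, FiniteDimensional K (riemannRochSpace D)
  ell_zero : ell (0 : Divisor K F) = 1
  riemann_roch : ∃ W : Divisor K F, ∀ D : Divisor K F,
    (ell D : ℤ) - ell (W - D) = Divisor.degree D + 1 - g

section Ord

export FF (ord_pow ord_div ord_neg ord_algebraMap ord_algebraMap_mul)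

/-- A function lies in the valuation ring of a place iff its order is nonnegative. -/
alias mem_place_iff := FF.mem_iff_ord_nonneg

/-- The order of a sum is at least the smaller order. -/
alias min_ord_le_ord_add := FF.min_le_ord_add

variable (v : Place K F)

/-- The order of a sum is bounded below by a common bound. -/
theorem le_ord_add {f g : F} {n : ℤ} (hf : f = 0 ∨ n ≤ v.ord f) (hg : g = 0 ∨ n ≤ v.ord g)
    (h : f + g ≠ 0) : n ≤ v.ord (f + g) := by
  rcases hf with rfl | hf
  · simp only [zero_add] at h ⊢
    exact hg.resolve_left h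
  rcases hg with rfl | hg
  · simpa using hf
  · exact (le_min hf hg).trans (min_ord_le_ord_add v h)

theorem ord_nonneg_add {f g : F} (hf : 0 ≤ v.ord f) (hg : 0 ≤ v.ord g) : 0 ≤ v.ord (f + g) :=
  (mem_place_iff v).mp (add_mem ((mem_place_iff v).mpr hf) ((mem_place_iff v).mpr hg))

/-- A function takes one value at a place. -/
theorem ord_sub_algebraMap_eq_zero {f : F} {a b : K} (hb : f = algebraMap K F b ∨
    0 < v.ord (f - algebraMap K F b)) (hab : a ≠ b) : v.ord (f - algebraMap K F a) = 0 := by
  have hba : algebraMap K F (b - a) ≠ 0 := by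
    rw [map_ne_zero]; exact sub_ne_zero.mpr (Ne.symm hab)
  rw [show f - algebraMap K F a = (f - algebraMap K F b) + algebraMap K F (b - a) by
    rw [map_sub]; ring]
  rcases hb with hb | hb
  · rw [hb, sub_self, zero_add, ord_algebraMap]
  · have hne : f - algebraMap K F b + algebraMap K F (b - a) ≠ 0 := by
      intro h0
      rw [eq_neg_of_add_eq_zero_left h0, ord_neg, ord_algebraMap] at hb
      exact lt_irrefl _ hb
    have h1 := min_ord_le_ord_add v hne
    rw [ord_algebraMap] at h1
    by_contra hcon
    have h2 : 0 < v.ord (f - algebraMap K F b + algebraMap K F (b - a)) := by omega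
    have h3 := le_ord_add v (n := 1) (f := f - algebraMap K F b + algebraMap K F (b - a))
      (g := -(f - algebraMap K F b)) (Or.inr (by omega)) (Or.inr (by rw [ord_neg]; omega))
      (by simpa using hba)
    rw [add_neg_cancel_comm, ord_algebraMap] at h3
    omega

/-- Residue of a regular function at a degree one place. -/
theorem exists_const_of_deg_one (hv : v.deg = 1) {f : F} (hf : 0 ≤ v.ord f) :
    ∃ c : K, f = algebraMap K F c ∨ 0 < v.ord (f - algebraMap K F c) := by
  have hd : Module.finrank K v.ResidueField = 1 := hv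
  obtain ⟨c, hc⟩ := (finrank_eq_one_iff_of_nonzero' (1 : v.ResidueField) one_ne_zero).mp hd
    (IsLocalRing.residue _ ⟨f, (mem_place_iff v).mpr hf⟩)
  refine ⟨c, ?_⟩
  rw [Algebra.smul_def, mul_one,
    show algebraMap K v.ResidueField c =
      IsLocalRing.residue _ (algebraMap K v.toValuationSubring c) from rfl,
    ← sub_eq_zero, ← map_sub, IsLocalRing.residue_eq_zero_iff] at hc
  set d : v.toValuationSubring :=
    algebraMap K v.toValuationSubring c - ⟨f, (mem_place_iff v).mpr hf⟩ with hd'
  have hdF : (d : F) = algebraMap K F c - f := rfl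
  by_cases h0 : f - algebraMap K F c = 0
  · exact Or.inl (sub_eq_zero.mp h0)
  refine Or.inr ?_
  have hd0 : (d : F) ≠ 0 := by rw [hdF, ← neg_sub]; exact neg_ne_zero.mpr h0
  rw [← ord_neg, neg_sub, ← hdF]
  refine lt_of_le_of_ne ((mem_place_iff v).mp d.2) fun h => ?_
  have h1 : v.adicValuation (d : F) = 1 := by
    rw [v.adicValuation_eq_exp_neg_ord hd0, ← h, neg_zero, exp_zero]
  exact (IsLocalRing.mem_maximalIdeal _).mp hc ((v.adicValuation_coe_eq_one_iff d).mp h1)

end Ord

/-- An effective divisor has nonnegative degree. -/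
theorem degree_nonneg_of_nonneg {D : Divisor K F} (hD : ∀ v, 0 ≤ D v) :
    0 ≤ Divisor.degree D := by
  rw [Divisor.degree, Finsupp.liftAddHom_apply, Finsupp.sum]
  exact Finset.sum_nonneg fun v _ => mul_nonneg (hD v) (Int.natCast_nonneg _)

namespace RR

variable {g : ℕ} (h : RR K F g)
include h

theorem ell_mono {D E : Divisor K F} (hle : riemannRochSpace D ≤ riemannRochSpace E) :
    ell D ≤ ell E :=
  have := h.finiteDim E
  Submodule.finrank_mono hle

omit h in
theorem space_mono {D E : Divisor K F} (hle : ∀ v, D v ≤ E v) :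
    riemannRochSpace D ≤ riemannRochSpace E := fun _ hf v =>
  (hf v).trans (exp_le_exp.mpr (hle v))

/-- A divisor with `ℓ(D) > 0` has a nonzero function in `L(D)`. -/
theorem exists_ne_zero_of_ell_pos {D : Divisor K F} (hD : 0 < ell D) :
    ∃ f ∈ riemannRochSpace D, f ≠ 0 := by
  have := h.finiteDim D
  by_contra hcon
  push Not at hcon
  have : riemannRochSpace D = ⊥ := (Submodule.eq_bot_iff _).mpr hcon
  rw [ell, this, finrank_bot] at hD
  exact lt_irrefl _ hD

/-- If `L(D)` is a line and `D ≥ 0`, it consists of constants. -/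
theorem eq_const_of_mem_of_ell_eq_one {D : Divisor K F} (hD : ∀ v, 0 ≤ D v)
    (h1 : ell D = 1) {f : F} (hf : f ∈ riemannRochSpace D) :
    ∃ c : K, f = algebraMap K F c := by
  have hone : (1 : F) ∈ riemannRochSpace D :=
    mem_riemannRochSpace_iff.mpr fun v => Or.inr (by have := hD v; rw [Place.ord_one]; omega)
  have := h.finiteDim D
  obtain ⟨c, hc⟩ := (finrank_eq_one_iff_of_nonzero' (⟨1, hone⟩ : riemannRochSpace D)
    (fun h0 => one_ne_zero (congrArg Subtype.val h0))).mp h1 ⟨f, hf⟩
  refine ⟨c, ?_⟩
  have := congrArg Subtype.val hc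
  rw [Submodule.coe_smul, Algebra.smul_def, mul_one] at this
  exact this.symm

/-- A function without poles is constant. -/
theorem eq_const_of_ord_nonneg {f : F} (hf : ∀ v : Place K F, 0 ≤ v.ord f) :
    ∃ c : K, f = algebraMap K F c :=
  h.eq_const_of_mem_of_ell_eq_one (D := 0) (fun _ => le_rfl) h.ell_zero
    (mem_riemannRochSpace_iff.mpr fun v => Or.inr (by simpa using hf v))

/-- A nonconstant function has a zero. -/
theorem exists_ord_pos {f : F} (hf : ∀ c : K, f ≠ algebraMap K F c) :
    ∃ v : Place K F, 0 < v.ord f := by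
  by_contra hcon
  push Not at hcon
  obtain ⟨c, hc⟩ := h.eq_const_of_ord_nonneg (f := f⁻¹)
    (fun v => by rw [v.ord_inv]; have := hcon v; omega)
  exact hf c⁻¹ (by rw [map_inv₀, ← hc, inv_inv])

/-- `ℓ(D) = 0` for `deg D < 0`. -/
theorem ell_eq_zero_of_degree_neg {D : Divisor K F} (hD : Divisor.degree D < 0) : ell D = 0 := by
  by_contra hne
  obtain ⟨f, hf, hf0⟩ := h.exists_ne_zero_of_ell_pos (Nat.pos_of_ne_zero hne)
  obtain ⟨E, hE, hEdeg⟩ := h.exists_div f hf0
  have hnn : ∀ v, 0 ≤ (E + D) v := fun v => by
    have := ((mem_riemannRochSpace_iff.mp hf) v).resolve_left hf0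
    rw [Finsupp.add_apply, hE]; omega
  have : 0 ≤ Divisor.degree (E + D) := degree_nonneg_of_nonneg hnn
  rw [map_add, hEdeg, zero_add] at this
  omega

/-- A canonical divisor has degree `2g - 2` and `g` sections. -/
theorem exists_canonical : ∃ W : Divisor K F, Divisor.degree W = 2 * (g : ℤ) - 2 ∧ ell W = g ∧
    ∀ D : Divisor K F, (ell D : ℤ) - ell (W - D) = Divisor.degree D + 1 - g := by
  obtain ⟨W, hW⟩ := h.riemann_roch
  have h0 := hW 0
  rw [sub_zero, h.ell_zero, map_zero] at h0
  have h1 := hW W
  rw [sub_self, h.ell_zero] at h1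
  exact ⟨W, by omega, by omega, hW⟩

/-- Riemann's inequality. -/
theorem riemann (D : Divisor K F) : Divisor.degree D + 1 - g ≤ ell D := by
  obtain ⟨W, hW⟩ := h.riemann_roch
  have := hW D
  omega

/-- `ℓ(D) = deg D + 1 - g` for `deg D ≥ 2g - 1`. -/
theorem ell_eq_of_large {D : Divisor K F} (hD : 2 * (g : ℤ) - 1 ≤ Divisor.degree D) :
    (ell D : ℤ) = Divisor.degree D + 1 - g := by
  obtain ⟨W, hd, -, hW⟩ := h.exists_canonical
  have h1 := hW D
  rw [h.ell_eq_zero_of_degree_neg (D := W - D) (by rw [map_sub]; omega)] at h1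
  omega

/-- Removing a place lowers `ℓ` by at most one. -/
theorem ell_le_sub_single_add_one (D : Divisor K F) (P : Place K F) :
    ell D ≤ ell (D - Finsupp.single P 1) + 1 := by
  obtain ⟨W, hW⟩ := h.riemann_roch
  have h1 := hW D
  have h2 := hW (D - Finsupp.single P 1)
  have h3 : ell (W - D) ≤ ell (W - (D - Finsupp.single P 1)) := by
    refine h.ell_mono (space_mono fun v => ?_)
    rw [Finsupp.sub_apply, Finsupp.sub_apply, Finsupp.sub_apply]
    rcases eq_or_ne v P with rfl | hv
    · rw [Finsupp.single_eq_same]; omega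
    · rw [Finsupp.single_eq_of_ne hv]; omega
  rw [map_sub, Divisor.degree_single, h.deg_one] at h2
  omega

/-- The only effective divisor of degree zero is zero. -/
theorem eq_zero_of_degree_eq_zero {D : Divisor K F} (hD : ∀ v, 0 ≤ D v)
    (hdeg : Divisor.degree D = 0) : D = 0 := by
  ext v
  by_contra hv
  have hsum : Divisor.degree D = ∑ w ∈ D.support, D w * (w.deg : ℤ) := by
    rw [Divisor.degree, Finsupp.liftAddHom_apply]; rfl
  have := Finset.single_le_sum (f := fun w => D w * (w.deg : ℤ))
    (fun w _ => mul_nonneg (hD w) (Int.natCast_nonneg _)) (Finsupp.mem_support_iff.mpr hv)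
  rw [← hsum, hdeg, h.deg_one] at this
  rw [Finsupp.zero_apply] at hv
  have := hD v
  push_cast at *
  omega

/-- A map of places keeps the degree of divisors, all places having degree one. -/
theorem degree_mapDomain_eq {K' F' : Type*} [Field K'] [Field F'] [Algebra K' F'] {g' : ℕ}
    (h' : RR K' F' g') (r : Place K F → Place K' F') (D : Divisor K F) :
    Divisor.degree (Finsupp.mapDomain r D) = Divisor.degree D := by
  induction D using Finsupp.induction with
  | zero => simp
  | single_add v n D _ _ ih =>
    rw [Finsupp.mapDomain_add, map_add, map_add, ih, Finsupp.mapDomain_single,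
      Divisor.degree_single, Divisor.degree_single, h.deg_one, h'.deg_one]

end RR

end Fermat.Agent.Red
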