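import Mathlib.Algebra.Module.Submodule.Union
import Mathlib.LinearAlgebra.FiniteDimensional.Lemmas
import Fermat.Agent.Red.RR

/-!
# The base point free pencil trick

It bounds below the dimension of the products of two spaces of sections, which is the key step in
the construction of the reduction map on places.
-/

noncomputable section

open AlgebraicCurve

namespace Fermat.Agent.Red

variable {K F : Type*} [Field K] [Field F] [Algebra K F]

/-- Membership in `L(D)` for a nonzero function. -/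
theorem mem_space_iff {D : Divisor K F} {f : F} (hf : f ≠ 0) :
    f ∈ riemannRochSpace D ↔ ∀ v : Place K F, -D v ≤ v.ord f := by
  rw [mem_riemannRochSpace_iff]
  exact forall_congr' fun v => or_iff_right hf

/-- `L(A) L(D) ⊆ L(A + D)`. -/
theorem mul_mem_space_add {A D : Divisor K F} {a w : F} (ha : a ∈ riemannRochSpace A)
    (hw : w ∈ riemannRochSpace D) : w * a ∈ riemannRochSpace (A + D) := by
  rcases eq_or_ne a 0 with rfl | ha0
  · rw [mul_zero]; exact zero_mem _
  rcases eq_or_ne w 0 with rfl | hw0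
  · rw [zero_mul]; exact zero_mem _
  rw [mem_space_iff (mul_ne_zero hw0 ha0)]
  intro v
  have h1 := (mem_space_iff ha0).mp ha v
  have h2 := (mem_space_iff hw0).mp hw v
  rw [Finsupp.add_apply, v.ord_mul hw0 ha0]
  omega

/-- A section outside `L(D - Q)` has order exactly `-D(Q)` at `Q`. -/
theorem ord_eq_of_notMem {D : Divisor K F} {w : F} (hw : w ∈ riemannRochSpace D)
    {Q : Place K F} (hQ : w ∉ riemannRochSpace (D - Finsupp.single Q 1)) : Q.ord w = -D Q := by
  have hw0 : w ≠ 0 := fun h => hQ (h ▸ zero_mem _)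
  have h1 := (mem_space_iff hw0).mp hw
  by_contra hne
  refine hQ ((mem_space_iff hw0).mpr fun v => ?_)
  rw [Finsupp.sub_apply]
  rcases eq_or_ne v Q with rfl | hv
  · rw [Finsupp.single_eq_same]
    have := h1 v
    omega
  · rw [Finsupp.single_eq_of_ne hv]
    have := h1 v
    omega

namespace RR

variable {g : ℕ} (h : RR K F g)
include h

/-- Two elements of `W` without a common zero, if `W` has no base point. -/
theorem exists_pencil [Infinite K] {D : Divisor K F} {W : Submodule K F}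
    (hW0 : W ≠ ⊥)
    (hbpf : ∀ Q : Place K F, ¬ W ≤ riemannRochSpace (D - Finsupp.single Q 1)) :
    ∃ w₁ ∈ W, ∃ w₂ ∈ W, w₁ ≠ 0 ∧ w₂ ≠ 0 ∧ ∀ Q : Place K F,
      w₁ ∈ riemannRochSpace (D - Finsupp.single Q 1) →
        w₂ ∉ riemannRochSpace (D - Finsupp.single Q 1) := by
  classical
  obtain ⟨w₁, hw₁, hw₁0⟩ := (Submodule.ne_bot_iff _).mp hW0
  obtain ⟨Dw, hDw, -⟩ := h.exists_div w₁ hw₁0
  let S : Finset (Place K F) := Dw.support ∪ D.support
  let p : Option S → Submodule K W := fun o => match o with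
    | none => ⊥
    | some Q => (riemannRochSpace (D - Finsupp.single (Q : Place K F) 1)).comap W.subtype
  have hp : ∀ o, p o ≠ ⊤ := by
    rintro (_ | Q) htop
    · have h1 : (⟨w₁, hw₁⟩ : W) ∈ p none := htop ▸ Submodule.mem_top
      exact hw₁0 (congrArg Subtype.val ((Submodule.mem_bot K).mp h1))
    · refine hbpf Q fun w hw => ?_
      have h1 : (⟨w, hw⟩ : W) ∈ p (some Q) := htop ▸ Submodule.mem_top
      exact h1
  obtain ⟨⟨w₂, hw₂⟩, hw₂p⟩ := Submodule.exists_forall_notMem_of_forall_ne_top p hp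
  refine ⟨w₁, hw₁, w₂, hw₂, hw₁0, fun h0 => hw₂p none ?_, fun Q hQ1 hQ2 => ?_⟩
  · subst h0; exact (Submodule.mem_bot K).mpr rfl
  by_cases hQ : Q ∈ S
  · exact hw₂p (some ⟨Q, hQ⟩) hQ2
  simp only [S, Finset.mem_union, not_or, Finsupp.notMem_support_iff] at hQ
  have h1 := (mem_space_iff hw₁0).mp hQ1 Q
  rw [Finsupp.sub_apply, Finsupp.single_eq_same, ← hDw, hQ.1, hQ.2] at h1
  omega

/-- `w₁ L(A) + w₂ L(A) = L(A + D)`. -/
theorem pencil_le {A D : Divisor K F} {w₁ w₂ : F} (hw₁ : w₁ ∈ riemannRochSpace D)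
    (hw₂ : w₂ ∈ riemannRochSpace D) (h₁0 : w₁ ≠ 0) (h₂0 : w₂ ≠ 0)
    (hcz : ∀ Q : Place K F, w₁ ∈ riemannRochSpace (D - Finsupp.single Q 1) →
      w₂ ∉ riemannRochSpace (D - Finsupp.single Q 1))
    (hD : 0 ≤ Divisor.degree D) (hA : 2 * (g : ℤ) - 1 ≤ Divisor.degree A - Divisor.degree D)
    {T : Submodule K F} (hT₁ : ∀ a ∈ riemannRochSpace A, w₁ * a ∈ T)
    (hT₂ : ∀ a ∈ riemannRochSpace A, w₂ * a ∈ T) : riemannRochSpace (A + D) ≤ T := by
  set S₁ := (riemannRochSpace A).map (LinearMap.mulLeft K w₁) with hS₁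
  set S₂ := (riemannRochSpace A).map (LinearMap.mulLeft K w₂) with hS₂
  have := h.finiteDim A
  have := h.finiteDim (A - D)
  have := h.finiteDim (A + D)
  have hsup : S₁ ⊔ S₂ ≤ riemannRochSpace (A + D) := by
    refine sup_le ?_ ?_ <;> rintro _ ⟨a, ha, rfl⟩
    · exact mul_mem_space_add ha hw₁
    · exact mul_mem_space_add ha hw₂
  have hinf : S₁ ⊓ S₂ ≤ (riemannRochSpace (A - D)).map (LinearMap.mulLeft K (w₁ * w₂)) := by
    rintro _ ⟨⟨a, ha, rfl⟩, ⟨b, hb, hab⟩⟩
    simp only [LinearMap.mulLeft_apply] at hab ⊢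
    refine ⟨a / w₂, ?_, by rw [LinearMap.mulLeft_apply]; field_simp⟩
    rcases eq_or_ne a 0 with rfl | ha0
    · rw [zero_div]; exact zero_mem _
    have hb0 : b ≠ 0 := by
      rintro rfl
      rw [mul_zero, eq_comm, mul_eq_zero] at hab
      exact hab.elim h₁0 ha0
    rw [SetLike.mem_coe, mem_space_iff (div_ne_zero ha0 h₂0)]
    intro v
    have h1 := (mem_space_iff ha0).mp ha v
    have h2 := (mem_space_iff hb0).mp hb v
    have h3 := congrArg v.ord hab
    rw [v.ord_mul h₂0 hb0, v.ord_mul h₁0 ha0] at h3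
    rw [Finsupp.sub_apply, ord_div v ha0 h₂0]
    by_cases hv : w₁ ∈ riemannRochSpace (D - Finsupp.single v 1)
    · have := ord_eq_of_notMem hw₂ (hcz v hv)
      omega
    · have := ord_eq_of_notMem hw₁ hv
      omega
  have e1 : Module.finrank K S₁ = ell A :=
    (Submodule.equivMapOfInjective _ (mul_right_injective₀ h₁0) _).finrank_eq.symm
  have e2 : Module.finrank K S₂ = ell A :=
    (Submodule.equivMapOfInjective _ (mul_right_injective₀ h₂0) _).finrank_eq.symm
  have e3 : Module.finrank K (S₁ ⊓ S₂ : Submodule K F) ≤ ell (A - D) :=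
    (Submodule.finrank_mono hinf).trans (Submodule.finrank_map_le _ _)
  have e4 := Submodule.finrank_sup_add_finrank_inf_eq S₁ S₂
  have l1 := h.ell_eq_of_large (D := A) (by omega)
  have l2 := h.ell_eq_of_large (D := A - D) (by rw [map_sub]; omega)
  have l3 := h.ell_eq_of_large (D := A + D) (by rw [map_add]; omega)
  rw [map_sub] at l2
  rw [map_add] at l3
  have heq : S₁ ⊔ S₂ = riemannRochSpace (A + D) :=
    Submodule.eq_of_le_of_finrank_le hsup (by
      show ell (A + D) ≤ _
      omega)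
  rw [← heq]
  refine sup_le ?_ ?_ <;> rintro _ ⟨a, ha, rfl⟩
  · exact hT₁ a ha
  · exact hT₂ a ha

end RR

end Fermat.Agent.Red
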