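import Fermat.Agent.Red.Lattice
import Fermat.Agent.Red.Pencil

/-!
# Existence of the reduction map on places

If the Riemann–Roch lattices of the multiples of a divisor reduce onto the corresponding spaces
of the reduced field, reduction of functions determines a map on places compatible with divisors.
-/

noncomputable section

open AlgebraicCurve

namespace Fermat.Agent.Red

variable {L F k Fk : Type*} [Field L] [Field F] [Algebra L F] [Field k] [Field Fk] [Algebra k Fk]
variable {A : ValuationSubring L} {π : A →+* k}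

namespace RedBase

/-- The lattices `L(nP) ∩ O` reduce onto `L(nQ)` for large `n`. -/
structure LatticeSurj (R : RedBase A π F Fk) (P : Divisor L F) (Q : Divisor k Fk) (d : ℕ) :
    Prop where
  d_pos : 0 < d
  degree_left : Divisor.degree P = d
  degree_right : Divisor.degree Q = d
  rank : ∀ (V : Submodule L F), FiniteDimensional L V →
    Module.finrank L V ≤ Module.finrank k (R.redImage V)
  surj : ∃ n₁ : ℕ, ∀ n ≥ n₁,
    R.redImage (riemannRochSpace (n • P)) = riemannRochSpace (n • Q)

variable (R : RedBase A π F Fk) {g : ℕ}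

/-- Reduced lattices multiply. -/
theorem mul_mem_redImage {E₁ E₂ : Divisor L F} {a b : Fk}
    (ha : a ∈ R.redImage (riemannRochSpace E₁)) (hb : b ∈ R.redImage (riemannRochSpace E₂)) :
    a * b ∈ R.redImage (riemannRochSpace (E₂ + E₁)) := by
  obtain ⟨u, hu, rfl⟩ := ha
  obtain ⟨v, hv, rfl⟩ := hb
  exact ⟨u * v, mul_mem_space_add hv hu, map_mul _ _ _⟩

variable {P : Divisor L F} {Q : Divisor k Fk} {d : ℕ}
variable (hF : RR L F g) (hK : RR k Fk g) (hS : R.LatticeSurj P Q d)
include hF hK hS

omit hK in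
/-- The reduced space has the Riemann–Roch dimension. -/
theorem finrank_redImage_eq {E : Divisor L F} (hE : 2 * (g : ℤ) - 1 ≤ Divisor.degree E) :
    (Module.finrank k (R.redImage (riemannRochSpace E)) : ℤ) = Divisor.degree E + 1 - g := by
  have := hF.finiteDim E
  have h1 := R.finrank_redImage_le (riemannRochSpace E)
  have h2 := hS.rank (riemannRochSpace E) inferInstance
  have h3 := hF.ell_eq_of_large hE
  rw [ell] at h3
  omega

omit hF hK in
theorem degree_nsmul_left (n : ℕ) : Divisor.degree (n • P) = (n : ℤ) * d := by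
  rw [map_nsmul, hS.degree_left, nsmul_eq_mul]

omit hF hK in
theorem degree_nsmul_right (n : ℕ) : Divisor.degree (n • Q) = (n : ℤ) * d := by
  rw [map_nsmul, hS.degree_right, nsmul_eq_mul]

/-- The reduction of a place. -/
theorem exists_reduced_place [Infinite k] {n₀ : ℕ}
    (hn₀ : ∀ n ≥ n₀, R.redImage (riemannRochSpace (n • P)) = riemannRochSpace (n • Q))
    (hbig : 2 * (g : ℤ) + 2 ≤ (n₀ : ℤ) * d) (v : Place L F) :
    ∃ q : Place k Fk, R.redImage (riemannRochSpace (n₀ • P - Finsupp.single v 1)) =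
      riemannRochSpace (n₀ • Q - Finsupp.single q 1) := by
  classical
  set W := R.redImage (riemannRochSpace (n₀ • P - Finsupp.single v 1)) with hW
  have hdegW : Divisor.degree (n₀ • P - Finsupp.single v 1) = (n₀ : ℤ) * d - 1 := by
    rw [map_sub, R.degree_nsmul_left hS, Divisor.degree_single, hF.deg_one]
    push_cast; ring
  have hWdim := R.finrank_redImage_eq hF hS (E := n₀ • P - Finsupp.single v 1)
    (by rw [hdegW]; omega)
  rw [hdegW, ← hW] at hWdim
  have hsub : riemannRochSpace (n₀ • P - Finsupp.single v 1) ≤ riemannRochSpace (n₀ • P) :=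
    RR.space_mono fun w => by
      rw [Finsupp.sub_apply, Finsupp.single_apply]; split_ifs <;> omega
  have hWle : W ≤ riemannRochSpace (n₀ • Q) := hn₀ n₀ le_rfl ▸ R.redImage_mono hsub
  by_cases hbase : ∃ q : Place k Fk, W ≤ riemannRochSpace (n₀ • Q - Finsupp.single q 1)
  · obtain ⟨q, hq⟩ := hbase
    have := hK.finiteDim (n₀ • Q - Finsupp.single q 1)
    refine ⟨q, Submodule.eq_of_le_of_finrank_le hq ?_⟩
    have hdeg : Divisor.degree (n₀ • Q - Finsupp.single q 1) = (n₀ : ℤ) * d - 1 := by
      rw [map_sub, R.degree_nsmul_right hS, Divisor.degree_single, hK.deg_one]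
      push_cast; ring
    have h1 := hK.ell_eq_of_large (D := n₀ • Q - Finsupp.single q 1) (by rw [hdeg]; omega)
    rw [hdeg, ell] at h1
    omega
  exfalso
  push Not at hbase
  have hW0 : W ≠ ⊥ := fun h0 => by
    rw [h0, finrank_bot] at hWdim
    push_cast at hWdim
    omega
  obtain ⟨w₁, hw₁, w₂, hw₂, h₁0, h₂0, hcz⟩ := hK.exists_pencil hW0 hbase
  set T := R.redImage (riemannRochSpace ((3 * n₀) • P - Finsupp.single v 1)) with hT
  have hprod : ∀ w ∈ W, ∀ a ∈ riemannRochSpace ((2 * n₀) • Q), w * a ∈ T := by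
    intro w hw a ha
    rw [← hn₀ (2 * n₀) (by omega)] at ha
    have := R.mul_mem_redImage hw ha
    rwa [show (2 * n₀) • P + (n₀ • P - Finsupp.single v 1) = (3 * n₀) • P - Finsupp.single v 1 by
      rw [← add_sub_assoc, ← add_nsmul, show 2 * n₀ + n₀ = 3 * n₀ by ring]] at this
  have hle := hK.pencil_le (A := (2 * n₀) • Q) (D := n₀ • Q) (hWle hw₁) (hWle hw₂) h₁0 h₂0 hcz
    (by rw [R.degree_nsmul_right hS]; positivity)
    (by rw [R.degree_nsmul_right hS, R.degree_nsmul_right hS]; push_cast; nlinarith)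
    (hprod w₁ hw₁) (hprod w₂ hw₂)
  rw [← add_nsmul, show 2 * n₀ + n₀ = 3 * n₀ by ring] at hle
  have := hF.finiteDim ((3 * n₀) • P - Finsupp.single v 1)
  have h1 := Submodule.finrank_mono hle
  have h2 := hK.ell_eq_of_large (D := (3 * n₀) • Q)
    (by rw [R.degree_nsmul_right hS]; push_cast; nlinarith)
  have h3 := R.finrank_redImage_eq hF hS (E := (3 * n₀) • P - Finsupp.single v 1) (by
    rw [map_sub, R.degree_nsmul_left hS, Divisor.degree_single, hF.deg_one]
    push_cast; nlinarith)
  rw [map_sub, R.degree_nsmul_left hS, Divisor.degree_single, hF.deg_one, ← hT] at h3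
  rw [R.degree_nsmul_right hS, ell] at h2
  push_cast at h2 h3
  omega

/-- The lattices with prescribed effective zeros reduce onto as well. -/
theorem exists_redImage_sub_eq [Infinite k] {n₀ : ℕ} (hbig : 2 * (g : ℤ) + 2 ≤ (n₀ : ℤ) * d)
    (hn₀ : ∀ n ≥ n₀, R.redImage (riemannRochSpace (n • P)) = riemannRochSpace (n • Q))
    {r : Place L F → Place k Fk}
    (hr : ∀ v, R.redImage (riemannRochSpace (n₀ • P - Finsupp.single v 1)) =
      riemannRochSpace (n₀ • Q - Finsupp.single (r v) 1)) :
    ∀ (m : ℕ) (Z : Divisor L F), (∀ v, 0 ≤ Z v) → Divisor.degree Z = m →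
      ∃ N : ℕ, ∀ n ≥ N, R.redImage (riemannRochSpace (n • P - Z)) =
        riemannRochSpace (n • Q - Finsupp.mapDomain r Z) := by
  classical
  have hd : (1 : ℤ) ≤ d := by exact_mod_cast hS.d_pos
  have hdegmap := hF.degree_mapDomain_eq hK r
  intro m
  induction m with
  | zero =>
    intro Z hZ hdeg
    have hZ0 : Z = 0 := hF.eq_zero_of_degree_eq_zero hZ (by exact_mod_cast hdeg)
    subst hZ0
    exact ⟨n₀, fun n hn => by simpa using hn₀ n hn⟩
  | succ m ih =>
    intro Z hZ hdeg
    obtain ⟨v, hv⟩ : ∃ v, Z v ≠ 0 := by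
      by_contra hcon
      push Not at hcon
      rw [show Z = 0 from Finsupp.ext hcon, map_zero] at hdeg
      omega
    set Z' := Z - Finsupp.single v 1 with hZ'
    have hZ'nn : ∀ w, 0 ≤ Z' w := fun w => by
      rw [hZ', Finsupp.sub_apply, Finsupp.single_apply]
      have := hZ w
      split_ifs with h
      · subst h; omega
      · omega
    have hdeg' : Divisor.degree Z' = m := by
      rw [hZ', map_sub, Divisor.degree_single, hF.deg_one, hdeg]; push_cast; ring
    obtain ⟨N, hN⟩ := ih Z' hZ'nn hdeg'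
    refine ⟨N + n₀ + (n₀ * d + m + 2 * g) + n₀, fun n hn => ?_⟩
    obtain ⟨n', rfl⟩ := Nat.exists_eq_add_of_le (show n₀ ≤ n by omega)
    set A' := n' • Q - Finsupp.mapDomain r Z' with hA'
    set D' := n₀ • Q - Finsupp.single (r v) 1 with hD'
    have hAdeg : Divisor.degree A' = (n' : ℤ) * d - m := by
      rw [hA', map_sub, R.degree_nsmul_right hS, hdegmap, hdeg']
    have hDdeg : Divisor.degree D' = (n₀ : ℤ) * d - 1 := by
      rw [hD', map_sub, R.degree_nsmul_right hS, Divisor.degree_single, hK.deg_one]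
      push_cast; ring
    have hn'big : (n₀ : ℤ) * d + m + 2 * g ≤ (n' : ℤ) * d := by
      have : ((n₀ * d + m + 2 * g : ℕ) : ℤ) ≤ n' := by
        exact_mod_cast (show n₀ * d + m + 2 * g ≤ n' by omega)
      push_cast at this
      nlinarith
    have hDl := hK.ell_eq_of_large (D := D') (by omega)
    have hbpf : ∀ q : Place k Fk,
        ¬ riemannRochSpace D' ≤ riemannRochSpace (D' - Finsupp.single q 1) := by
      intro q hle
      have hd' : Divisor.degree (D' - Finsupp.single q 1) = (n₀ : ℤ) * d - 2 := by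
        rw [map_sub, hDdeg, Divisor.degree_single, hK.deg_one]; push_cast; ring
      have h1 := hK.ell_eq_of_large (D := D' - Finsupp.single q 1) (by omega)
      have h2 := hK.ell_mono hle
      omega
    have hD0 : riemannRochSpace D' ≠ ⊥ := fun h0 => by
      rw [ell, h0, finrank_bot] at hDl
      push_cast at hDl
      omega
    obtain ⟨w₁, hw₁, w₂, hw₂, h₁0, h₂0, hcz⟩ := hK.exists_pencil hD0 hbpf
    have hsum : n' • P - Z' + (n₀ • P - Finsupp.single v 1) = (n₀ + n') • P - Z := by
      rw [hZ', add_nsmul _ n₀ n']; abel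
    have hprod : ∀ w ∈ riemannRochSpace D', ∀ a ∈ riemannRochSpace A',
        w * a ∈ R.redImage (riemannRochSpace ((n₀ + n') • P - Z)) := by
      intro w hw a ha
      rw [hD', ← hr] at hw
      rw [hA', ← hN n' (by omega)] at ha
      exact hsum ▸ R.mul_mem_redImage hw ha
    have hle := hK.pencil_le (A := A') (D := D') hw₁ hw₂ h₁0 h₂0 hcz (by omega) (by omega)
      (hprod w₁ hw₁) (hprod w₂ hw₂)
    have hAD : A' + D' = (n₀ + n') • Q - Finsupp.mapDomain r Z := by
      have : Z = Z' + Finsupp.single v 1 := by rw [hZ', sub_add_cancel]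
      rw [hA', hD', this, Finsupp.mapDomain_add, Finsupp.mapDomain_single, add_nsmul _ n₀ n']
      abel
    rw [hAD] at hle
    have := hF.finiteDim ((n₀ + n') • P - Z)
    refine (Submodule.eq_of_le_of_finrank_le hle ?_).symm
    have hLdeg : Divisor.degree ((n₀ + n') • P - Z) = ((n₀ + n' : ℕ) : ℤ) * d - (m + 1) := by
      rw [map_sub, R.degree_nsmul_left hS, hdeg]; push_cast; ring
    have hRdeg : Divisor.degree ((n₀ + n') • Q - Finsupp.mapDomain r Z) =
        ((n₀ + n' : ℕ) : ℤ) * d - (m + 1) := by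
      rw [map_sub, R.degree_nsmul_right hS, hdegmap, hdeg]; push_cast; ring
    have h1 := R.finrank_redImage_eq hF hS (E := (n₀ + n') • P - Z)
      (by rw [hLdeg]; push_cast; nlinarith)
    have h2 := hK.ell_eq_of_large (D := (n₀ + n') • Q - Finsupp.mapDomain r Z)
      (by rw [hRdeg]; push_cast; nlinarith)
    rw [hLdeg] at h1
    rw [hRdeg, ell] at h2
    omega

/-- If the lattices `L(nP - Z)` reduce onto `L(nQ - r Z)` for the zero and the pole part `Z` of
the divisor `D` of `u`, then the order of the reduction of `u` is at least `r D`. -/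
theorem mapDomain_le_ord_red {r : Place L F → Place k Fk} {u : R.O} (hu : R.red u ≠ 0)
    {D Zp Zm : Divisor L F} (hD : ∀ v, D v = v.ord (u : F)) (hD0 : D = Zp - Zm) {n : ℕ}
    (hnd : Divisor.degree Zm + 2 * g ≤ (n : ℤ) * d)
    (hNp : R.redImage (riemannRochSpace (n • P - Zp)) =
      riemannRochSpace (n • Q - Finsupp.mapDomain r Zp))
    (hNm : R.redImage (riemannRochSpace (n • P - Zm)) =
      riemannRochSpace (n • Q - Finsupp.mapDomain r Zm)) (q : Place k Fk) :
    Finsupp.mapDomain r D q ≤ q.ord (R.red u) := by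
  have hu0 : (u : F) ≠ 0 := R.coe_ne_zero hu
  have hdegmap := hF.degree_mapDomain_eq hK r
  set A' := n • Q - Finsupp.mapDomain r Zm with hA'
  have hAdeg : Divisor.degree A' = (n : ℤ) * d - Divisor.degree Zm := by
    rw [hA', map_sub, R.degree_nsmul_right hS, hdegmap]
  obtain ⟨w, hw, hwn⟩ : ∃ w ∈ riemannRochSpace A',
      w ∉ riemannRochSpace (A' - Finsupp.single q 1) := by
    by_contra hcon
    push Not at hcon
    have h1 := hK.ell_eq_of_large (D := A') (by omega)
    have h2 := hK.ell_eq_of_large (D := A' - Finsupp.single q 1)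
      (by rw [map_sub, Divisor.degree_single, hK.deg_one]; push_cast; omega)
    have h3 := hK.ell_mono (D := A') (E := A' - Finsupp.single q 1) hcon
    rw [map_sub, Divisor.degree_single, hK.deg_one] at h2
    push_cast at h2
    omega
  have hword := ord_eq_of_notMem hw hwn
  have hw0 : w ≠ 0 := fun h => hwn (h ▸ zero_mem _)
  have hw' : w ∈ R.redImage (riemannRochSpace (n • P - Zm)) := by
    rw [hNm]; exact hw
  obtain ⟨z, hz, rfl⟩ := hw'
  have huz : R.red u * R.red z ∈ R.redImage (riemannRochSpace (n • P - Zp)) := by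
    refine ⟨u * z, ?_, map_mul _ _ _⟩
    rcases eq_or_ne (z : F) 0 with hz0 | hz0
    · rw [Subring.coe_mul, hz0, mul_zero]; exact zero_mem _
    rw [Subring.coe_mul, mem_space_iff (mul_ne_zero hu0 hz0)]
    intro v
    have h1 := (mem_space_iff hz0).mp hz v
    have h2 : D v = Zp v - Zm v := by rw [hD0, Finsupp.sub_apply]
    rw [Finsupp.sub_apply] at h1 ⊢
    rw [v.ord_mul hu0 hz0, ← hD]
    omega
  rw [hNp] at huz
  have h3 := (mem_space_iff (mul_ne_zero hu hw0)).mp huz q
  rw [q.ord_mul hu hw0, hword, hA'] at h3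
  rw [hD0, Finsupp.mapDomain_sub, Finsupp.sub_apply]
  simp only [Finsupp.sub_apply] at h3
  omega

/-- Existence of a map on places compatible with divisors of reductions. -/
theorem exists_placeMap [Infinite k] : ∃ r : Place L F → Place k Fk,
    ∀ u : R.O, R.red u ≠ 0 → ∀ D : Divisor L F, (∀ v, D v = v.ord (u : F)) →
      ∀ q, Finsupp.mapDomain r D q = q.ord (R.red u) := by
  classical
  obtain ⟨n₁, hn₁⟩ := hS.surj
  set n₀ := n₁ + (2 * g + 2) with hn₀def
  have hd : (1 : ℤ) ≤ d := by exact_mod_cast hS.d_pos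
  have hbig : 2 * (g : ℤ) + 2 ≤ (n₀ : ℤ) * d := by
    rw [hn₀def]; push_cast; nlinarith
  have hn₀ : ∀ n ≥ n₀, R.redImage (riemannRochSpace (n • P)) = riemannRochSpace (n • Q) :=
    fun n hn => hn₁ n (by omega)
  choose r hr using R.exists_reduced_place hF hK hS hn₀ hbig
  have hdegmap := hF.degree_mapDomain_eq hK r
  have claim := R.exists_redImage_sub_eq hF hK hS hbig hn₀ hr
  refine ⟨r, fun u hu D hD => ?_⟩
  set Zp : Divisor L F := D.mapRange (fun z => max z 0) (by simp) with hZp
  set Zm : Divisor L F := D.mapRange (fun z => max (-z) 0) (by simp) with hZm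
  have hZpnn : ∀ v, 0 ≤ Zp v := fun v => by rw [hZp, Finsupp.mapRange_apply]; exact le_max_right _ _
  have hZmnn : ∀ v, 0 ≤ Zm v := fun v => by rw [hZm, Finsupp.mapRange_apply]; exact le_max_right _ _
  have hD0 : D = Zp - Zm := Finsupp.ext fun v => by
    rw [Finsupp.sub_apply, hZp, hZm, Finsupp.mapRange_apply, Finsupp.mapRange_apply]; omega
  have hu0 : (u : F) ≠ 0 := R.coe_ne_zero hu
  have hdegD : Divisor.degree D = 0 := by
    obtain ⟨E, hE, hEdeg⟩ := hF.exists_div _ hu0
    rwa [show D = E from Finsupp.ext fun v => by rw [hD, hE]]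
  obtain ⟨Np, hNp⟩ := claim (Divisor.degree Zp).toNat Zp hZpnn
    (Int.toNat_of_nonneg (degree_nonneg_of_nonneg hZpnn)).symm
  obtain ⟨Nm, hNm⟩ := claim (Divisor.degree Zm).toNat Zm hZmnn
    (Int.toNat_of_nonneg (degree_nonneg_of_nonneg hZmnn)).symm
  set n := Np + Nm + ((Divisor.degree Zm).toNat + 2 * g) with hn
  have hnd : Divisor.degree Zm + 2 * g ≤ (n : ℤ) * d := by
    have h1 := Int.toNat_of_nonneg (degree_nonneg_of_nonneg hZmnn)
    rw [hn]; push_cast
    nlinarith [h1, Int.natCast_nonneg Np, Int.natCast_nonneg Nm]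
  -- one inequality everywhere
  have hge := R.mapDomain_le_ord_red hF hK hS hu hD hD0 hnd (hNp n (by omega)) (hNm n (by omega))
  obtain ⟨Dk, hDk, hDkdeg⟩ := hK.exists_div _ hu
  intro q
  by_contra hne
  set E := Dk - Finsupp.mapDomain r D with hE
  have hEnn : ∀ w, 0 ≤ E w := fun w => by
    rw [hE, Finsupp.sub_apply, hDk]; have := hge w; omega
  have hEq : 0 < E q := by rw [hE, Finsupp.sub_apply, hDk]; have := hge q; omega
  have hEdeg : Divisor.degree E = 0 := by rw [hE, map_sub, hDkdeg, hdegmap, hdegD, sub_zero]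
  rw [hK.eq_zero_of_degree_eq_zero hEnn hEdeg, Finsupp.zero_apply] at hEq
  exact lt_irrefl 0 hEq

end RedBase

end Fermat.Agent.Red
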