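import Fermat.Agent.Red.Gauss

/-!
# Reduction respects pole bounds

If `u` has poles only at the poles of `x`, bounded by `m` times those of `x`, then so does its
reduction. The proof is by counting dimensions in `L(D₀ + n · (x)_∞)`.
-/

noncomputable section

open AlgebraicCurve

namespace Fermat.Agent.Red

variable {L F k Fk : Type*} [Field L] [Field F] [Algebra L F] [Field k] [Field Fk] [Algebra k Fk]
variable {A : ValuationSubring L} {π : A →+* k}

section Filtration

variable {K E : Type*} [Field K] [Field E] [Algebra K E]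

/-- Elements of strictly increasing pole order enlarge a space of bounded pole order. -/
theorem finrank_add_le_of_increasing (v : Place K E) (W : Submodule K E) [FiniteDimensional K W]
    (U : Submodule K E) (hU : U ≤ W) {C : ℤ} (hC0 : 0 ≤ C) (hUC : U ≤ FF.poleLe v C) :
    ∀ (N : ℕ) (f : ℕ → E), (∀ i < N, f i ∈ W) → (∀ i < N, C < -v.ord (f i)) →
      (∀ i j, i < j → j < N → -v.ord (f i) < -v.ord (f j)) →
      ∃ U' : Submodule K E, U' ≤ W ∧ Module.finrank K U + N ≤ Module.finrank K U' ∧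
        ∀ B : ℤ, C ≤ B → (∀ i < N, -v.ord (f i) ≤ B) → U' ≤ FF.poleLe v B := by
  intro N
  induction N with
  | zero =>
    intro f _ _ _
    exact ⟨U, hU, le_refl _, fun B hB _ => hUC.trans (FF.poleLe_mono v hB)⟩
  | succ N ih =>
    intro f hf hC hinc
    obtain ⟨U', hU', hdim, hB⟩ := ih f (fun i hi => hf i (by omega)) (fun i hi => hC i (by omega))
      (fun i j hij hj => hinc i j hij (by omega))
    have : FiniteDimensional K U' := Submodule.finiteDimensional_of_le hU'
    have hN := hC N (by omega)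
    have hnot : f N ∉ U' := fun hmem => by
      have hsub : U' ≤ FF.poleLe v (-v.ord (f N) - 1) := hB _ (by omega)
        fun i hi => by have := hinc i N hi (by omega); omega
      rcases (FF.mem_poleLe _).mp (hsub hmem) with h0 | h0
      · rw [h0, Place.ord_zero] at hN; omega
      · omega
    have hspan : K ∙ f N ≤ W := (Submodule.span_singleton_le_iff_mem _ _).mpr (hf N (by omega))
    refine ⟨U' ⊔ K ∙ f N, sup_le hU' hspan, ?_, fun B hCB hB' =>
      sup_le (hB B hCB fun i hi => hB' i (by omega))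
        ((Submodule.span_singleton_le_iff_mem _ _).mpr
          ((FF.mem_poleLe _).mpr (Or.inr (by have := hB' N (by omega); omega))))⟩
    have hlt : U' < U' ⊔ K ∙ f N := lt_of_le_not_ge le_sup_left fun h =>
      hnot (h (Submodule.mem_sup_right (Submodule.mem_span_singleton_self _)))
    have : FiniteDimensional K (U' ⊔ K ∙ f N : Submodule K E) :=
      Submodule.finiteDimensional_of_le (sup_le hU' hspan)
    have := Submodule.finrank_lt_finrank_of_lt hlt
    omega

end Filtration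

namespace GaussData

variable (G : GaussData A π F Fk) {g g' : ℕ}

/-- Every lifted basis element is nonzero. -/
theorem coe_b_ne_zero (i : Fin G.d) : (G.b i : F) ≠ 0 :=
  G.coe_ne_zero (G.linearIndependent.ne_zero i)

/-- An effective divisor bounding the poles of the lifted basis. -/
theorem exists_bound_b (hF : RR L F g) :
    ∃ D₀ : Divisor L F, (∀ P, 0 ≤ D₀ P) ∧ ∀ i P, -D₀ P ≤ P.ord (G.b i : F) := by
  choose Db hDb using fun i : Fin G.d => hF.exists_div (G.b i : F) (G.coe_b_ne_zero i)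
  refine ⟨∑ i, (Db i).mapRange (fun z => max (-z) 0) (by simp), fun P => ?_, fun i P => ?_⟩
  · rw [Finsupp.finsetSum_apply]
    exact Finset.sum_nonneg fun j _ => by simp
  · have h1 := Finset.single_le_sum
      (f := fun j => ((Db j).mapRange (fun z => max (-z) 0) (by simp)) P)
      (fun j _ => by simp) (Finset.mem_univ i)
    rw [Finsupp.finsetSum_apply]
    simp only [Finsupp.mapRange_apply, (hDb i).1] at h1 ⊢
    omega

/-- A monomial `x ^ j * bᵢ` with `j ≤ n` has poles bounded by `D₀ + n (x)_∞`. -/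
theorem neg_le_ord_mon {D₀ : Divisor L F} (hb : ∀ i P, -D₀ P ≤ P.ord (G.b i : F))
    {Px : Divisor L F} (hPx : ∀ P, Px P = max (-P.ord (G.x : F)) 0) {n : ℕ}
    {q : ℕ × Fin G.d} (hq : q.1 ≤ n) (P : Place L F) :
    -(D₀ P + n * Px P) ≤ P.ord (G.mon q : F) := by
  have hx0 : (G.x : F) ≠ 0 := G.coe_ne_zero fun h0 => G.transcendental (h0 ▸ isAlgebraic_zero)
  show -(D₀ P + n * Px P) ≤ P.ord ((G.x : F) ^ q.1 * (G.b q.2 : F))
  rw [P.ord_mul (pow_ne_zero _ hx0) (G.coe_b_ne_zero q.2), ord_pow]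
  have h3 : -Px P ≤ P.ord (G.x : F) := by rw [hPx]; omega
  have h4 : (q.1 : ℤ) ≤ n := by omega
  have h5 : 0 ≤ Px P := by rw [hPx]; exact le_max_right _ _
  linarith [hb q.2 P, mul_le_mul_of_nonneg_right h4 h5,
    mul_le_mul_of_nonneg_left h3 (Int.natCast_nonneg q.1)]

/-- A reduced monomial with `j ≤ n` has pole order at most `n e + C` at `Q`, where `e` and `C`
bound those of `x̄` and of the reduced basis. -/
theorem neg_le_ord_red_mon (Q : Place k Fk) {e C : ℤ} (he0 : 0 ≤ e)
    (he : -e ≤ Q.ord (G.ρ G.x)) (hC : ∀ i, -Q.ord (G.ρ (G.b i)) ≤ C) {n : ℕ}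
    {q : ℕ × Fin G.d} (hq : q.1 ≤ n) : -((n : ℤ) * e + C) ≤ Q.ord (G.ρ (G.mon q)) := by
  have hρx : G.ρ G.x ≠ 0 := fun h0 => G.transcendental (h0 ▸ isAlgebraic_zero)
  simp only [mon, map_mul, map_pow]
  rw [Q.ord_mul (pow_ne_zero _ hρx) (G.linearIndependent.ne_zero q.2), ord_pow]
  have h4 : (q.1 : ℤ) ≤ n := by omega
  linarith [hC q.2, mul_le_mul_of_nonneg_left he (Int.natCast_nonneg q.1),
    mul_le_mul_of_nonneg_right h4 he0]

/-- The reduction of `u ∈ L(m (x)_∞)` lies in `L(m (x̄)_∞)`. -/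
theorem ord_red_ge_of_mem (hF : RR L F g) {Px : Divisor L F}
    (hPx : ∀ P, Px P = max (-P.ord (G.x : F)) 0) (hPd : Divisor.degree Px = G.d)
    {m : ℕ} (hm : 0 < m) {u : G.toRedBase.O}
    (hu : (u : F) ∈ riemannRochSpace (m • Px)) (Q : Place k Fk) :
    -((m : ℤ) * max (-Q.ord (G.ρ G.x)) 0) ≤ Q.ord (G.toRedBase.red u) := by
  classical
  by_contra hlt
  rw [not_le] at hlt
  set e : ℤ := max (-Q.ord (G.ρ G.x)) 0 with he
  set p : ℤ := -Q.ord (G.toRedBase.red u) with hp
  have hpe : (m : ℤ) * e + 1 ≤ p := by omega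
  have he0 : 0 ≤ e := le_max_right _ _
  obtain ⟨D₀, hD₀nn, hb⟩ := G.exists_bound_b hF
  obtain ⟨C, hC0, hC⟩ : ∃ C : ℤ, 0 ≤ C ∧ ∀ i, -Q.ord (G.ρ (G.b i)) ≤ C := by
    refine ⟨∑ i, max (-Q.ord (G.ρ (G.b i))) 0, Finset.sum_nonneg fun i _ => le_max_right _ _,
      fun i => (le_max_left _ 0).trans (Finset.single_le_sum
        (f := fun i => max (-Q.ord (G.ρ (G.b i))) 0)
        (fun j _ => le_max_right _ _) (Finset.mem_univ i))⟩
  set N : ℕ := (Divisor.degree D₀ + 1).toNat with hN
  obtain ⟨I, hI, hIN, hIg⟩ : ∃ I : ℕ, C + (N : ℤ) * p < I ∧ N ≤ I ∧ 2 * g ≤ I := by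
    refine ⟨(C + (N : ℤ) * p).toNat + 1 + N + 2 * g, ?_, by omega, by omega⟩
    have := Int.self_le_toNat (C + (N : ℤ) * p)
    push_cast
    omega
  set n : ℕ := m * I with hn
  set V : Submodule L F := riemannRochSpace (D₀ + n • Px) with hV
  have : FiniteDimensional L V := hF.finiteDim _
  have hPxnn : ∀ P, 0 ≤ Px P := fun P => by rw [hPx]; exact le_max_right _ _
  have hVmem : ∀ f : F, (∀ P : Place L F, -(D₀ P + n * Px P) ≤ P.ord f) → f ∈ V := fun f hf => by
    refine mem_riemannRochSpace_iff.mpr fun P => Or.inr ?_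
    rw [Finsupp.add_apply, Finsupp.smul_apply, nsmul_eq_mul]
    exact hf P
  -- the small part
  set s : Finset (ℕ × Fin G.d) := Finset.range (n + 1) ×ˢ Finset.univ with hs
  set U : Submodule k Fk := Submodule.span k (Set.range fun q : s => G.ρ (G.mon q)) with hU
  have hUW : U ≤ G.toRedBase.redImage V := by
    rw [hU, Submodule.span_le]
    rintro _ ⟨⟨⟨j, i⟩, hq⟩, rfl⟩
    refine ⟨⟨G.mon (j, i), G.mem_O_of_mem_B _⟩, ?_, G.red_B _⟩
    simp only [hs, Finset.mem_product, Finset.mem_range, Finset.mem_univ, and_true] at hq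
    exact hVmem _ (G.neg_le_ord_mon hb hPx (by omega))
  have hUdim : Module.finrank k U = (n + 1) * G.d := by
    rw [hU, finrank_span_eq_card (b := fun q : s => G.ρ (G.mon q))
      (G.linearIndependent_ρ_mon.comp _ Subtype.val_injective)]
    simp [hs, Fintype.card_coe]
  have hUC : U ≤ FF.poleLe Q ((n : ℤ) * e + C) := by
    rw [hU, Submodule.span_le]
    rintro _ ⟨⟨⟨j, i⟩, hq⟩, rfl⟩
    simp only [hs, Finset.mem_product, Finset.mem_range, Finset.mem_univ, and_true] at hq
    exact (FF.mem_poleLe _).mpr (Or.inr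
      (G.neg_le_ord_red_mon Q he0 (by omega) hC (q := (j, i)) (show j ≤ n by omega)))
  -- the powers of `u`
  let f : ℕ → Fk := fun i => G.toRedBase.red u ^ (I - N + 1 + i)
  have hfW : ∀ i < N, f i ∈ G.toRedBase.redImage V := by
    intro i hi
    refine ⟨u ^ (I - N + 1 + i), hVmem _ fun P => ?_, map_pow _ _ _⟩
    rw [SubmonoidClass.coe_pow, ord_pow]
    have h1 : -((m : ℤ) * Px P) ≤ P.ord (u : F) := by
      rcases (mem_riemannRochSpace_iff.mp hu) P with h0 | h0
      · rw [h0, Place.ord_zero]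
        have := mul_nonneg (Int.natCast_nonneg m) (hPxnn P)
        omega
      · rwa [Finsupp.smul_apply, nsmul_eq_mul] at h0
    have h2 : (I - N + 1 + i : ℕ) ≤ I := by omega
    have h3 : ((I - N + 1 + i : ℕ) : ℤ) ≤ I := by exact_mod_cast h2
    have hn' : (n : ℤ) = m * I := by rw [hn]; push_cast; ring
    rw [hn']
    linarith [mul_le_mul_of_nonneg_right h3 (mul_nonneg (Int.natCast_nonneg m) (hPxnn P)),
      mul_le_mul_of_nonneg_left h1 (Int.natCast_nonneg (I - N + 1 + i)), hD₀nn P]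
  have hord : ∀ i, -Q.ord (f i) = ((I - N + 1 + i : ℕ) : ℤ) * p := fun i => by
    simp only [f]; rw [ord_pow, hp]; ring
  have hfC : ∀ i < N, (n : ℤ) * e + C < -Q.ord (f i) := by
    intro i hi
    rw [hord]
    have h1 : (I : ℤ) - N + 1 ≤ ((I - N + 1 + i : ℕ) : ℤ) := by push_cast [Nat.cast_sub hIN]; omega
    have hn' : (n : ℤ) = m * I := by rw [hn]; push_cast; ring
    rw [hn']
    have hp0 : 0 ≤ p := le_trans (by positivity) hpe
    linarith [mul_le_mul_of_nonneg_right h1 hp0,
      mul_le_mul_of_nonneg_left hpe (Int.natCast_nonneg I)]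
  have hinc : ∀ i j, i < j → j < N → -Q.ord (f i) < -Q.ord (f j) := by
    intro i j hij _
    rw [hord, hord]
    have h1 : ((I - N + 1 + i : ℕ) : ℤ) + 1 ≤ ((I - N + 1 + j : ℕ) : ℤ) := by omega
    have hp1 : 1 ≤ p := le_trans (by nlinarith) hpe
    linarith [mul_le_mul_of_nonneg_right h1 (by omega : (0 : ℤ) ≤ p)]
  obtain ⟨U', hU', hdim, -⟩ :=
    finrank_add_le_of_increasing Q _ U hUW (by positivity) hUC N f hfW hfC hinc
  have h1 := (Submodule.finrank_mono hU').trans (G.toRedBase.finrank_redImage_le V)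
  have hdegE : Divisor.degree (D₀ + n • Px) = Divisor.degree D₀ + n * G.d := by
    rw [map_add, map_nsmul, hPd, nsmul_eq_mul]
  have hD₀deg : 0 ≤ Divisor.degree D₀ := degree_nonneg_of_nonneg hD₀nn
  have hbig : 2 * (g : ℤ) - 1 ≤ Divisor.degree (D₀ + n • Px) := by
    rw [hdegE]
    have : (2 * g : ℕ) ≤ n * G.d := by
      calc 2 * g ≤ I := hIg
        _ ≤ m * I := Nat.le_mul_of_pos_left I hm
        _ ≤ n * G.d := Nat.le_mul_of_pos_right n G.d_pos
    have : (2 * (g : ℤ)) ≤ n * G.d := by exact_mod_cast this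
    omega
  have h2 := hF.ell_eq_of_large hbig
  rw [hdegE] at h2
  have h3 : (Module.finrank L V : ℤ) = ell (D₀ + n • Px) := rfl
  have h4 : ((Module.finrank k U + N : ℕ) : ℤ) ≤ (Module.finrank L V : ℤ) := by
    exact_mod_cast hdim.trans h1
  rw [hUdim] at h4
  push_cast at h4
  have hd1 : (1 : ℤ) ≤ G.d := by exact_mod_cast G.d_pos
  have hN' : Divisor.degree D₀ + 1 = N := by omega
  linarith [h4, h2, h3]

end GaussData

end Fermat.Agent.Red
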