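import Mathlib.Algebra.Field.Basic
import Mathlib.Algebra.Ring.Subring.Basic
import Mathlib.Tactic.Ring

/-!
# Extending a reduction map to quotients

A ring map `ρ` from a subring `B` of a field `F` to a field extends to the ring of quotients
`y / z` with `ρ z ≠ 0`.
-/

noncomputable section

namespace Fermat.Agent.Red

variable {F Fk : Type*} [Field F] [Field Fk] {B : Subring F} (ρ : B →+* Fk)

/-- The quotients `y / z` of elements of `B` with `ρ z ≠ 0`. -/
def fracSubring : Subring F where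
  carrier := {f | ∃ y z : B, ρ z ≠ 0 ∧ f * z = y}
  one_mem' := ⟨1, 1, by simp, by simp⟩
  zero_mem' := ⟨0, 1, by simp, by simp⟩
  mul_mem' := by
    rintro f g ⟨y, z, hz, h⟩ ⟨y', z', hz', h'⟩
    refine ⟨y * y', z * z', by rw [map_mul]; exact mul_ne_zero hz hz', ?_⟩
    rw [Subring.coe_mul, Subring.coe_mul, ← h, ← h']; ring
  add_mem' := by
    rintro f g ⟨y, z, hz, h⟩ ⟨y', z', hz', h'⟩
    refine ⟨y * z' + y' * z, z * z', by rw [map_mul]; exact mul_ne_zero hz hz', ?_⟩
    rw [Subring.coe_add, Subring.coe_mul, Subring.coe_mul, Subring.coe_mul, ← h, ← h']; ring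
  neg_mem' := by
    rintro f ⟨y, z, hz, h⟩
    exact ⟨-y, z, hz, by rw [NegMemClass.coe_neg, ← h]; ring⟩

theorem mem_fracSubring {f : F} :
    f ∈ fracSubring ρ ↔ ∃ y z : B, ρ z ≠ 0 ∧ f * z = y := Iff.rfl

theorem coe_mem_fracSubring (y : B) : (y : F) ∈ fracSubring ρ := ⟨y, 1, by simp, by simp⟩

/-- The value of `ρ` on a quotient, for a chosen representation. -/
def fracFun (f : fracSubring ρ) : Fk :=
  ρ ((mem_fracSubring ρ).mp f.2).choose / ρ ((mem_fracSubring ρ).mp f.2).choose_spec.choose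

theorem fracFun_eq {f : fracSubring ρ} {y z : B} (hz : ρ z ≠ 0) (h : (f : F) * z = y) :
    fracFun ρ f = ρ y / ρ z := by
  have key : ∀ y₀ z₀ : B, ρ z₀ ≠ 0 → (f : F) * z₀ = y₀ → ρ y₀ / ρ z₀ = ρ y / ρ z := by
    intro y₀ z₀ hz₀ h₀
    rw [div_eq_div_iff hz₀ hz, ← map_mul, ← map_mul]
    refine congrArg ρ (Subtype.ext ?_)
    rw [Subring.coe_mul, Subring.coe_mul, ← h, ← h₀]
    ring
  exact key _ _ ((mem_fracSubring ρ).mp f.2).choose_spec.choose_spec.1
    ((mem_fracSubring ρ).mp f.2).choose_spec.choose_spec.2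

/-- The extension of `ρ` to quotients. -/
def fracHom : fracSubring ρ →+* Fk where
  toFun := fracFun ρ
  map_one' := by rw [fracFun_eq ρ (y := 1) (z := 1) (by simp) (by simp)]; simp
  map_zero' := by rw [fracFun_eq ρ (y := 0) (z := 1) (by simp) (by simp)]; simp
  map_mul' f g := by
    obtain ⟨y, z, hz, h⟩ := (mem_fracSubring ρ).mp f.2
    obtain ⟨y', z', hz', h'⟩ := (mem_fracSubring ρ).mp g.2
    rw [fracFun_eq ρ hz h, fracFun_eq ρ hz' h', fracFun_eq ρ (y := y * y') (z := z * z')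
      (by rw [map_mul]; exact mul_ne_zero hz hz')
      (by rw [Subring.coe_mul, Subring.coe_mul, Subring.coe_mul, ← h, ← h']; ring),
      map_mul, map_mul, div_mul_div_comm]
  map_add' f g := by
    obtain ⟨y, z, hz, h⟩ := (mem_fracSubring ρ).mp f.2
    obtain ⟨y', z', hz', h'⟩ := (mem_fracSubring ρ).mp g.2
    rw [fracFun_eq ρ hz h, fracFun_eq ρ hz' h', fracFun_eq ρ (y := y * z' + y' * z) (z := z * z')
      (by rw [map_mul]; exact mul_ne_zero hz hz')
      (by rw [Subring.coe_add, Subring.coe_add, Subring.coe_mul, Subring.coe_mul, Subring.coe_mul,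
            ← h, ← h']; ring),
      map_add, map_mul, map_mul, map_mul, div_add_div _ _ hz hz']
    ring

theorem fracHom_eq {f : fracSubring ρ} {y z : B} (hz : ρ z ≠ 0) (h : (f : F) * z = y) :
    fracHom ρ f = ρ y / ρ z := fracFun_eq ρ hz h

theorem fracHom_coe (y : B) : fracHom ρ ⟨y, coe_mem_fracSubring ρ y⟩ = ρ y := by
  rw [fracHom_eq ρ (y := y) (z := 1) (by simp) (by simp)]; simp

end Fermat.Agent.Red
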