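import Fermat.Agent.Red.Basic
import Fermat.Agent.Red.RR

/-!
# Reduction of Riemann–Roch spaces

The reduction of `L(E)` lies in `L(r E)`, and reduction keeps the degree of divisors.
-/

noncomputable section

open AlgebraicCurve

namespace Fermat.Agent.Red

variable {L F k Fk : Type*} [Field L] [Field F] [Algebra L F] [Field k] [Field Fk] [Algebra k Fk]

section MapDomain

variable {α β : Type*}

/-- The value of a pushforward is the sum over the fibre. -/
theorem mapDomain_apply_sum [DecidableEq β] (f : α → β) (D : α →₀ ℤ) (b : β)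
    (s : Finset α) (hs : D.support ⊆ s) :
    Finsupp.mapDomain f D b = ∑ a ∈ s.filter (fun a => f a = b), D a := by
  rw [Finsupp.mapDomain, Finsupp.sum_apply, Finsupp.sum, Finset.sum_filter]
  refine (Finset.sum_subset hs fun a _ ha => ?_).trans (Finset.sum_congr rfl fun a _ => ?_)
  · rw [Finsupp.notMem_support_iff.mp ha]
    simp
  · rw [Finsupp.single_apply]

/-- A pushforward is nonnegative where the fibre is. -/
theorem mapDomain_nonneg_of_fibre (f : α → β) (D : α →₀ ℤ) (b : β)
    (h : ∀ a, f a = b → 0 ≤ D a) : 0 ≤ Finsupp.mapDomain f D b := by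
  classical
  rw [mapDomain_apply_sum f D b _ subset_rfl]
  exact Finset.sum_nonneg fun a ha => h a (Finset.mem_filter.mp ha).2

/-- A value in a nonnegative fibre is at most the pushforward. -/
theorem apply_le_mapDomain (f : α → β) (D : α →₀ ℤ) (a₀ : α)
    (h : ∀ a, f a = f a₀ → 0 ≤ D a) : D a₀ ≤ Finsupp.mapDomain f D (f a₀) := by
  classical
  rw [mapDomain_apply_sum f D _ (insert a₀ D.support) (Finset.subset_insert _ _)]
  exact Finset.single_le_sum (f := fun a => D a) (fun a ha => h a (Finset.mem_filter.mp ha).2)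
    (Finset.mem_filter.mpr ⟨Finset.mem_insert_self _ _, rfl⟩)

theorem exists_ne_zero_of_mapDomain_ne_zero (f : α → β) (D : α →₀ ℤ) (b : β)
    (h : Finsupp.mapDomain f D b ≠ 0) : ∃ a, f a = b ∧ D a ≠ 0 := by
  classical
  rw [mapDomain_apply_sum f D b _ subset_rfl] at h
  obtain ⟨a, ha, ha'⟩ := Finset.exists_ne_zero_of_sum_ne_zero h
  exact ⟨a, (Finset.mem_filter.mp ha).2, ha'⟩

/-- A simple point of the image has exactly one simple point above it. -/
theorem exists_unique_simple (f : α → β) (D : α →₀ ℤ) (b : β)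
    (h : ∀ a, f a = b → 0 ≤ D a) (h1 : Finsupp.mapDomain f D b = 1) :
    ∃ a₀, f a₀ = b ∧ D a₀ = 1 ∧ ∀ a, f a = b → a ≠ a₀ → D a = 0 := by
  classical
  obtain ⟨a₀, ha₀, hne⟩ := exists_ne_zero_of_mapDomain_ne_zero f D b (by rw [h1]; exact one_ne_zero)
  have h0 := h a₀ ha₀
  refine ⟨a₀, ha₀, ?_, fun a ha hane => ?_⟩
  · have := apply_le_mapDomain f D a₀ (fun a ha => h a (ha.trans ha₀))
    rw [ha₀, h1] at this
    omega
  · have hrest : D a₀ + D a ≤ Finsupp.mapDomain f D b := by
      rw [mapDomain_apply_sum f D b (insert a (insert a₀ D.support))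
        ((Finset.subset_insert _ _).trans (Finset.subset_insert _ _))]
      have hsub : ({a₀, a} : Finset α) ⊆
          (insert a (insert a₀ D.support)).filter (fun x => f x = b) := by
        intro x hx
        rcases Finset.mem_insert.mp hx with rfl | hx
        · simp [ha₀]
        · rw [Finset.mem_singleton] at hx
          subst hx
          simp [ha]
      rw [← Finset.sum_pair (f := fun x => D x) (Ne.symm hane)]
      exact Finset.sum_le_sum_of_subset_of_nonneg hsub
        (fun x hx _ => h x (Finset.mem_filter.mp hx).2)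
    have := h a ha
    omega

end MapDomain

namespace RedData

open RedBase

variable {A : ValuationSubring L} {π : A →+* k} (R : RedData A π F Fk) {g g' : ℕ}
variable (hF : RR L F g) (hK : RR k Fk g')
include hF

/-- Reduction keeps the degree of divisors. -/
theorem degree_mapDomain (hK : RR k Fk g') (D : Divisor L F) :
    Divisor.degree (Finsupp.mapDomain R.r D) = Divisor.degree D :=
  hF.degree_mapDomain_eq hK R.r D

/-- Orders at a place with nonnegative orders on the disc. -/
theorem ord_red_nonneg {u : R.O} (hu : R.red u ≠ 0) {Q : Place k Fk}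
    (h : ∀ P, R.r P = Q → 0 ≤ P.ord (u : F)) : 0 ≤ Q.ord (R.red u) := by
  obtain ⟨D, hD, -⟩ := hF.exists_div _ (R.coe_ne_zero hu)
  rw [← R.push u hu D hD Q]
  exact mapDomain_nonneg_of_fibre _ _ _ fun P hP => by rw [hD]; exact h P hP

/-- The order does not go down under reduction. -/
theorem ord_le_ord_red {u : R.O} (hu : R.red u ≠ 0) {P₀ : Place L F}
    (h : ∀ P, R.r P = R.r P₀ → 0 ≤ P.ord (u : F)) : P₀.ord (u : F) ≤ (R.r P₀).ord (R.red u) := by
  obtain ⟨D, hD, -⟩ := hF.exists_div _ (R.coe_ne_zero hu)
  rw [← R.push u hu D hD _, ← hD]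
  exact apply_le_mapDomain _ _ _ fun P hP => by rw [hD]; exact h P hP

/-- Reduction maps `L(E)` into `L(r E)`. -/
theorem red_mem_space {E : Divisor L F} {u : R.O} (hu : (u : F) ∈ riemannRochSpace E) :
    R.red u ∈ riemannRochSpace (Finsupp.mapDomain R.r E) := by
  refine mem_riemannRochSpace_iff.mpr fun Q => ?_
  refine or_iff_not_imp_left.mpr fun hne => ?_
  obtain ⟨D, hD, -⟩ := hF.exists_div _ (R.coe_ne_zero hne)
  have h0 : 0 ≤ Finsupp.mapDomain R.r (D + E) Q := by
    refine mapDomain_nonneg_of_fibre _ _ _ fun P _ => ?_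
    have := ((mem_riemannRochSpace_iff.mp hu) P).resolve_left (R.coe_ne_zero hne)
    rw [Finsupp.add_apply, hD]
    omega
  rw [Finsupp.mapDomain_add, Finsupp.add_apply, R.push u hne D hD] at h0
  omega

/-- The reduction of `L(E)` is contained in `L(r E)`. -/
theorem redImage_le (E : Divisor L F) :
    R.redImage (riemannRochSpace E) ≤ riemannRochSpace (Finsupp.mapDomain R.r E) := by
  rintro w ⟨u, hu, rfl⟩
  exact R.red_mem_space hF hu

include hK

/-- Places in the image of `r` avoid any given finite set. -/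
theorem exists_range_notMem [Infinite k] (x : R.O) (hx : ∀ c : k, R.red x ≠ algebraMap k Fk c)
    (S : Finset (Place k Fk)) : ∃ P : Place L F, R.r P ∉ S := by
  classical
  let val : Place k Fk → k := fun Q =>
    if h : 0 ≤ Q.ord (R.red x) then (exists_const_of_deg_one Q (hK.deg_one Q) h).choose else 0
  obtain ⟨c, hc⟩ := (S.image val).exists_notMem
  obtain ⟨a, rfl⟩ := R.surj_pi c
  set u : R.O := x - R.ι a with hu
  have hne : ∀ c' : k, R.red u ≠ algebraMap k Fk c' := fun c' h => hx (c' + π a) (by
    rw [hu, map_sub, red_ι] at h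
    rw [map_add, ← h, sub_add_cancel])
  obtain ⟨Q, hQ⟩ := hK.exists_ord_pos hne
  have hu0 : R.red u ≠ 0 := by simpa using hne 0
  obtain ⟨D, hD, -⟩ := hF.exists_div _ (R.coe_ne_zero hu0)
  obtain ⟨P, hP, -⟩ := exists_ne_zero_of_mapDomain_ne_zero R.r D Q
    (by rw [R.push u hu0 D hD]; omega)
  refine ⟨P, fun hmem => ?_⟩
  rw [hP] at hmem
  rw [hu, map_sub, red_ι] at hQ
  by_cases h : 0 ≤ Q.ord (R.red x)
  · have hv := (exists_const_of_deg_one Q (hK.deg_one Q) h).choose_spec
    have hne' : π a ≠ (exists_const_of_deg_one Q (hK.deg_one Q) h).choose := by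
      intro he
      refine hc (Finset.mem_image.mpr ⟨Q, hmem, ?_⟩)
      simp only [val, dif_pos h]
      exact he.symm
    have := ord_sub_algebraMap_eq_zero Q hv hne'
    omega
  · have := ord_nonneg_add Q (f := R.red x - algebraMap k Fk (π a)) (g := algebraMap k Fk (π a))
      (by omega) (by rw [ord_algebraMap])
    rw [sub_add_cancel] at this
    exact h this

/-- The rank of the lattice `L(E) ∩ O` is `ℓ(E)`. -/
theorem ell_le_finrank_redImage [Infinite k] (x : R.O)
    (hx : ∀ c : k, R.red x ≠ algebraMap k Fk c) (E : Divisor L F) :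
    ell E ≤ Module.finrank k (R.redImage (riemannRochSpace E)) := by
  suffices h : ∀ (m : ℕ) (E : Divisor L F),
      Module.finrank k (R.redImage (riemannRochSpace E)) ≤ m → ell E ≤ m from h _ E le_rfl
  intro m
  induction m with
  | zero =>
    intro E hE
    by_contra hne
    obtain ⟨f, hf, hf0⟩ := hF.exists_ne_zero_of_ell_pos (D := E) (by omega)
    obtain ⟨c, u, hu, hfu⟩ := R.scale f hf0
    have hc : c ≠ 0 := by rintro rfl; simp [hfu] at hf0
    have huE : (u : F) ∈ riemannRochSpace E := by
      have := (riemannRochSpace E).smul_mem c⁻¹ hf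
      rwa [Algebra.smul_def, hfu, ← mul_assoc, ← map_mul, inv_mul_cancel₀ hc, map_one, one_mul]
        at this
    have := hF.finiteDim E
    have hbot : R.redImage (riemannRochSpace E) = ⊥ :=
      Submodule.finrank_eq_zero.mp (Nat.le_zero.mp hE)
    have hmem : R.red u ∈ R.redImage (riemannRochSpace E) := ⟨u, huE, rfl⟩
    rw [hbot, Submodule.mem_bot] at hmem
    exact hu hmem
  | succ m ih =>
    intro E hE
    by_cases hsmall : Module.finrank k (R.redImage (riemannRochSpace E)) ≤ m
    · exact (ih E hsmall).trans (Nat.le_succ m)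
    have := hF.finiteDim E
    have hne : R.redImage (riemannRochSpace E) ≠ ⊥ := fun hb => by
      rw [hb, finrank_bot] at hsmall; exact hsmall (Nat.zero_le m)
    obtain ⟨w, hw, hw0⟩ := (Submodule.ne_bot_iff _).mp hne
    obtain ⟨Dw, hDw, -⟩ := hK.exists_div w hw0
    classical
    obtain ⟨P, hP⟩ := R.exists_range_notMem hF hK x hx
      (Dw.support ∪ (Finsupp.mapDomain R.r E).support)
    rw [Finset.mem_union, not_or, Finsupp.notMem_support_iff, Finsupp.notMem_support_iff] at hP
    have hsub : riemannRochSpace (E - Finsupp.single P 1) ≤ riemannRochSpace E := by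
      refine RR.space_mono fun v => ?_
      rw [Finsupp.sub_apply, Finsupp.single_apply]
      split_ifs <;> omega
    have hlt : R.redImage (riemannRochSpace (E - Finsupp.single P 1)) <
        R.redImage (riemannRochSpace E) := by
      refine lt_of_le_not_ge (fun z hz => ?_) (fun hle => ?_)
      · obtain ⟨u, hu, rfl⟩ := hz
        exact ⟨u, hsub hu, rfl⟩
      · have h1 := R.redImage_le hF _ (hle hw)
        have h2 := ((mem_riemannRochSpace_iff.mp h1) (R.r P)).resolve_left hw0
        rw [Finsupp.mapDomain_sub, Finsupp.mapDomain_single, Finsupp.sub_apply,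
          Finsupp.single_eq_same, hP.2, ← hDw, hP.1] at h2
        omega
    have hlt' := Submodule.finrank_lt_finrank_of_lt hlt
    have h3 := ih (E - Finsupp.single P 1) (by omega)
    have h4 := hF.ell_le_sub_single_add_one E P
    omega

/-- Reduction `L(E) ∩ O → L(r E)` is surjective as soon as the dimensions agree. -/
theorem exists_lift [Infinite k] (x : R.O) (hx : ∀ c : k, R.red x ≠ algebraMap k Fk c)
    {E : Divisor L F} (hE : ell (Finsupp.mapDomain R.r E) ≤ ell E) {w : Fk}
    (hw : w ∈ riemannRochSpace (Finsupp.mapDomain R.r E)) :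
    ∃ u : R.O, (u : F) ∈ riemannRochSpace E ∧ R.red u = w := by
  have := hK.finiteDim (Finsupp.mapDomain R.r E)
  have h := Submodule.eq_of_le_of_finrank_le (R.redImage_le hF E)
    (hE.trans (R.ell_le_finrank_redImage hF hK x hx E))
  rw [← h] at hw
  exact hw

/-- Large divisors: `L(E) → L(r E)` is surjective when the genus does not drop. -/
theorem exists_lift_of_large [Infinite k] (x : R.O)
    (hx : ∀ c : k, R.red x ≠ algebraMap k Fk c) (hg : g ≤ g')
    {E : Divisor L F} (hE : 2 * (g' : ℤ) - 1 ≤ Divisor.degree E) {w : Fk}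
    (hw : w ∈ riemannRochSpace (Finsupp.mapDomain R.r E)) :
    ∃ u : R.O, (u : F) ∈ riemannRochSpace E ∧ R.red u = w := by
  refine R.exists_lift hF hK x hx ?_ hw
  have h1 := hK.ell_eq_of_large (D := Finsupp.mapDomain R.r E)
    (by rw [R.degree_mapDomain hF hK]; omega)
  rw [R.degree_mapDomain hF hK] at h1
  have h2 := hF.riemann E
  omega

end RedData

end Fermat.Agent.Red
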