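import Mathlib.FieldTheory.IntermediateField.Adjoin.Basic
import Mathlib.LinearAlgebra.Basis.VectorSpace
import Mathlib.RingTheory.Algebraic.Basic

/-!
# The span of the monomials `x ^ j * b i`

If the monomials are independent over `L`, then `b` is independent over `L(x)`; if `b` spans over
`L(x)`, then every element times a nonzero polynomial in `x` lies in the span of the monomials.
-/

noncomputable section

open Polynomial IntermediateField

namespace Fermat.Agent.Red

variable {L F : Type*} [Field L] [Field F] [Algebra L F] {ι : Type*} (x : F) (b : ι → F)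

variable (L) in
/-- The `L`-span of the monomials `x ^ j * b i`. -/
def monomialSpan : Submodule L F :=
  Submodule.span L (Set.range fun p : ℕ × ι => x ^ p.1 * b p.2)

theorem aeval_mul_mem_monomialSpan (q : L[X]) {f : F} (hf : f ∈ monomialSpan L x b) :
    aeval x q * f ∈ monomialSpan L x b := by
  have hx : monomialSpan L x b ≤ (monomialSpan L x b).comap (LinearMap.mulLeft L x) := by
    rw [monomialSpan, Submodule.span_le]
    rintro _ ⟨⟨j, i⟩, rfl⟩
    refine Submodule.subset_span ⟨(j + 1, i), ?_⟩
    simp only [LinearMap.mulLeft_apply]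
    ring
  induction q using Polynomial.induction_on with
  | C a => rw [aeval_C, ← Algebra.smul_def]; exact Submodule.smul_mem _ _ hf
  | add p q hp hq => rw [map_add, add_mul]; exact Submodule.add_mem _ hp hq
  | monomial n a ih =>
    have e : aeval x (C a * X ^ (n + 1)) * f = x * (aeval x (C a * X ^ n) * f) := by
      simp only [map_mul, map_pow, aeval_X, aeval_C]; ring
    rw [e]
    exact hx ih

/-- Polynomial denominators of two elements multiply to one of their sum. -/
theorem aeval_mul_add_mem_monomialSpan {p q : L[X]} {f g : F}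
    (hf : aeval x p * f ∈ monomialSpan L x b) (hg : aeval x q * g ∈ monomialSpan L x b) :
    aeval x (p * q) * (f + g) ∈ monomialSpan L x b := by
  rw [map_mul, mul_add]
  refine add_mem ?_ ?_
  · rw [mul_right_comm, mul_comm]; exact aeval_mul_mem_monomialSpan x b q hf
  · rw [mul_assoc]; exact aeval_mul_mem_monomialSpan x b p hg

/-- If the monomials are independent over `L`, then `b` is independent over `L(x)`. -/
theorem linearIndependent_adjoin_of_monomial [Fintype ι]
    (h : LinearIndependent L fun p : ℕ × ι => x ^ p.1 * b p.2) : LinearIndependent (L⟮x⟯) b := by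
  classical
  rw [Fintype.linearIndependent_iff]
  intro g hg
  choose r s hrs using fun i => (IntermediateField.mem_adjoin_simple_iff L _).mp (g i).2
  by_contra hcon
  push Not at hcon
  obtain ⟨i₀, hi₀⟩ := hcon
  have hi₀' : (g i₀ : F) ≠ 0 := fun h => hi₀ (Subtype.ext h)
  -- denominators, replaced by `1` where the coefficient vanishes
  let s' : ι → L[X] := fun i => if (g i : F) = 0 then 1 else s i
  let r' : ι → L[X] := fun i => if (g i : F) = 0 then 0 else r i
  have hs' : ∀ i, aeval x (s' i) ≠ 0 := by
    intro i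
    simp only [s']
    split_ifs with h
    · simp
    · intro h0
      rw [hrs i, h0, div_zero] at h
      exact h rfl
  have hr' : ∀ i, (g i : F) * aeval x (s' i) = aeval x (r' i) := by
    intro i
    by_cases h : (g i : F) = 0
    · simp only [r', if_pos h, h, map_zero, zero_mul]
    · have := hs' i
      simp only [s', r', if_neg h] at this ⊢
      rw [hrs i, div_mul_cancel₀ _ this]
  let P : ι → L[X] := fun i => r' i * ∏ j ∈ Finset.univ.erase i, s' j
  have hP : ∀ i, aeval x (P i) = (g i : F) * ∏ j, aeval x (s' j) := by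
    intro i
    rw [← Finset.mul_prod_erase _ _ (Finset.mem_univ i), ← mul_assoc, hr']
    simp [P, map_prod]
  have hsum : ∑ i, aeval x (P i) * b i = 0 := by
    simp only [hP, mul_right_comm _ (∏ j, aeval x (s' j))]
    rw [← Finset.sum_mul]
    simp only [IntermediateField.smul_def, smul_eq_mul] at hg
    rw [hg, zero_mul]
  set M := Finset.univ.sup fun i => (P i).natDegree with hM
  have hdeg : ∀ i, (P i).natDegree < M + 1 := fun i =>
    Nat.lt_succ_of_le (Finset.le_sup (f := fun i => (P i).natDegree) (Finset.mem_univ i))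
  have hexp : ∑ p ∈ Finset.range (M + 1) ×ˢ (Finset.univ : Finset ι),
      (P p.2).coeff p.1 • (x ^ p.1 * b p.2) = 0 := by
    rw [Finset.sum_product_right]
    convert hsum using 1
    refine Finset.sum_congr rfl fun i _ => ?_
    rw [Polynomial.aeval_eq_sum_range' (hdeg i), Finset.sum_mul]
    exact Finset.sum_congr rfl fun j _ => (smul_mul_assoc _ _ _).symm
  have hP0 : P i₀ = 0 := by
    ext j
    rw [coeff_zero]
    rcases lt_or_ge j (M + 1) with hj | hj
    · exact linearIndependent_iff'.mp h _ (fun p => (P p.2).coeff p.1) hexp (j, i₀) (by simp [hj])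
    · exact coeff_eq_zero_of_natDegree_lt (lt_of_lt_of_le (hdeg i₀) hj)
  have := hP i₀
  rw [hP0, map_zero, eq_comm, mul_eq_zero] at this
  exact this.elim hi₀' (Finset.prod_ne_zero_iff.mpr fun j _ => hs' j)

/-- If `b` spans over `L(x)`, every element has a polynomial denominator with respect to the
monomials; one denominator serves a finitely generated space. -/
theorem exists_aeval_mul_mem_monomialSpan [Fintype ι]
    (hspan : Submodule.span (L⟮x⟯) (Set.range b) = ⊤) (V : Submodule L F) (hV : V.FG) :
    ∃ q : L[X], q ≠ 0 ∧ ∀ f ∈ V, aeval x q * f ∈ monomialSpan L x b := by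
  classical
  let cl : Submodule L F :=
    { carrier := {f | ∃ q : L[X], q ≠ 0 ∧ aeval x q * f ∈ monomialSpan L x b}
      zero_mem' := ⟨1, one_ne_zero, by simp⟩
      add_mem' := by
        rintro f g ⟨p, hp, hf⟩ ⟨q, hq, hg⟩
        exact ⟨p * q, mul_ne_zero hp hq, aeval_mul_add_mem_monomialSpan x b hf hg⟩
      smul_mem' := by
        rintro c f ⟨q, hq, hf⟩
        exact ⟨q, hq, by rw [mul_smul_comm]; exact Submodule.smul_mem _ _ hf⟩ }
  have hcl : ∀ f, f ∈ cl := fun f => by
    obtain ⟨g, rfl⟩ := (Submodule.mem_span_range_iff_exists_fun _).mp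
      (hspan ▸ Submodule.mem_top : f ∈ Submodule.span (L⟮x⟯) (Set.range b))
    refine Submodule.sum_mem _ fun i _ => ?_
    rw [IntermediateField.smul_def, smul_eq_mul]
    obtain ⟨r, s, hrs⟩ := (IntermediateField.mem_adjoin_simple_iff L _).mp (g i).2
    by_cases h0 : aeval x s = 0
    · rw [hrs, h0, div_zero, zero_mul]; exact zero_mem _
    refine ⟨s, fun hs => h0 (by rw [hs, map_zero]), ?_⟩
    rw [hrs, ← mul_assoc, mul_div_cancel₀ _ h0]
    exact aeval_mul_mem_monomialSpan x b r (Submodule.subset_span ⟨(0, i), by simp⟩)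
  refine Submodule.fg_induction (motive := fun (W : Submodule L F) _ => ∃ q : L[X], q ≠ 0 ∧
    ∀ f ∈ W, aeval x q * f ∈ monomialSpan L x b) ?_ ?_ V hV
  · intro f
    obtain ⟨q, hq, h⟩ := hcl f
    refine ⟨q, hq, fun g hg => ?_⟩
    obtain ⟨c, rfl⟩ := Submodule.mem_span_singleton.mp hg
    rw [mul_smul_comm]
    exact Submodule.smul_mem _ _ h
  · rintro W₁ W₂ - - ⟨q₁, hq₁, h₁⟩ ⟨q₂, hq₂, h₂⟩
    refine ⟨q₁ * q₂, mul_ne_zero hq₁ hq₂, fun f hf => ?_⟩
    obtain ⟨a, ha, c, hc, rfl⟩ := Submodule.mem_sup.mp hf
    exact aeval_mul_add_mem_monomialSpan x b (h₁ a ha) (h₂ c hc)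

/-- A finitely generated subspace of the span of a family lies in the span of finitely many of
its members. -/
theorem exists_finset_le_span {κ : Type*} (v : κ → F) {V : Submodule L F} (hV : V.FG)
    (hle : V ≤ Submodule.span L (Set.range v)) :
    ∃ s : Finset κ, V ≤ Submodule.span L (Set.range fun p : s => v p) := by
  classical
  obtain ⟨t, rfl⟩ := hV
  choose e he using fun f : t =>
    Finsupp.mem_span_range_iff_exists_finsupp.mp (hle (Submodule.subset_span f.2))
  refine ⟨Finset.univ.biUnion fun f => (e f).support, Submodule.span_le.mpr fun f hf => ?_⟩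
  rw [SetLike.mem_coe, show f = _ from (he ⟨f, hf⟩).symm]
  exact Submodule.sum_mem _ fun p hp => Submodule.smul_mem _ _ (Submodule.subset_span
    ⟨⟨p, Finset.mem_biUnion.mpr ⟨_, Finset.mem_univ _, hp⟩⟩, rfl⟩)

end Fermat.Agent.Red
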