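import Mathlib.Algebra.Polynomial.Basis
import Mathlib.FieldTheory.IntermediateField.Adjoin.Basic
import Mathlib.LinearAlgebra.Basis.VectorSpace
import Mathlib.LinearAlgebra.FiniteDimensional.Lemmas
import Mathlib.RingTheory.AlgebraTower
import Mathlib.RingTheory.Algebraic.Basic
import Fermat.Agent.Red.Fraction
import Fermat.Agent.Red.Lattice
import Fermat.Agent.Red.Monomial

/-!
# The Gauss reduction attached to a lifted basis

If a basis of `Fk` over `k(x̄)` lifts to a family of `[F : L(x)]` integral functions, every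
function of `F` is a scalar times a function with nonzero reduction, and Riemann–Roch spaces
have full rank reductions.
-/

noncomputable section

open AlgebraicCurve Polynomial IntermediateField

namespace Fermat.Agent.Red

variable {L F k Fk : Type*} [Field L] [Field F] [Algebra L F] [Field k] [Field Fk] [Algebra k Fk]
variable {A : ValuationSubring L} {π : A →+* k}

/-- A space spanned by functions with independent reductions keeps its dimension. -/
theorem RedBase.finrank_le_of_le_span (R : RedBase A π F Fk) {ι' : Type*} [Fintype ι']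
    (u : ι' → R.O) (hu : LinearIndependent k fun i => R.red (u i)) (V : Submodule L F)
    (hV : V ≤ Submodule.span L (Set.range fun i => (u i : F))) :
    Module.finrank L V ≤ Module.finrank k (R.redImage V) := by
  set E : Submodule L F := Submodule.span L (Set.range fun i => (u i : F))
  have : FiniteDimensional L E := FiniteDimensional.span_of_finite L (Set.finite_range _)
  have h1 : LinearIndependent k fun i => (⟨R.red (u i), u i, Submodule.subset_span ⟨i, rfl⟩, rfl⟩ :
      R.redImage E) := LinearIndependent.of_comp (R.redImage E).subtype hu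
  have h2 : Module.finrank L E ≤ Fintype.card ι' := finrank_range_le_card _
  exact (R.finrank_redImage_eq_of_le (le_antisymm (R.finrank_redImage_le E)
    (h2.trans h1.fintype_card_le_finrank)) hV).ge

/-- A ring `B` of integral functions with a reduction `ρ`, a coordinate `x` with transcendental
reduction and `d = [F : L(x)]` elements of `B` whose reductions are independent over `k(ρ x)`. -/
structure GaussData (A : ValuationSubring L) (π : A →+* k) (F Fk : Type*) [Field F] [Algebra L F]
    [Field Fk] [Algebra k Fk] where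
  /-- integral functions -/
  B : Subring F
  /-- their reduction -/
  ρ : B →+* Fk
  algebraMap_mem : ∀ a : A, algebraMap L F a ∈ B
  ρ_algebraMap : ∀ a : A, ρ ⟨algebraMap L F a, algebraMap_mem a⟩ = algebraMap k Fk (π a)
  surj_pi : Function.Surjective π
  /-- the coordinate -/
  x : B
  transcendental : Transcendental k (ρ x)
  /-- the degree -/
  d : ℕ
  d_pos : 0 < d
  /-- the basis lift -/
  b : Fin d → B
  linearIndependent : LinearIndependent (k⟮ρ x⟯) fun i => ρ (b i)
  finrank_eq : Module.finrank (L⟮(x : F)⟯) F = d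

namespace GaussData

variable (G : GaussData A π F Fk)

/-- The constants of `A`, as elements of `B`. -/
def ιB : A →+* G.B :=
  ((algebraMap L F).comp A.subtype).codRestrict G.B G.algebraMap_mem

@[simp] theorem coe_ιB (a : A) : ((G.ιB a : G.B) : F) = algebraMap L F a := rfl

@[simp] theorem ρ_ιB (a : A) : G.ρ (G.ιB a) = algebraMap k Fk (π a) := G.ρ_algebraMap a

/-- An integral function with nonzero reduction is nonzero. -/
theorem coe_ne_zero {y : G.B} (hy : G.ρ y ≠ 0) : (y : F) ≠ 0 := fun h =>
  hy (by rw [show y = 0 from Subtype.ext h, map_zero])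

/-- A combination with independent reductions is a scalar times an element with nonzero
reduction. -/
theorem exists_primitive {ι' : Type*} (s : Finset ι') (u : ι' → G.B)
    (hu : LinearIndependent k fun i => G.ρ (u i)) (c : ι' → L) (hc : ∃ i ∈ s, c i ≠ 0) :
    ∃ M : L, M ≠ 0 ∧ ∃ n : G.B, G.ρ n ≠ 0 ∧
      (∑ i ∈ s, algebraMap L F (c i) * u i) = algebraMap L F M * n := by
  obtain ⟨i₀, hi₀, hc₀⟩ := hc
  obtain ⟨i₁, hi₁, hmax⟩ := s.exists_max_image (fun i => A.valuation (c i)) ⟨i₀, hi₀⟩
  have hM0 : c i₁ ≠ 0 := fun h0 => hc₀ <| (map_eq_zero A.valuation).mp <|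
    le_zero_iff.mp (by simpa [h0] using hmax i₀ hi₀)
  have hd : ∀ i ∈ s, c i / c i₁ ∈ A := fun i hi => by
    rw [← A.valuation_le_one_iff, map_div₀]
    exact div_le_one_of_le₀ (hmax i hi) zero_le
  classical
  let e : ι' → A := fun i => if hi : i ∈ s then ⟨c i / c i₁, hd i hi⟩ else 0
  refine ⟨c i₁, hM0, ∑ i ∈ s, G.ιB (e i) * u i, fun h0 => ?_, ?_⟩
  · rw [map_sum] at h0
    simp only [map_mul, ρ_ιB, ← Algebra.smul_def] at h0
    have := linearIndependent_iff'.mp hu s (fun i => π (e i)) h0 i₁ hi₁
    have h1 : e i₁ = 1 := by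
      simp only [e, dif_pos hi₁]
      exact Subtype.ext (div_self hM0)
    simp [h1] at this
  · rw [AddSubmonoidClass.coe_finsetSum, Finset.mul_sum]
    refine Finset.sum_congr rfl fun i hi => ?_
    rw [Subring.coe_mul, coe_ιB, ← mul_assoc, ← map_mul]
    simp only [e, dif_pos hi]
    rw [mul_div_cancel₀ _ hM0]

/-- The powers of `x̄` are independent. -/
theorem linearIndependent_ρ_pow : LinearIndependent k fun j : ℕ => G.ρ (G.x ^ j) := by
  simp only [map_pow]
  have hinj : Function.Injective (Polynomial.aeval (R := k) (G.ρ G.x)) :=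
    transcendental_iff_injective.mp G.transcendental
  have := (Polynomial.basisMonomials k).linearIndependent.map'
    (Polynomial.aeval (R := k) (G.ρ G.x)).toLinearMap (LinearMap.ker_eq_bot.mpr hinj)
  simpa [Function.comp_def, Polynomial.coe_basisMonomials] using this

/-- The monomial `x ^ j * bᵢ` attached to `(j, i)`. -/
def mon (p : ℕ × Fin G.d) : G.B := G.x ^ p.1 * G.b p.2

/-- The reduced monomials are independent over `k`. -/
theorem linearIndependent_ρ_mon : LinearIndependent k fun p => G.ρ (G.mon p) := by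
  have h1 : LinearIndependent k fun j : ℕ => (AdjoinSimple.gen k (G.ρ G.x)) ^ j := by
    refine LinearIndependent.of_comp (k⟮G.ρ G.x⟯.val.toLinearMap) ?_
    simpa [Function.comp_def, map_pow] using G.linearIndependent_ρ_pow
  refine (linearIndependent_equiv' (Equiv.refl _) ?_).mp
    (linearIndependent_smul h1 G.linearIndependent)
  funext p
  simp only [Equiv.refl_apply, Function.comp_apply, mon, map_mul, map_pow,
    IntermediateField.smul_def]
  simp

/-- The monomials are independent over `L`. -/
theorem eq_zero_of_sum_mon {s : Finset (ℕ × Fin G.d)} {c : ℕ × Fin G.d → L}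
    (h : ∑ p ∈ s, algebraMap L F (c p) * G.mon p = 0) : ∀ p ∈ s, c p = 0 := by
  by_contra hcon
  push Not at hcon
  obtain ⟨M, hM, n, hn, he⟩ := G.exists_primitive s G.mon G.linearIndependent_ρ_mon c hcon
  rw [h, eq_comm, mul_eq_zero] at he
  rcases he with he | he
  · exact hM (by simpa using he)
  · exact G.coe_ne_zero hn he

/-- `x` is transcendental over `L`. -/
theorem transcendental_x : Transcendental L (G.x : F) := by
  rw [transcendental_iff]
  intro q hq
  by_contra hq0
  obtain ⟨M, hM, n, hn, he⟩ := G.exists_primitive (Finset.range (q.natDegree + 1))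
    (fun j => G.x ^ j) G.linearIndependent_ρ_pow q.coeff
    ⟨q.natDegree, Finset.mem_range.mpr (Nat.lt_succ_self _), leadingCoeff_ne_zero.mpr hq0⟩
  rw [Polynomial.aeval_eq_sum_range] at hq
  simp only [Algebra.smul_def] at hq
  rw [show (∑ j ∈ Finset.range (q.natDegree + 1),
      algebraMap L F (q.coeff j) * ((G.x ^ j : G.B) : F)) = 0 by
        simpa using hq, eq_comm, mul_eq_zero] at he
  rcases he with he | he
  · exact hM (by simpa using he)
  · exact G.coe_ne_zero hn he

/-- A polynomial in `x` is a scalar times a function with nonzero reduction. -/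
theorem exists_primitive_aeval {q : L[X]} (hq : q ≠ 0) :
    ∃ M : L, M ≠ 0 ∧ ∃ n : G.B, G.ρ n ≠ 0 ∧
      Polynomial.aeval (G.x : F) q = algebraMap L F M * n := by
  obtain ⟨M, hM, n, hn, he⟩ := G.exists_primitive (Finset.range (q.natDegree + 1))
    (fun j => G.x ^ j) G.linearIndependent_ρ_pow q.coeff
    ⟨q.natDegree, Finset.mem_range.mpr (Nat.lt_succ_self _), leadingCoeff_ne_zero.mpr hq⟩
  refine ⟨M, hM, n, hn, ?_⟩
  rw [Polynomial.aeval_eq_sum_range, ← he]
  simp [Algebra.smul_def]

/-- The `L`-span of the monomials `x ^ j * bᵢ`. -/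
def monSpan : Submodule L F := monomialSpan L (G.x : F) fun i => (G.b i : F)

/-- The lifted basis is independent over `L(x)`. -/
theorem linearIndependent_b : LinearIndependent (L⟮(G.x : F)⟯) fun i => (G.b i : F) :=
  linearIndependent_adjoin_of_monomial _ _ <| linearIndependent_iff'.mpr fun s g hg =>
    G.eq_zero_of_sum_mon (s := s) (c := g) (Eq.trans (Finset.sum_congr rfl fun p _ =>
      (Algebra.smul_def (g p) (G.mon p : F)).symm) hg)

/-- One polynomial in `x` clears a finite-dimensional space into the span of the monomials. -/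
theorem exists_clear (V : Submodule L F) (hV : V.FG) :
    ∃ q : L[X], q ≠ 0 ∧ ∀ f ∈ V, Polynomial.aeval (G.x : F) q * f ∈ G.monSpan := by
  have : FiniteDimensional (L⟮(G.x : F)⟯) F :=
    Module.finite_of_finrank_pos (by rw [G.finrank_eq]; exact G.d_pos)
  exact exists_aeval_mul_mem_monomialSpan _ _
    (G.linearIndependent_b.span_eq_top_of_card_eq_finrank'
      (by rw [Fintype.card_fin, G.finrank_eq])) V hV

/-- The ring of functions with a reduction. -/
def O : Subring F := fracSubring G.ρ

theorem mem_O {f : F} : f ∈ G.O ↔ ∃ y z : G.B, G.ρ z ≠ 0 ∧ f * z = y := Iff.rfl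

theorem mem_O_of_mem_B (y : G.B) : (y : F) ∈ G.O := coe_mem_fracSubring G.ρ y

/-- The reduction on `O`. -/
def red : G.O →+* Fk := fracHom G.ρ

/-- The reduction of a quotient of elements of `B`. -/
theorem red_eq {f : G.O} {y z : G.B} (hz : G.ρ z ≠ 0) (h : (f : F) * z = y) :
    G.red f = G.ρ y / G.ρ z := fracHom_eq G.ρ hz h

theorem red_B (y : G.B) : G.red ⟨y, G.mem_O_of_mem_B y⟩ = G.ρ y := fracHom_coe G.ρ y

/-- Every nonzero function is a scalar times a function with nonzero reduction. -/
theorem scale (f : F) (hf : f ≠ 0) :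
    ∃ c : L, ∃ u : G.O, G.red u ≠ 0 ∧ f = algebraMap L F c * u := by
  obtain ⟨q, hq, hqV⟩ := G.exists_clear (L ∙ f) (Submodule.fg_span_singleton f)
  have hqf := hqV f (Submodule.mem_span_singleton_self f)
  obtain ⟨c, hc⟩ := Finsupp.mem_span_range_iff_exists_finsupp.mp hqf
  obtain ⟨Mq, hMq, nq, hnq, hqe⟩ := G.exists_primitive_aeval hq
  have hqx : Polynomial.aeval (G.x : F) q ≠ 0 := fun h =>
    hq (transcendental_iff.mp G.transcendental_x q h)
  have hsum : ∑ p ∈ c.support, algebraMap L F (c p) * (G.mon p : F) =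
      Polynomial.aeval (G.x : F) q * f := by
    rw [← hc, Finsupp.sum]; simp [Algebra.smul_def, mon]
  have hcne : ∃ p ∈ c.support, c p ≠ 0 := by
    by_contra hcon
    push Not at hcon
    rw [Finset.sum_eq_zero (fun p hp => by rw [hcon p hp, map_zero, zero_mul]), eq_comm,
      mul_eq_zero] at hsum
    exact hsum.elim hqx hf
  obtain ⟨M, hM, n, hn, he⟩ := G.exists_primitive _ G.mon G.linearIndependent_ρ_mon _ hcne
  rw [hsum, hqe] at he
  have hnq0 : (nq : F) ≠ 0 := G.coe_ne_zero hnq
  have hu : (n : F) / nq ∈ G.O := ⟨n, nq, hnq, div_mul_cancel₀ _ hnq0⟩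
  refine ⟨M / Mq, ⟨_, hu⟩, ?_, ?_⟩
  · rw [G.red_eq (y := n) hnq (div_mul_cancel₀ _ hnq0)]
    exact div_ne_zero hn hnq
  · have hMq' : algebraMap L F Mq ≠ 0 := (_root_.map_ne_zero _).mpr hMq
    rw [map_div₀, div_mul_div_comm, eq_div_iff (mul_ne_zero hMq' hnq0), ← he]
    ring

/-- The Gauss reduction. -/
def toRedBase : RedBase A π F Fk where
  O := G.O
  red := G.red
  algebraMap_mem a := G.mem_O_of_mem_B (G.ιB a)
  red_algebraMap a := (G.red_B (G.ιB a)).trans (G.ρ_ιB a)
  scale := G.scale
  surj_pi := G.surj_pi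

/-- The coordinate `x`, as an element of `O`. -/
def xO : G.toRedBase.O := ⟨G.x, G.mem_O_of_mem_B G.x⟩

theorem red_xO : G.toRedBase.red G.xO = G.ρ G.x := G.red_B G.x

/-- The reduction of `x` is not constant. -/
theorem red_xO_ne_const (c : k) : G.toRedBase.red G.xO ≠ algebraMap k Fk c := fun h => by
  rw [red_xO] at h
  exact G.transcendental (h ▸ isAlgebraic_algebraMap c)

/-- Finite-dimensional spaces of functions have reductions of full rank. -/
theorem finrank_le_redImage (V : Submodule L F) [FiniteDimensional L V] :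
    Module.finrank L V ≤ Module.finrank k (G.toRedBase.redImage V) := by
  have hfg : V.FG := (Submodule.fg_iff_finiteDimensional V).mpr inferInstance
  obtain ⟨q, hq, hqV⟩ := G.exists_clear V hfg
  obtain ⟨Mq, hMq, nq, hnq, hqe⟩ := G.exists_primitive_aeval hq
  have hnq0 : (nq : F) ≠ 0 := G.coe_ne_zero hnq
  set V' := V.map (LinearMap.mulLeft L (nq : F)) with hV'
  obtain ⟨s, hV's⟩ := exists_finset_le_span (fun p => (G.mon p : F))
    (hfg.map (LinearMap.mulLeft L (nq : F))) (by
      rintro _ ⟨f, hf, rfl⟩
      have := G.monSpan.smul_mem Mq⁻¹ (hqV f hf)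
      rwa [hqe, Algebra.smul_def, ← mul_assoc, ← mul_assoc, ← map_mul, inv_mul_cancel₀ hMq,
        map_one, one_mul] at this)
  let u : s → G.toRedBase.O := fun p => ⟨G.mon p, G.mem_O_of_mem_B _⟩
  have hu : LinearIndependent k fun p => G.toRedBase.red (u p) := by
    have : (fun p : s => G.toRedBase.red (u p)) = fun p : s => G.ρ (G.mon p) :=
      funext fun p => G.red_B _
    rw [this]
    exact G.linearIndependent_ρ_mon.comp _ Subtype.val_injective
  have h1 := G.toRedBase.finrank_le_of_le_span u hu V' hV's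
  have h2 : Module.finrank L V' = Module.finrank L V :=
    (Submodule.equivMapOfInjective _ (mul_right_injective₀ hnq0) V).finrank_eq.symm
  have h3 : G.toRedBase.redImage V' ≤
      (G.toRedBase.redImage V).map (LinearMap.mulLeft k (G.ρ nq)) := by
    rintro _ ⟨w, ⟨f, hf, hfw⟩, rfl⟩
    rw [LinearMap.mulLeft_apply] at hfw
    obtain ⟨y, z, hz, h⟩ := G.mem_O.mp w.2
    have hfO : f ∈ G.O := ⟨y, nq * z, by rw [map_mul]; exact mul_ne_zero hnq hz, by
      rw [Subring.coe_mul, ← h, ← hfw]; ring⟩
    refine ⟨G.red ⟨f, hfO⟩, ⟨⟨f, hfO⟩, hf, rfl⟩, ?_⟩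
    show G.ρ nq * G.red ⟨f, hfO⟩ = G.red ⟨(w : F), w.2⟩
    rw [← G.red_B nq, ← map_mul]
    exact congrArg G.red (Subtype.ext hfw)
  have h4 := (Submodule.finrank_mono h3).trans (Submodule.finrank_map_le _ _)
  omega

end GaussData

end Fermat.Agent.Red
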