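import Mathlib.Algebra.Ring.GeomSum
import Fermat.Agent.Red.Lattice

/-!
# Reduction is injective on prime-to-`p` torsion when the genus does not drop

For a torsion class with principal reduction, a function comparing the class with a nonspecial
effective divisor reduces to a constant, which forces the class to be principal.
-/

noncomputable section

open AlgebraicCurve

namespace Fermat.Agent.Red

variable {L F k Fk : Type*} [Field L] [Field F] [Algebra L F] [Field k] [Field Fk] [Algebra k Fk]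

/-- The reduced effective divisor supported on a finite set. -/
def pointsDiv (T : Finset (Place L F)) : Divisor L F :=
  ∑ P ∈ T, Finsupp.single P 1

/-- `pointsDiv T` is the indicator of `T`. -/
theorem pointsDiv_apply (T : Finset (Place L F)) [DecidableEq (Place L F)] (P : Place L F) :
    pointsDiv T P = if P ∈ T then 1 else 0 := by
  rw [pointsDiv, Finsupp.finsetSum_apply]
  simp [Finsupp.single_apply]

namespace RedData

open RedBase

theorem coe_ι_mk {A : ValuationSubring L} {π : A →+* k} (R : RedData A π F Fk) (c : L)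
    (hc : c ∈ A) : ((R.ι ⟨c, hc⟩ : R.O) : F) = algebraMap L F c := rfl

variable {A : ValuationSubring L} {π : A →+* k} (R : RedData A π F Fk) {g g' : ℕ}
variable (hF : RR L F g) (hK : RR k Fk g')
include hF

/-- The value at a point with pole-free disc lies in `A`, and is compatible with reduction. -/
theorem value_mem {u : R.O} {P : Place L F} (hdisc : ∀ P', R.r P' = R.r P → 0 ≤ P'.ord (u : F))
    {c : L} (hc : (u : F) = algebraMap L F c ∨ 0 < P.ord ((u : F) - algebraMap L F c)) :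
    ∃ hA : c ∈ A, R.red u = algebraMap k Fk (π ⟨c, hA⟩) ∨
      0 < (R.r P).ord (R.red u - algebraMap k Fk (π ⟨c, hA⟩)) := by
  have hA : c ∈ A := by
    by_contra hcA
    have hci : c⁻¹ ∈ A := (A.mem_or_inv_mem c).resolve_left hcA
    have hc0 : c ≠ 0 := fun h0 => hcA (h0 ▸ A.zero_mem)
    set v : R.O := 1 - R.ι ⟨c⁻¹, hci⟩ * u with hv
    have h0 : π ⟨c⁻¹, hci⟩ = 0 := by
      by_contra hne
      exact hcA (inv_inv c ▸ inv_mem_of_pi_ne_zero R.surj_pi hne)
    have hred : R.red v = 1 := by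
      rw [hv, map_sub, map_one, map_mul, red_ι, h0, map_zero, zero_mul, sub_zero]
    have hvF : (v : F) = algebraMap L F (-c⁻¹) * ((u : F) - algebraMap L F c) := by
      rw [hv, AddSubgroupClass.coe_sub, Subring.coe_mul, coe_ι_mk, Subring.coe_one, map_neg,
        neg_mul, mul_sub, ← map_mul (algebraMap L F) c⁻¹ c, inv_mul_cancel₀ hc0, map_one, neg_sub]
    have hne : R.red v ≠ 0 := by rw [hred]; exact one_ne_zero
    rcases hc with hc | hc
    · exact R.coe_ne_zero hne (by rw [hvF, hc, sub_self, mul_zero])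
    have hle := R.ord_le_ord_red hF hne (P₀ := P) (fun P' hP' => by
      rw [hvF, ord_algebraMap_mul _ (neg_ne_zero.mpr (inv_ne_zero hc0)), sub_eq_add_neg]
      exact ord_nonneg_add _ (hdisc P' hP') (by rw [ord_neg, ord_algebraMap]))
    rw [hred, Place.ord_one, hvF, ord_algebraMap_mul _ (neg_ne_zero.mpr (inv_ne_zero hc0))] at hle
    omega
  refine ⟨hA, ?_⟩
  by_cases h0 : R.red (u - R.ι ⟨c, hA⟩) = 0
  · rw [map_sub, red_ι, sub_eq_zero] at h0
    exact Or.inl h0
  refine Or.inr ?_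
  rcases hc with hc | hc
  · exact absurd (by rw [AddSubgroupClass.coe_sub, coe_ι_mk, hc, sub_self]) (R.coe_ne_zero h0)
  have hle := R.ord_le_ord_red hF h0 (P₀ := P) (fun P' hP' => by
    rw [AddSubgroupClass.coe_sub, coe_ι_mk, sub_eq_add_neg]
    exact ord_nonneg_add _ (hdisc P' hP') (by rw [ord_neg, ord_algebraMap]))
  simp only [map_sub, red_ι, AddSubgroupClass.coe_sub, coe_ι_mk] at hle
  omega

include hK

variable [Infinite k] (x : R.O) (hx : ∀ c : k, R.red x ≠ algebraMap k Fk c)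
include hx

/-- `g'` points with distinct nonspecial reductions. -/
theorem exists_nonspecial : ∃ T : Finset (Place L F), T.card = g' ∧
    Set.InjOn R.r T ∧ ell (Finsupp.mapDomain R.r (pointsDiv T)) = 1 := by
  classical
  obtain ⟨W, hWdeg, hW, hRR⟩ := hK.exists_canonical
  suffices h : ∀ s ≤ g', ∃ T : Finset (Place L F), T.card = s ∧
      Set.InjOn R.r T ∧ ell (Finsupp.mapDomain R.r (pointsDiv T)) = 1 from h g' le_rfl
  intro s
  induction s with
  | zero => exact fun _ => ⟨∅, rfl, by simp, by simpa [pointsDiv] using hK.ell_zero⟩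
  | succ s ih =>
    intro hs
    obtain ⟨T, hTc, hTi, hT1⟩ := ih (by omega)
    set D := Finsupp.mapDomain R.r (pointsDiv T) with hD
    have hdeg : Divisor.degree D = s := by
      rw [hD, R.degree_mapDomain hF hK, pointsDiv, map_sum]
      simp [hF.deg_one, hTc]
    have hl := hRR D
    rw [hT1, hdeg] at hl
    obtain ⟨f, hf, hf0⟩ := hK.exists_ne_zero_of_ell_pos (D := W - D) (by omega)
    obtain ⟨Df, hDf, -⟩ := hK.exists_div f hf0
    obtain ⟨P, hP⟩ := R.exists_range_notMem hF hK x hx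
      (Df.support ∪ W.support ∪ T.image R.r)
    simp only [Finset.mem_union, not_or, Finsupp.notMem_support_iff] at hP
    obtain ⟨⟨hP1, hP2⟩, hP3⟩ := hP
    have hPT : P ∉ T := fun h => hP3 (Finset.mem_image_of_mem _ h)
    refine ⟨insert P T, by rw [Finset.card_insert_of_notMem hPT, hTc], ?_, ?_⟩
    · rw [Finset.coe_insert, Set.injOn_insert (by simpa using hPT)]
      exact ⟨hTi, fun ⟨P', hP', he⟩ => hP3 (Finset.mem_image.mpr ⟨P', hP', he⟩)⟩
    rw [pointsDiv, Finset.sum_insert hPT, Finsupp.mapDomain_add, Finsupp.mapDomain_single,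
      ← pointsDiv, ← hD]
    have hDQ : D (R.r P) = 0 := by
      by_contra hne
      obtain ⟨P', hP', hne'⟩ := exists_ne_zero_of_mapDomain_ne_zero _ _ _ hne
      rw [pointsDiv_apply] at hne'
      exact hP3 (Finset.mem_image.mpr ⟨P', by simpa using hne', hP'⟩)
    have hlt : ell (W - (Finsupp.single (R.r P) 1 + D)) < ell (W - D) := by
      have := hK.finiteDim (W - D)
      refine Submodule.finrank_lt_finrank_of_lt (lt_of_le_not_ge (RR.space_mono fun v => ?_) ?_)
      · simp only [Finsupp.sub_apply, Finsupp.add_apply, Finsupp.single_apply]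
        split_ifs <;> omega
      · intro hle
        have := ((mem_riemannRochSpace_iff.mp (hle hf)) (R.r P)).resolve_left hf0
        rw [Finsupp.sub_apply, Finsupp.add_apply, Finsupp.single_eq_same, hDQ, hP2, ← hDf, hP1]
          at this
        omega
    have h2 := hRR (Finsupp.single (R.r P) 1 + D)
    rw [map_add, Divisor.degree_single, hK.deg_one, hdeg] at h2
    have h3 : ell D ≤ ell (Finsupp.single (R.r P) 1 + D) := hK.ell_mono <| RR.space_mono fun v => by
      simp only [Finsupp.add_apply, Finsupp.single_apply]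
      split_ifs <;> omega
    omega

/-- A uniformiser of the reduced place lifts to a function without poles in the disc, whose only
zero there is a given point. -/
theorem exists_coord (hg : g ≤ g') (P : Place L F) :
    ∃ t : R.O, (R.r P).ord (R.red t) = 1 ∧ P.ord (t : F) = 1 ∧
      ∀ P', R.r P' = R.r P → P' ≠ P → P'.ord (t : F) = 0 := by
  classical
  obtain ⟨P₀, hP₀⟩ := R.exists_range_notMem hF hK x hx {R.r P}
  rw [Finset.mem_singleton] at hP₀
  set E : Divisor L F := Finsupp.single P₀ (2 * g' + 1 : ℤ) - Finsupp.single P 1 with hE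
  have hdeg : Divisor.degree E = 2 * g' := by
    rw [hE, map_sub, Divisor.degree_single, Divisor.degree_single, hF.deg_one, hF.deg_one]
    push_cast; ring
  have hrE : Finsupp.mapDomain R.r E =
      Finsupp.single (R.r P₀) (2 * g' + 1 : ℤ) - Finsupp.single (R.r P) 1 := by
    rw [hE, Finsupp.mapDomain_sub, Finsupp.mapDomain_single, Finsupp.mapDomain_single]
  have hdeg' : Divisor.degree (Finsupp.mapDomain R.r E) = 2 * g' := by
    rw [R.degree_mapDomain hF hK, hdeg]
  have h1 := hK.ell_eq_of_large (D := Finsupp.mapDomain R.r E) (by omega)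
  have hd2 : Divisor.degree (Finsupp.mapDomain R.r E - Finsupp.single (R.r P) 1) = 2 * g' - 1 := by
    rw [map_sub, hdeg', Divisor.degree_single, hK.deg_one]; push_cast; ring
  have h2 := hK.ell_eq_of_large (D := Finsupp.mapDomain R.r E - Finsupp.single (R.r P) 1) (by omega)
  obtain ⟨w, hw, hwn⟩ : ∃ w ∈ riemannRochSpace (Finsupp.mapDomain R.r E),
      w ∉ riemannRochSpace (Finsupp.mapDomain R.r E - Finsupp.single (R.r P) 1) := by
    by_contra hcon
    push Not at hcon
    have := hK.ell_mono (D := Finsupp.mapDomain R.r E)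
      (E := Finsupp.mapDomain R.r E - Finsupp.single (R.r P) 1) hcon
    omega
  have hw0 : w ≠ 0 := fun h0 => hwn (h0 ▸ zero_mem _)
  have hord : (R.r P).ord w = 1 := by
    have hge := ((mem_riemannRochSpace_iff.mp hw) (R.r P)).resolve_left hw0
    rw [hrE, Finsupp.sub_apply, Finsupp.single_eq_same,
      Finsupp.single_eq_of_ne (Ne.symm hP₀)] at hge
    by_contra hne
    refine hwn (mem_riemannRochSpace_iff.mpr fun v => Or.inr ?_)
    have hv := ((mem_riemannRochSpace_iff.mp hw) v).resolve_left hw0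
    rw [hrE] at hv ⊢
    simp only [Finsupp.sub_apply] at hv ⊢
    rcases eq_or_ne v (R.r P) with rfl | hvne
    · rw [Finsupp.single_eq_same, Finsupp.single_eq_of_ne (Ne.symm hP₀)]
      omega
    · rw [Finsupp.single_eq_of_ne hvne] at hv ⊢
      omega
  obtain ⟨t, ht, rfl⟩ := R.exists_lift_of_large hF hK x hx hg (E := E) (by omega) hw
  obtain ⟨Dt, hDt, -⟩ := hF.exists_div _ (R.coe_ne_zero hw0)
  have ht0 := fun P' => ((mem_riemannRochSpace_iff.mp ht) P').resolve_left (R.coe_ne_zero hw0)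
  have hge : ∀ P', R.r P' = R.r P → (if P' = P then 1 else 0) ≤ Dt P' := by
    intro P' hP'
    have hne : P' ≠ P₀ := fun h => hP₀ (h ▸ hP')
    have := ht0 P'
    rw [hE, Finsupp.sub_apply, Finsupp.single_eq_of_ne hne, ← hDt] at this
    split_ifs with h
    · subst h; rw [Finsupp.single_eq_same] at this; omega
    · rw [Finsupp.single_eq_of_ne h] at this; omega
  obtain ⟨a₀, ha₀, ha1, hrest⟩ := exists_unique_simple R.r Dt (R.r P)
    (fun a ha => by have := hge a ha; split_ifs at this <;> omega)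
    (by rw [R.push t hw0 Dt hDt, hord])
  have hPa : P = a₀ := by
    by_contra hne
    have := hrest P rfl hne
    have := hge P rfl
    rw [if_pos rfl] at this
    omega
  subst hPa
  exact ⟨t, hord, by rw [← hDt, ha1], fun P' hP' hne => by rw [← hDt]; exact hrest P' hP' hne⟩

omit hF hK x hx [Infinite k] in
/-- A torsion divisor with principal reduction is cut out by a lift of a power of the reduction. -/
theorem exists_red_eq_pow (hK : RR k Fk g') {m : ℕ} {D : Divisor L F} {f : F} (hf0 : f ≠ 0)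
    (hf : ∀ P, (m • D) P = P.ord f) {h : Fk} (hh0 : h ≠ 0)
    (hh : ∀ Q, Finsupp.mapDomain R.r D Q = Q.ord h) :
    ∃ u : R.O, R.red u = h ^ m ∧ ∀ P : Place L F, P.ord (u : F) = m * D P := by
  obtain ⟨c, u₁, hu₁, hfu⟩ := R.scale f hf0
  have hc0 : c ≠ 0 := by rintro rfl; simp [hfu] at hf0
  have hu₁ord : ∀ P, P.ord (u₁ : F) = (m • D) P := fun P => by
    rw [hf P, hfu, ord_algebraMap_mul _ hc0]
  have hred₁ : ∀ Q : Place k Fk, Q.ord (R.red u₁) = m * Q.ord h := fun Q => by
    rw [← R.push u₁ hu₁ (m • D) (fun P => (hu₁ord P).symm) Q, Finsupp.mapDomain_smul,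
      Finsupp.smul_apply, nsmul_eq_mul, hh]
  have hhm : h ^ m ≠ 0 := pow_ne_zero _ hh0
  obtain ⟨c', hc'⟩ := hK.eq_const_of_ord_nonneg (f := R.red u₁ / h ^ m) (fun Q => by
    rw [ord_div Q hu₁ hhm, ord_pow, hred₁, sub_self])
  rw [div_eq_iff hhm] at hc'
  have hc'0 : c' ≠ 0 := by rintro rfl; exact hu₁ (by rw [hc', map_zero, zero_mul])
  obtain ⟨b₁, hb₁⟩ := R.surj_pi c'⁻¹
  set u : R.O := R.ι b₁ * u₁ with hu
  have hured : R.red u = h ^ m := by
    rw [hu, map_mul, red_ι, hb₁, hc', ← mul_assoc, ← map_mul, inv_mul_cancel₀ hc'0, map_one,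
      one_mul]
  have hb₁0 : (b₁ : L) ≠ 0 := by
    intro h0
    rw [show b₁ = 0 from Subtype.ext h0, map_zero] at hb₁
    exact inv_ne_zero hc'0 hb₁.symm
  refine ⟨u, hured, fun P => ?_⟩
  rw [hu, Subring.coe_mul, coe_ι, ord_algebraMap_mul _ hb₁0, hu₁ord, Finsupp.smul_apply,
    nsmul_eq_mul]

omit x hx [Infinite k] in
/-- A nonspecial divisor lifts the inverse of the reduction of a degree-zero divisor. -/
theorem exists_section {D E : Divisor L F} (hD0 : Divisor.degree D = 0)
    (hEdeg : Divisor.degree E = g') (hg : g ≤ g') (hrE0 : ∀ Q, 0 ≤ Finsupp.mapDomain R.r E Q)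
    (hE1 : ell (Finsupp.mapDomain R.r E) = 1) {h : Fk} (hh0 : h ≠ 0)
    (hh : ∀ Q, Finsupp.mapDomain R.r D Q = Q.ord h) :
    ∃ s : R.O, R.red s * h = 1 ∧ ∀ P : Place L F, -(E P + D P) ≤ P.ord (s : F) := by
  obtain ⟨s₀, hs₀, hs₀0⟩ := hF.exists_ne_zero_of_ell_pos (D := E + D) (by
    have := hF.riemann (E + D)
    rw [map_add, hEdeg, hD0] at this
    omega)
  obtain ⟨cs, s₁, hs₁, hs₀e⟩ := R.scale s₀ hs₀0
  have hcs : cs ≠ 0 := by rintro rfl; simp [hs₀e] at hs₀0
  have hs₁mem : ∀ P, -(E + D) P ≤ P.ord (s₁ : F) := fun P => by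
    have := ((mem_riemannRochSpace_iff.mp hs₀) P).resolve_left hs₀0
    rwa [hs₀e, ord_algebraMap_mul _ hcs] at this
  have hrs₁ := R.red_mem_space hF (E := E + D) (u := s₁)
    (mem_riemannRochSpace_iff.mpr fun P => Or.inr (hs₁mem P))
  obtain ⟨c'', hc''⟩ := hK.eq_const_of_mem_of_ell_eq_one
    (D := Finsupp.mapDomain R.r E) hrE0 hE1
    (f := R.red s₁ * h) (mem_riemannRochSpace_iff.mpr fun Q => Or.inr (by
      have := ((mem_riemannRochSpace_iff.mp hrs₁) Q).resolve_left hs₁
      rw [Finsupp.mapDomain_add, Finsupp.add_apply, hh] at this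
      rw [Q.ord_mul hs₁ hh0]
      omega))
  have hc''0 : c'' ≠ 0 := by
    rintro rfl; exact mul_ne_zero hs₁ hh0 (by rw [hc'', map_zero])
  obtain ⟨b₂, hb₂⟩ := R.surj_pi c''⁻¹
  have hb₂0 : (b₂ : L) ≠ 0 := by
    intro h0
    rw [show b₂ = 0 from Subtype.ext h0, map_zero] at hb₂
    exact inv_ne_zero hc''0 hb₂.symm
  set s : R.O := R.ι b₂ * s₁ with hs
  have hsred : R.red s * h = 1 := by
    rw [hs, map_mul, red_ι, hb₂, mul_assoc, hc'', ← map_mul, inv_mul_cancel₀ hc''0, map_one]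
  refine ⟨s, hsred, fun P => ?_⟩
  rw [hs, Subring.coe_mul, coe_ι, ord_algebraMap_mul _ hb₂0]
  exact Finsupp.add_apply (g₁ := E) (g₂ := D) (a := P) ▸ hs₁mem P

omit hK x hx [Infinite k] in
/-- In a disc where `w₀ t ^ m` has a zero of order `m` at `Pz`, as has `t'`, the combination
`w₀ t ^ m - c t' ^ m` reduces to a function with a zero of order `m`. -/
theorem le_ord_red_of_sub {m : ℕ} {Z : Divisor L F} (hZ0 : ∀ P, 0 ≤ Z P) {P Pz : Place L F}
    (hPz : R.r Pz = R.r P) (hPz1 : Z Pz = 1) {w₀ t tA : R.O}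
    (e₁ : ∀ P', R.r P' = R.r P → P'.ord ((w₀ : F) * (t : F) ^ m) = m * Z P')
    (htAnn : ∀ P', R.r P' = R.r P → 0 ≤ P'.ord (tA : F)) (htAz : 1 ≤ Pz.ord (tA : F))
    {c₀ : A} (hc₀F : (c₀ : L) ≠ 0) {G : R.O} (hG : G = w₀ * t ^ m - R.ι c₀ * tA ^ m)
    {d : A} {G' : R.O} (hd : (d : L) ≠ 0) (hGe : G = R.ι d * G') (hne : R.red G' ≠ 0) :
    (m : ℤ) ≤ (R.r P).ord (R.red G') := by
  have hGord : ∀ P', R.r P' = R.r P → (G : F) ≠ 0 →
      min ((m : ℤ) * Z P') (m * P'.ord (tA : F)) ≤ P'.ord (G : F) := by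
    intro P' hP' hne
    have e2 : P'.ord (-(algebraMap L F c₀ * (tA : F) ^ m)) = m * P'.ord (tA : F) := by
      rw [ord_neg, ord_algebraMap_mul _ hc₀F, ord_pow]
    have eG : (G : F) = (w₀ : F) * (t : F) ^ m + -(algebraMap L F c₀ * (tA : F) ^ m) := by
      rw [hG, AddSubgroupClass.coe_sub, Subring.coe_mul, Subring.coe_mul, coe_ι,
        SubmonoidClass.coe_pow, SubmonoidClass.coe_pow, sub_eq_add_neg]
    rw [eG] at hne ⊢
    calc min ((m : ℤ) * Z P') (m * P'.ord (tA : F))
        = min (P'.ord ((w₀ : F) * (t : F) ^ m))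
            (P'.ord (-(algebraMap L F c₀ * (tA : F) ^ m))) := by rw [e₁ P' hP', e2]
      _ ≤ _ := min_ord_le_ord_add P' hne
  have hG'F : (G' : F) ≠ 0 := R.coe_ne_zero hne
  have hGF : (G : F) ≠ 0 := by
    rw [hGe, Subring.coe_mul, coe_ι]; exact mul_ne_zero (by simpa using hd) hG'F
  have hoe : ∀ P' : Place L F, P'.ord (G : F) = P'.ord (G' : F) := fun P' => by
    rw [hGe, Subring.coe_mul, coe_ι, ord_algebraMap_mul _ hd]
  have hle := R.ord_le_ord_red hF hne (P₀ := Pz) (fun P' hP' => by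
    rw [← hoe]
    refine le_trans ?_ (hGord P' (hP'.trans hPz) hGF)
    exact le_min (mul_nonneg (Int.natCast_nonneg m) (hZ0 P'))
      (mul_nonneg (Int.natCast_nonneg m) (htAnn P' (hP'.trans hPz))))
  rw [hPz, ← hoe] at hle
  refine le_trans (le_trans ?_ (hGord Pz hPz hGF)) hle
  refine le_min (by rw [hPz1, mul_one]) ?_
  calc (m : ℤ) = m * 1 := (mul_one _).symm
    _ ≤ m * Pz.ord (tA : F) := mul_le_mul_of_nonneg_left htAz (Int.natCast_nonneg m)

omit hF hK x hx [Infinite k] in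
/-- The two-term expansion bounds the pole of the reduction of `w` by one. -/
theorem neg_one_le_ord_red {m : ℕ} (hm : (m : k) ≠ 0) {Q : Place k Fk} {t w S G : R.O}
    (htred : Q.ord (R.red t) = 1) (hw : R.red w ≠ 0)
    (hSred : R.red S = (m : Fk) * R.red t ^ (m - 1)) {a : L} (haA : a ∈ A) {b c₀ : A}
    (hb0 : (b : L) ≠ 0) (hc₀one : π c₀ = 1)
    (hGeq : G = R.ι b * w * t ^ m + R.ι c₀ * R.ι ⟨a, haA⟩ * S)
    (hkey : ∀ (d : A) (G' : R.O), (d : L) ≠ 0 → G = R.ι d * G' → R.red G' ≠ 0 →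
      (m : ℤ) ≤ Q.ord (R.red G')) : -1 ≤ Q.ord (R.red w) := by
  have hm0 : 0 < m := Nat.pos_of_ne_zero fun h0 => hm (by rw [h0, Nat.cast_zero])
  have htbar0 : R.red t ≠ 0 := fun h0 => by
    rw [h0, Place.ord_zero] at htred; exact zero_ne_one htred
  have hmFk : (m : Fk) ≠ 0 := by
    rw [← map_natCast (algebraMap k Fk) m]; exact (map_ne_zero _).mpr hm
  have hpow : Q.ord ((m : Fk) * R.red t ^ (m - 1)) = (m : ℤ) - 1 := by
    rw [← map_natCast (algebraMap k Fk) m, ord_algebraMap_mul _ hm, ord_pow, htred]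
    omega
  by_cases hab : a / (b : L) ∈ A
  · set β : A := ⟨a / (b : L), hab⟩ with hβ
    set G₁ : R.O := w * t ^ m + R.ι c₀ * R.ι β * S with hG₁
    have hGe : G = R.ι b * G₁ := by
      have : R.ι ⟨a, haA⟩ = R.ι b * R.ι β := by
        rw [← map_mul]
        congr 1
        exact Subtype.ext (mul_div_cancel₀ a hb0).symm
      rw [hGeq, hG₁, this]
      ring
    have hG₁red : R.red G₁ = R.red w * R.red t ^ m +
        algebraMap k Fk (π β) * ((m : Fk) * R.red t ^ (m - 1)) := by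
      rw [hG₁, map_add, map_mul, map_mul, map_mul, map_pow, red_ι, red_ι, hc₀one, map_one,
        one_mul, hSred]
    have hXord : Q.ord (R.red w * R.red t ^ m) = Q.ord (R.red w) + m := by
      rw [Q.ord_mul hw (pow_ne_zero _ htbar0), ord_pow, htred, mul_one]
    by_cases hzero : R.red G₁ = 0
    · rw [hG₁red, add_eq_zero_iff_eq_neg] at hzero
      have hβ0 : π β ≠ 0 := fun h0 => by
        rw [h0, map_zero, zero_mul, neg_zero] at hzero
        exact mul_ne_zero hw (pow_ne_zero _ htbar0) hzero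
      rw [hzero, ord_neg, ord_algebraMap_mul _ hβ0, hpow] at hXord
      omega
    · have h1 := hkey b G₁ hb0 hGe hzero
      have hY : algebraMap k Fk (π β) * ((m : Fk) * R.red t ^ (m - 1)) = 0 ∨
          (m : ℤ) - 1 ≤ Q.ord (algebraMap k Fk (π β) * ((m : Fk) * R.red t ^ (m - 1))) := by
        rcases eq_or_ne (π β) 0 with h0 | h0
        · exact Or.inl (by rw [h0, map_zero, zero_mul])
        · exact Or.inr (by rw [ord_algebraMap_mul _ h0, hpow])
      have h2 := le_ord_add Q (n := (m : ℤ) - 1) (f := R.red G₁)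
        (g := -(algebraMap k Fk (π β) * ((m : Fk) * R.red t ^ (m - 1))))
        (Or.inr (by omega)) (by rwa [neg_eq_zero, ord_neg])
        (by rw [hG₁red, add_neg_cancel_right]; exact mul_ne_zero hw (pow_ne_zero _ htbar0))
      rw [hG₁red, add_neg_cancel_right, hXord] at h2
      omega
  · have ha0' : a ≠ 0 := fun h0 => hab (by rw [h0, zero_div]; exact A.zero_mem)
    have hba : (b : L) / a ∈ A := by
      simpa [inv_div] using (A.mem_or_inv_mem (a / (b : L))).resolve_left hab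
    have hba0 : π ⟨(b : L) / a, hba⟩ = 0 := by
      by_contra hne
      exact hab (by simpa [inv_div] using inv_mem_of_pi_ne_zero R.surj_pi hne)
    set γ : A := ⟨(b : L) / a, hba⟩ with hγ
    set G₂ : R.O := R.ι γ * w * t ^ m + R.ι c₀ * S with hG₂
    have hGe : G = R.ι ⟨a, haA⟩ * G₂ := by
      have : R.ι b = R.ι ⟨a, haA⟩ * R.ι γ := by
        rw [← map_mul]
        congr 1
        exact Subtype.ext (mul_div_cancel₀ (b : L) ha0').symm
      rw [hGeq, hG₂, this]
      ring
    have hG₂red : R.red G₂ = (m : Fk) * R.red t ^ (m - 1) := by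
      rw [hG₂, map_add, map_mul, map_mul, map_mul, red_ι, red_ι, hba0, hc₀one, map_zero,
        map_one, zero_mul, zero_mul, zero_add, one_mul, hSred]
    have h1 := hkey _ G₂ ha0' hGe (by rw [hG₂red]; exact mul_ne_zero hmFk (pow_ne_zero _ htbar0))
    rw [hG₂red, hpow] at h1
    omega

/-- In the disc of a simple point, dividing `w₀ - c₀` by a constant leaves at most a simple
pole on the reduction. -/
theorem neg_one_le_ord_red_of_disc (hg : g ≤ g') {m : ℕ} (hm : (m : k) ≠ 0) {Z : Divisor L F}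
    (hZ0 : ∀ P, 0 ≤ Z P) {P : Place L F} (hZP : Finsupp.mapDomain R.r Z (R.r P) = 1) {w₀ w : R.O}
    (hw₀red : R.red w₀ = 1)
    (hw₀ord : ∀ P', R.r P' = R.r P → P'.ord (w₀ : F) = m * (Z P' - Finsupp.single P 1 P'))
    {b c₀ : A} (hb0 : (b : L) ≠ 0) (hc₀one : π c₀ = 1) (hw : R.red w ≠ 0)
    (hzw : w₀ - R.ι c₀ = R.ι b * w) : -1 ≤ (R.r P).ord (R.red w) := by
  classical
  obtain ⟨Pz, hPz, hPz1, hPzr⟩ := exists_unique_simple R.r Z (R.r P) (fun a _ => hZ0 a) hZP
  obtain ⟨t, htred, htP, htr⟩ := R.exists_coord hF hK x hx hg P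
  have htbar0 : R.red t ≠ 0 := fun h0 => by
    rw [h0, Place.ord_zero] at htred; exact zero_ne_one htred
  have htF0 : (t : F) ≠ 0 := R.coe_ne_zero htbar0
  have htdisc : ∀ P', R.r P' = R.r P → P'.ord (t : F) = if P' = P then 1 else 0 := by
    intro P' hP'
    split_ifs with he
    · rw [he, htP]
    · exact htr P' hP' he
  have htnn : ∀ P', R.r P' = R.r P → 0 ≤ P'.ord (t : F) := fun P' hP' => by
    rw [htdisc P' hP']; split_ifs <;> omega
  obtain ⟨a, ha⟩ := exists_const_of_deg_one Pz (hF.deg_one Pz) (htnn Pz hPz)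
  obtain ⟨haA, hared⟩ := R.value_mem hF (u := t) (P := Pz)
    (fun P' hP' => htnn P' (hP'.trans hPz)) ha
  rw [hPz] at hared
  have ha0 : π ⟨a, haA⟩ = 0 := by
    by_contra hne
    have h0 := ord_sub_algebraMap_eq_zero (R.r P) (f := R.red t) (a := π ⟨a, haA⟩) (b := 0)
      (Or.inr (by rw [map_zero, sub_zero, htred]; norm_num)) hne
    rcases hared with h1 | h1
    · rw [h1, ord_algebraMap] at htred; exact zero_ne_one htred
    · omega
  set tA : R.O := t - R.ι ⟨a, haA⟩ with htA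
  have htAred : R.red tA = R.red t := by rw [htA, map_sub, red_ι, ha0, map_zero, sub_zero]
  have htA0 : (tA : F) ≠ 0 := R.coe_ne_zero (by rw [htAred]; exact htbar0)
  have htAnn : ∀ P', R.r P' = R.r P → 0 ≤ P'.ord (tA : F) := fun P' hP' => by
    rw [htA, AddSubgroupClass.coe_sub, coe_ι_mk, sub_eq_add_neg]
    exact ord_nonneg_add _ (htnn P' hP') (by rw [ord_neg, ord_algebraMap])
  have htAz : 1 ≤ Pz.ord (tA : F) := by
    rcases ha with ha | ha
    · exact absurd (by rw [htA, AddSubgroupClass.coe_sub, coe_ι_mk, ha, sub_self]) htA0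
    · rw [htA, AddSubgroupClass.coe_sub, coe_ι_mk]; omega
  have hc₀F : (c₀ : L) ≠ 0 := fun h0 => by
    rw [show c₀ = 0 from Subtype.ext h0, map_zero] at hc₀one
    exact zero_ne_one hc₀one
  have e₁ : ∀ P', R.r P' = R.r P → P'.ord ((w₀ : F) * (t : F) ^ m) = m * Z P' := fun P' hP' => by
    rw [P'.ord_mul (R.coe_ne_zero (by rw [hw₀red]; exact one_ne_zero)) (pow_ne_zero _ htF0),
      ord_pow, hw₀ord P' hP', htdisc P' hP', Finsupp.single_apply, if_congr eq_comm rfl rfl]
    ring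
  set S : R.O := ∑ i ∈ Finset.range m, t ^ i * tA ^ (m - 1 - i) with hS
  have hSred : R.red S = (m : Fk) * R.red t ^ (m - 1) := by
    rw [hS, map_sum]
    simp only [map_mul, map_pow, htAred, ← pow_add]
    rw [Finset.sum_congr rfl (g := fun _ => R.red t ^ (m - 1)) (fun i hi => by
      rw [Finset.mem_range] at hi; congr 1; omega)]
    rw [Finset.sum_const, Finset.card_range, nsmul_eq_mul]
  refine R.neg_one_le_ord_red hm htred hw hSred haA hb0 hc₀one ?_ fun d G' hd hGe hne =>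
    R.le_ord_red_of_sub hF hZ0 hPz hPz1 e₁ htAnn htAz hc₀F
      (G := w₀ * t ^ m - R.ι c₀ * tA ^ m) rfl hd hGe hne
  have e := geom_sum₂_mul t tA m
  rw [← hS, show t - tA = R.ι ⟨a, haA⟩ by rw [htA, sub_sub_cancel]] at e
  rw [← hzw, mul_assoc (R.ι c₀), mul_comm (R.ι ⟨a, haA⟩), e]
  ring

/-- The main theorem: a prime-to-`p` torsion class with principal reduction is principal. -/
theorem principal_of_torsion (hg : g ≤ g') {m : ℕ} (hm : (m : k) ≠ 0) {D : Divisor L F}
    (hD0 : Divisor.degree D = 0) (hmD : m • D ∈ Divisor.principal (K := L) (F := F))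
    (hrD : Finsupp.mapDomain R.r D ∈ Divisor.principal (K := k) (F := Fk)) :
    D ∈ Divisor.principal (K := L) (F := F) := by
  classical
  obtain ⟨f, hf0, hf⟩ := hmD
  obtain ⟨h, hh0, hh⟩ := hrD
  have hm0 : 0 < m := Nat.pos_of_ne_zero fun h0 => hm (by rw [h0, Nat.cast_zero])
  obtain ⟨u, hured, huord⟩ := R.exists_red_eq_pow hK hf0 hf hh0 hh
  have hhm : h ^ m ≠ 0 := pow_ne_zero _ hh0
  -- the points
  obtain ⟨T, hTc, hTi, hT1⟩ := R.exists_nonspecial hF hK x hx
  set E := pointsDiv T with hEdef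
  have hE : ∀ P, E P = if P ∈ T then 1 else 0 := fun P => pointsDiv_apply T P
  have hrE : ∀ Q, Finsupp.mapDomain R.r E Q = if Q ∈ T.image R.r then 1 else 0 := by
    intro Q
    rw [hEdef, pointsDiv, Finsupp.mapDomain_finsetSum, Finsupp.finsetSum_apply]
    simp only [Finsupp.mapDomain_single]
    rw [← Finset.sum_image (f := fun Q' => (Finsupp.single Q' (1 : ℤ)) Q) hTi]
    simp [Finsupp.single_apply]
  have hEdeg : Divisor.degree E = g' := by
    rw [hEdef, pointsDiv, map_sum]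
    simp [hF.deg_one, hTc]
  -- the section s
  obtain ⟨s, hsred, hsmem⟩ := R.exists_section hF hK hD0 hEdeg hg
    (fun Q => by rw [hrE]; split_ifs <;> omega) hT1 hh0 hh
  have hs0' : R.red s ≠ 0 := left_ne_zero_of_mul_eq_one hsred
  obtain ⟨Ds, hDs, -⟩ := hF.exists_div _ (R.coe_ne_zero hs0')
  set Z : Divisor L F := D + Ds + E with hZdef
  have hZ0 : ∀ P, 0 ≤ Z P := fun P => by
    have := hsmem P
    rw [hZdef, Finsupp.add_apply, Finsupp.add_apply, hDs]
    omega
  have hrZ : ∀ Q, Finsupp.mapDomain R.r Z Q = Finsupp.mapDomain R.r E Q := fun Q => by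
    rw [hZdef, Finsupp.mapDomain_add, Finsupp.mapDomain_add, Finsupp.add_apply, Finsupp.add_apply,
      R.push s hs0' Ds hDs, hh]
    have h1 := congrArg Q.ord hsred
    rw [Q.ord_mul hs0' hh0, Q.ord_one] at h1
    omega
  set w₀ : R.O := u * s ^ m with hw₀
  have hw₀red : R.red w₀ = 1 := by
    rw [hw₀, map_mul, map_pow, hured, ← mul_pow, mul_comm h, hsred, one_pow]
  have hu0 : (u : F) ≠ 0 := R.coe_ne_zero (by rw [hured]; exact hhm)
  have hsF : (s : F) ≠ 0 := R.coe_ne_zero hs0'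
  have hw₀ord : ∀ P : Place L F, P.ord (w₀ : F) = m * (Z P - E P) := fun P => by
    rw [hw₀, Subring.coe_mul, SubmonoidClass.coe_pow, P.ord_mul hu0 (pow_ne_zero _ hsF), ord_pow,
      huord, hZdef, Finsupp.add_apply, Finsupp.add_apply, hDs]
    ring
  -- normalise at an auxiliary point
  obtain ⟨Ps, hPs⟩ := R.exists_range_notMem hF hK x hx (T.image R.r)
  have hdiscPs : ∀ P', R.r P' = R.r Ps → 0 ≤ P'.ord (w₀ : F) := by
    intro P' hP'
    have h0 : P' ∉ T := fun hmem => hPs (Finset.mem_image.mpr ⟨P', hmem, hP'⟩)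
    rw [hw₀ord, hE, if_neg h0, sub_zero]
    exact mul_nonneg (Int.natCast_nonneg m) (hZ0 P')
  obtain ⟨c₀, hc₀⟩ := exists_const_of_deg_one Ps (hF.deg_one Ps) (hdiscPs Ps rfl)
  obtain ⟨hc₀A, hc₀red⟩ := R.value_mem hF hdiscPs hc₀
  rw [hw₀red, ← map_one (algebraMap k Fk), ← map_sub, ord_algebraMap] at hc₀red
  have hc₀one : π ⟨c₀, hc₀A⟩ = 1 :=
    ((algebraMap k Fk).injective (hc₀red.resolve_right (lt_irrefl _))).symm
  set z : R.O := w₀ - R.ι ⟨c₀, hc₀A⟩ with hz
  by_cases hz0 : (z : F) = 0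
  · have hw₀c : (w₀ : F) = algebraMap L F c₀ := by
      rwa [hz, AddSubgroupClass.coe_sub, coe_ι_mk, sub_eq_zero] at hz0
    refine ⟨(s : F)⁻¹, inv_ne_zero hsF, fun P => ?_⟩
    have h1 := hw₀ord P
    rw [hw₀c, ord_algebraMap] at h1
    have h2 : Z P - E P = 0 := (mul_eq_zero.mp h1.symm).resolve_left (by omega)
    rw [hZdef, Finsupp.add_apply, Finsupp.add_apply, hDs] at h2
    rw [P.ord_inv]
    omega
  exfalso
  obtain ⟨b, w, hw, hzw⟩ := R.exists_scale_mem hz0
  have hb0 : (b : L) ≠ 0 := fun h0 => hz0 (by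
    rw [hzw, show b = 0 from Subtype.ext h0, map_zero, zero_mul, ZeroMemClass.coe_zero])
  have hwz : ∀ P : Place L F, P.ord (w : F) = P.ord (z : F) := fun P => by
    rw [hzw, Subring.coe_mul, coe_ι, ord_algebraMap_mul _ hb0]
  have hwnn : ∀ P : Place L F, P ∉ T → 0 ≤ P.ord (w : F) := fun P hP => by
    rw [hwz, hz, AddSubgroupClass.coe_sub, coe_ι_mk, sub_eq_add_neg]
    refine ord_nonneg_add P ?_ (by rw [ord_neg, ord_algebraMap])
    rw [hw₀ord, hE, if_neg hP, sub_zero]
    exact mul_nonneg (Int.natCast_nonneg m) (hZ0 P)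
  have hwbar : R.red w ∈ riemannRochSpace (Finsupp.mapDomain R.r E) := by
    refine mem_riemannRochSpace_iff.mpr fun Q => Or.inr ?_
    rw [hrE]
    split_ifs with hQ
    swap
    · have := R.ord_red_nonneg hF hw (Q := Q) fun P hP =>
        hwnn P fun hmem => hQ (Finset.mem_image.mpr ⟨P, hmem, hP⟩)
      omega
    obtain ⟨P, hPT, rfl⟩ := Finset.mem_image.mp hQ
    refine R.neg_one_le_ord_red_of_disc hF hK x hx hg hm hZ0 (by rw [hrZ, hrE, if_pos hQ])
      hw₀red (fun P' hP' => ?_) hb0 hc₀one hw (by rw [← hz]; exact hzw)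
    rw [hw₀ord, hE, Finsupp.single_apply]
    simp only [show P = P' ↔ P' ∈ T from
      ⟨fun he => he ▸ hPT, fun hmem => (hTi hmem hPT hP').symm⟩]
  obtain ⟨cw, hcw⟩ := hK.eq_const_of_mem_of_ell_eq_one
    (fun Q => by rw [hrE]; split_ifs <;> omega) hT1 hwbar
  have hPsT : ∀ P', R.r P' = R.r Ps → P' ∉ T := fun P' hP' hmem =>
    hPs (Finset.mem_image.mpr ⟨P', hmem, hP'⟩)
  have hle := R.ord_le_ord_red hF hw (P₀ := Ps) fun P' hP' => hwnn P' (hPsT P' hP')
  rw [hcw, ord_algebraMap, hwz, hz, AddSubgroupClass.coe_sub, coe_ι_mk] at hle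
  rcases hc₀ with hc₀ | hc₀
  · exact hz0 (by rw [hz, AddSubgroupClass.coe_sub, coe_ι_mk, hc₀, sub_self])
  · omega

end RedData

end Fermat.Agent.Red
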