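import Fermat.Agent.Red.Gauss
import Fermat.Agent.Red.Torsion

/-!
# Torsion injectivity from a Gauss reduction and a map on places

This is the abstract form of the injectivity of reduction on prime-to-`ℓ` torsion of `J₀(N)`.
-/

noncomputable section

open AlgebraicCurve

namespace Fermat.Agent.Red

variable {L F k Fk : Type*} [Field L] [Field F] [Algebra L F] [Field k] [Field Fk] [Algebra k Fk]
variable {A : ValuationSubring L} {π : A →+* k}

namespace GaussData

variable (G : GaussData A π F Fk) {g g' : ℕ}

/-- Reduction data from a map on places compatible with the divisors of integral functions. -/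
def redData (hF : RR L F g) (r : Place L F → Place k Fk)
    (hint : ∀ y : G.B, G.ρ y ≠ 0 → ∀ D : Divisor L F, (∀ P, D P = P.ord (y : F)) →
      ∀ Q, Finsupp.mapDomain r D Q = Q.ord (G.ρ y)) : RedData A π F Fk :=
  { G.toRedBase with
    r := r
    push := by
      rintro ⟨u, hu⟩ hne D hD Q
      obtain ⟨y, w, hw, huw⟩ := G.mem_O.mp hu
      change G.red ⟨u, hu⟩ ≠ 0 at hne
      show Finsupp.mapDomain r D Q = Q.ord (G.red ⟨u, hu⟩)
      rw [G.red_eq hw huw] at hne ⊢
      have hy : G.ρ y ≠ 0 := (div_ne_zero_iff.mp hne).1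
      have hy0 : (y : F) ≠ 0 := G.coe_ne_zero hy
      have hw0 : (w : F) ≠ 0 := G.coe_ne_zero hw
      obtain ⟨Dy, hDy, -⟩ := hF.exists_div _ hy0
      obtain ⟨Dw, hDw, -⟩ := hF.exists_div _ hw0
      have hD' : D = Dy - Dw := by
        ext P
        have hu' : u = (y : F) / w := by
          rw [eq_div_iff hw0]; exact huw
        rw [Finsupp.sub_apply, hD, hDy, hDw]
        show P.ord u = _
        rw [hu', ord_div P hy0 hw0]
      rw [hD', Finsupp.mapDomain_sub, Finsupp.sub_apply, hint y hy Dy hDy,
        hint w hw Dw hDw, ord_div Q hy hw] }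

/-- A torsion class of order prime to the residue characteristic with trivial reduction is
trivial. -/
theorem principal_of_torsion [Infinite k] (hF : RR L F g) (hK : RR k Fk g') (hg : g ≤ g')
    (r : Place L F → Place k Fk)
    (hint : ∀ y : G.B, G.ρ y ≠ 0 → ∀ D : Divisor L F, (∀ P, D P = P.ord (y : F)) →
      ∀ Q, Finsupp.mapDomain r D Q = Q.ord (G.ρ y))
    {m : ℕ} (hm : (m : k) ≠ 0) {D : Divisor L F} (hD0 : Divisor.degree D = 0)
    (hmD : m • D ∈ Divisor.principal (K := L) (F := F))
    (hrD : Finsupp.mapDomain r D ∈ Divisor.principal (K := k) (F := Fk)) :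
    D ∈ Divisor.principal (K := L) (F := F) :=
  (G.redData hF r hint).principal_of_torsion hF hK G.xO G.red_xO_ne_const hg hm hD0 hmD hrD

end GaussData

end Fermat.Agent.Red
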