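import Fermat.Agent.FF.Duality
import Fermat.Agent.Red.RR

/-!
# Riemann–Roch for a function field

It supplies the Riemann–Roch input of the reduction arguments.
-/

noncomputable section

open AlgebraicCurve

namespace Fermat.Agent.Red

variable {K F : Type*} [Field K] [Field F] [Algebra K F] [IsAlgClosed K] [FF.IsFunctionField K F]

/-- A function field over an algebraically closed field satisfies Riemann–Roch with its genus. -/
theorem RR.ofFF : RR K F (genusFF K F) where
  deg_one v := FF.place_deg_eq_one v
  exists_div f _ := ⟨FF.divOf f, fun v => FF.divOf_apply f v, FF.degree_divOf f⟩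
  finiteDim D := FF.finite_rrSpace D
  ell_zero := FF.ell_zero
  riemann_roch := by
    obtain ⟨W, -, -, -, h⟩ := FF.exists_riemann_roch (K := K) (F := F)
    exact ⟨W, h⟩

end Fermat.Agent.Red
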