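import Fermat.Prelude.Def_EllipticCurve_FrobeniusTrace
import Fermat.Prelude.Def_ModularCurve_ReductionModL
import Fermat.Agent.MF.Degree
import Fermat.Agent.MF.Descent
import Fermat.Agent.Red.Gauss
import Fermat.Agent.Red.GaussTorsion
import Fermat.Agent.Red.OfFF
import Fermat.Agent.Red.Residue

/-!
# Gauss reduction of `X₀(N)`, and injectivity of reduction on prime-to-`ℓ` torsion

It specialises the abstract reduction of function fields to `X₀(N)`, given the equality of
degrees.
-/

noncomputable section

open ModularCurve AlgebraicCurve IntermediateField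

namespace Fermat.Agent.Red

section IntegralExpansions

variable {L k : Type*} [Field L] [Field k] (A : ValuationSubring L) (π : A →+* k)
  (F : IntermediateField L (LaurentSeries L)) (Fk : IntermediateField k (LaurentSeries k))

/-- Series over `A` inject into series over `L`. -/
theorem coeffMap_subtype_injective :
    Function.Injective (coeffMap (A.subtype : A →+* L)) :=
  MF.coeffMap_injective A.subtype_injective

/-- Functions with integral expansion and reduction in `Fk`. -/
def intFns : Subring F where
  carrier := {f | ∃ y : LaurentSeries A, coeffMap A.subtype y = (f : LaurentSeries L) ∧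
    coeffMap π y ∈ Fk}
  one_mem' := ⟨1, by simp, by simp⟩
  zero_mem' := ⟨0, by simp, by simp⟩
  mul_mem' := by
    rintro f g ⟨y, hy, hyk⟩ ⟨z, hz, hzk⟩
    exact ⟨y * z, by rw [map_mul, hy, hz]; rfl, by rw [map_mul]; exact mul_mem hyk hzk⟩
  add_mem' := by
    rintro f g ⟨y, hy, hyk⟩ ⟨z, hz, hzk⟩
    exact ⟨y + z, by rw [map_add, hy, hz]; rfl, by rw [map_add]; exact add_mem hyk hzk⟩
  neg_mem' := by
    rintro f ⟨y, hy, hyk⟩
    exact ⟨-y, by rw [map_neg, hy]; rfl, by rw [map_neg]; exact neg_mem hyk⟩

/-- The reduction of an integral function, as a function. -/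
def intRedFun (f : intFns A π F Fk) : Fk := ⟨coeffMap π f.2.choose, f.2.choose_spec.2⟩

theorem intRedFun_eq {f : intFns A π F Fk} {y : LaurentSeries A}
    (hy : coeffMap A.subtype y = ((f : F) : LaurentSeries L)) :
    (intRedFun A π F Fk f : LaurentSeries k) = coeffMap π y :=
  congrArg (coeffMap π) (coeffMap_subtype_injective A (f.2.choose_spec.1.trans hy.symm))

/-- The reduction of an integral function. -/
def intRed : intFns A π F Fk →+* Fk where
  toFun := intRedFun A π F Fk
  map_one' := Subtype.ext <| by rw [intRedFun_eq A π F Fk (y := 1) (by simp), map_one]; rfl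
  map_zero' := Subtype.ext <| by rw [intRedFun_eq A π F Fk (y := 0) (by simp), map_zero]; rfl
  map_mul' f g := Subtype.ext <| by
    rw [intRedFun_eq A π F Fk (y := f.2.choose * g.2.choose)
      (by rw [map_mul, f.2.choose_spec.1, g.2.choose_spec.1]; rfl), map_mul]
    rfl
  map_add' f g := Subtype.ext <| by
    rw [intRedFun_eq A π F Fk (y := f.2.choose + g.2.choose)
      (by rw [map_add, f.2.choose_spec.1, g.2.choose_spec.1]; rfl), map_add]
    rfl

variable {A π F Fk}

theorem coe_intRed {f : intFns A π F Fk} {y : LaurentSeries A}
    (hy : coeffMap A.subtype y = ((f : F) : LaurentSeries L)) :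
    (intRed A π F Fk f : LaurentSeries k) = coeffMap π y :=
  intRedFun_eq A π F Fk hy

theorem algebraMap_mem_intFns (a : A) : algebraMap L F (a : L) ∈ intFns A π F Fk :=
  ⟨HahnSeries.single 0 a, by
    rw [coeffMap_single]; exact (algebraMap_laurentSeries_eq_single L (a : L)).symm,
    by rw [coeffMap_single, ← algebraMap_laurentSeries_eq_single]; exact Fk.algebraMap_mem _⟩

theorem intRed_algebraMap (a : A) :
    intRed A π F Fk ⟨_, algebraMap_mem_intFns a⟩ = algebraMap k Fk (π a) :=
  Subtype.ext <| by
    rw [coe_intRed (y := HahnSeries.single 0 a)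
      (by rw [coeffMap_single]; exact (algebraMap_laurentSeries_eq_single L (a : L)).symm),
      coeffMap_single, ← algebraMap_laurentSeries_eq_single]
    rfl

end IntegralExpansions

section Degree

variable {K E : Type*} [Field K] [Field E] [Algebra K E]

/-- The degree over `K(x)` as a relative degree. -/
theorem finrank_adjoin_eq_relfinrank (B : IntermediateField K E) (x : B) :
    Module.finrank K⟮x⟯ B = IntermediateField.relfinrank K⟮(x : E)⟯ B := by
  have h : K⟮x⟯ = K⟮(x : E)⟯.comap B.val := by
    refine SetLike.ext fun y => ?_
    rw [← IntermediateField.mem_lift, IntermediateField.lift_adjoin_simple]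
    rfl
  rw [h, IntermediateField.finrank_comap, IntermediateField.fieldRange_val]

theorem transcendental_subtype (B : IntermediateField K E) {x : E} (hx : x ∈ B)
    (h : Transcendental K x) : Transcendental K (⟨x, hx⟩ : B) := fun hal =>
  h (hal.algHom B.val)

end Degree

/-- A basis consisting of elements of the image of a ring map. -/
theorem exists_basis_in_range {K E R : Type*} [Field K] [Field E] [Algebra K E] [Ring R]
    [FiniteDimensional K E] (ρ : R →+* E) (hM : ∀ f : E, f ∈ Algebra.adjoin K (Set.range ρ)) :
    ∃ b : Fin (Module.finrank K E) → R, LinearIndependent K fun i => ρ (b i) := by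
  classical
  have hspan : Submodule.span K (Set.range ρ) = ⊤ := by
    refine Submodule.eq_top_iff'.mpr fun f => ?_
    have hf := hM f
    rw [← Subalgebra.mem_toSubmodule, Algebra.adjoin_eq_span] at hf
    refine Submodule.span_mono ?_ hf
    intro y hy
    induction hy using Submonoid.closure_induction with
    | mem z hz => exact hz
    | one => exact ⟨1, map_one ρ⟩
    | mul y z _ _ hy hz =>
      obtain ⟨a, rfl⟩ := hy
      obtain ⟨b, rfl⟩ := hz
      exact ⟨a * b, map_mul ρ a b⟩
  obtain ⟨t, hts, htspan, htli⟩ := exists_linearIndependent K (Set.range ρ)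
  let bt := Module.Basis.mk htli
    (by rw [Subtype.range_coe_subtype, Set.ofPred_mem_eq, htspan, hspan])
  let bt' := bt.reindex (bt.indexEquiv (Module.finBasis K E))
  choose b hb using fun i => hts ((bt.indexEquiv (Module.finBasis K E)).symm i).2
  refine ⟨b, ?_⟩
  simp only [hb]
  exact htli.comp _ (Equiv.injective _)

/-- A field generated by images of `R` over `k(x)` has a basis of images. -/
theorem exists_basis_adjoin {k E R : Type*} [Field k] [Field E] [Algebra k E] [Ring R] (S : Set E)
    (B : IntermediateField k E) (hB : B = IntermediateField.adjoin k S) (x : B)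
    (ρ : R →+* B) [FiniteDimensional k⟮x⟯ B] (hk : ∀ c : k, ∃ r, ρ r = algebraMap k B c)
    (hS : ∀ y ∈ S, ∃ r, (ρ r : E) = y) :
    ∃ b : Fin (Module.finrank k⟮x⟯ B) → R, LinearIndependent k⟮x⟯ fun i => ρ (b i) := by
  subst hB
  refine exists_basis_in_range ρ ?_
  rintro ⟨f, hf⟩
  induction hf using IntermediateField.adjoin_induction with
  | mem y hy =>
    obtain ⟨r, hr⟩ := hS y hy
    exact Algebra.subset_adjoin ⟨r, Subtype.ext hr⟩
  | algebraMap c =>
    obtain ⟨r, hr⟩ := hk c
    exact Algebra.subset_adjoin ⟨r, hr⟩
  | add y z hy hz ihy ihz => exact Subalgebra.add_mem _ ihy ihz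
  | inv y hy ih =>
    exact Subalgebra.inv_mem_of_algebraic _ (x := ⟨_, ih⟩) (Algebra.IsAlgebraic.isAlgebraic _)
  | mul y z hy hz ihy ihz => exact Subalgebra.mul_mem _ ihy ihz

variable (L : Type*) [Field L] [Algebra ℚ L]

theorem coeffEmb_qExpand_jq (d : ℕ) [NeZero d] :
    coeffEmb L (qExpand ℚ d jq) = qExpand L d (jqModC L) := by
  rw [coeffEmb, coeffMap_qExpand, ← jqModC_rat, coeffMap_jqModC]

section Integral

variable {L}
variable (A : ValuationSubring L) {k : Type*} [Field k] (π : A →+* k) (N : ℕ)

/-- Functions with integral `q`-expansion whose reduction is modular. -/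
abbrev integralFunctions : Subring (laurentBaseChange L (modularFunctionFieldFull N)) :=
  intFns A π (laurentBaseChange L (modularFunctionFieldFull N)) (modularFunctionFieldFullC k N)

/-- The reduction of an integral function. -/
abbrev integralReduction : integralFunctions A π N →+* modularFunctionFieldFullC k N :=
  intRed A π _ _

/-- The reduction is computed on coefficients. -/
theorem coe_integralReduction {f : integralFunctions A π N} {y : LaurentSeries A}
    (hy : coeffMap A.subtype y = ((f : laurentBaseChange L (modularFunctionFieldFull N)) :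
      LaurentSeries L)) :
    (integralReduction A π N f : LaurentSeries k) = coeffMap π y :=
  coe_intRed hy

/-- `j(q^d)` as an integral function. -/
def jIntegral (d : ℕ) [NeZero d] (hd : d ∣ N) : integralFunctions A π N :=
  ⟨⟨qExpand L d (jqModC L), (MF.laurentBaseChange_full_eq L N).symm ▸ jqModCd_mem_full L N hd⟩,
    qExpand A d (jqModC A), by rw [coeffMap_qExpand, coeffMap_jqModC],
    by rw [coeffMap_qExpand, coeffMap_jqModC]; exact jqModCd_mem_full k N hd⟩

/-- `j(q^d)` reduces to `j(q^d)`. -/
theorem coe_integralReduction_jIntegral (d : ℕ) [NeZero d] (hd : d ∣ N) :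
    (integralReduction A π N (jIntegral A π N d hd) : LaurentSeries k) =
      qExpand k d (jqModC k) := by
  rw [coe_integralReduction A π N (y := qExpand A d (jqModC A))
    (by rw [coeffMap_qExpand, coeffMap_jqModC]; rfl), coeffMap_qExpand, coeffMap_jqModC]

/-- Degree hypotheses: `[Q̄(j_d : d ∣ N) : Q̄(j)] = [k(j_d : d ∣ N) : k(j)]`, both positive. -/
def SameDegree (L : Type*) [Field L] (k : Type*) [Field k] (N : ℕ) : Prop :=
  0 < IntermediateField.relfinrank k⟮jqModC k⟯ (modularFunctionFieldFullC k N) ∧
    IntermediateField.relfinrank L⟮jqModC L⟯ (modularFunctionFieldFullC L N) =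
      IntermediateField.relfinrank k⟮jqModC k⟯ (modularFunctionFieldFullC k N)

variable {A π N}

/-- The reduction of `j` is transcendental. -/
theorem transcendental_integralReduction_j :
    Transcendental k (integralReduction A π N (jIntegral A π N 1 (one_dvd N))) := fun hal =>
  (MF.transcendental_jqModC (K := k)) (by
    have e : (integralReduction A π N (jIntegral A π N 1 (one_dvd N)) : LaurentSeries k) =
        jqModC k := by
      rw [coe_integralReduction_jIntegral, qExpand_one_apply]
    exact e ▸ hal.algHom (modularFunctionFieldFullC k N).val)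

/-- The degree of the reduced field over `k(j)`. -/
theorem finrank_adjoin_integralReduction_j :
    Module.finrank (k⟮integralReduction A π N (jIntegral A π N 1 (one_dvd N))⟯)
        (modularFunctionFieldFullC k N) =
      IntermediateField.relfinrank k⟮jqModC k⟯ (modularFunctionFieldFullC k N) := by
  rw [finrank_adjoin_eq_relfinrank, coe_integralReduction_jIntegral, qExpand_one_apply]

/-- The degree of the function field over `L(j)`. -/
theorem finrank_adjoin_j :
    Module.finrank (L⟮((jIntegral A π N 1 (one_dvd N) : integralFunctions A π N) :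
        laurentBaseChange L (modularFunctionFieldFull N))⟯)
        (laurentBaseChange L (modularFunctionFieldFull N)) =
      IntermediateField.relfinrank L⟮jqModC L⟯ (modularFunctionFieldFullC L N) := by
  rw [finrank_adjoin_eq_relfinrank,
    show ((((jIntegral A π N 1 (one_dvd N) : integralFunctions A π N) :
        laurentBaseChange L (modularFunctionFieldFull N)) : LaurentSeries L)) = jqModC L from
      qExpand_one_apply _]
  congr 1
  exact MF.laurentBaseChange_full_eq L N

theorem algebraMap_mem_integralFunctions (a : A) :
    algebraMap L (laurentBaseChange L (modularFunctionFieldFull N)) a ∈ integralFunctions A π N :=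
  algebraMap_mem_intFns a

theorem integralReduction_algebraMap (a : A) :
    integralReduction A π N ⟨_, algebraMap_mem_integralFunctions a⟩ =
      algebraMap k (modularFunctionFieldFullC k N) (π a) :=
  intRed_algebraMap a

/-- A basis over `k(j)` lifts to integral functions. -/
theorem exists_basisLift (hπ : Function.Surjective π) (hdeg : SameDegree L k N) :
    ∃ b : Fin (Module.finrank (k⟮integralReduction A π N (jIntegral A π N 1 (one_dvd N))⟯)
        (modularFunctionFieldFullC k N)) → integralFunctions A π N,
      LinearIndependent (k⟮integralReduction A π N (jIntegral A π N 1 (one_dvd N))⟯)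
        fun i => integralReduction A π N (b i) := by
  have : FiniteDimensional (k⟮integralReduction A π N (jIntegral A π N 1 (one_dvd N))⟯)
      (modularFunctionFieldFullC k N) :=
    FiniteDimensional.of_finrank_pos (by rw [finrank_adjoin_integralReduction_j]; exact hdeg.1)
  exact exists_basis_adjoin (divisorExpansionsC k N) (modularFunctionFieldFullC k N) rfl _ _
    (fun c => by
      obtain ⟨a, rfl⟩ := hπ c
      exact ⟨⟨_, algebraMap_mem_integralFunctions a⟩, integralReduction_algebraMap a⟩)
    (fun y hy => by
      obtain ⟨d, hd, hdvd, rfl⟩ := hy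
      exact ⟨jIntegral A π N d hdvd, coe_integralReduction_jIntegral A π N d hdvd⟩)

/-- The Gauss reduction of `X₀(N)`. -/
def gaussData (hπ : Function.Surjective π) (hdeg : SameDegree L k N) :
    GaussData A π (laurentBaseChange L (modularFunctionFieldFull N))
      (modularFunctionFieldFullC k N) where
  B := integralFunctions A π N
  ρ := integralReduction A π N
  algebraMap_mem := algebraMap_mem_integralFunctions
  ρ_algebraMap := integralReduction_algebraMap
  surj_pi := hπ
  x := jIntegral A π N 1 (one_dvd N)
  transcendental := transcendental_integralReduction_j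
  d := Module.finrank (k⟮integralReduction A π N (jIntegral A π N 1 (one_dvd N))⟯)
    (modularFunctionFieldFullC k N)
  d_pos := by rw [finrank_adjoin_integralReduction_j]; exact hdeg.1
  b := (exists_basisLift hπ hdeg).choose
  linearIndependent := (exists_basisLift hπ hdeg).choose_spec
  finrank_eq := by rw [finrank_adjoin_j, finrank_adjoin_integralReduction_j]; exact hdeg.2

end Integral

section ModL

variable {N : ℕ} {A : ValuationSubring (AlgebraicClosure ℚ)}

/-- Shortcut for the algebra structure, which is slow to find by search. -/
local instance (priority := high) algebraResidueFull : Algebra (IsLocalRing.ResidueField A)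
    (modularFunctionFieldFullC (IsLocalRing.ResidueField A) N) :=
  SubalgebraClass.toAlgebra _

/-- The field of level `N` over `Q̄` is a function field. -/
theorem isFunctionField_bar
    (hdeg : SameDegree (AlgebraicClosure ℚ) (IsLocalRing.ResidueField A) N) :
    FF.IsFunctionField (AlgebraicClosure ℚ) (modularFunctionFieldBar N) := by
  let G := gaussData (A := A) (N := N) IsLocalRing.residue_surjective hdeg
  exact ⟨⟨G.x, G.transcendental_x,
    FiniteDimensional.of_finrank_pos (by rw [G.finrank_eq]; exact G.d_pos)⟩⟩

/-- The reduced field is a function field. -/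
theorem isFunctionField_residue
    (hdeg : SameDegree (AlgebraicClosure ℚ) (IsLocalRing.ResidueField A) N) :
    FF.IsFunctionField (IsLocalRing.ResidueField A)
      (modularFunctionFieldFullC (IsLocalRing.ResidueField A) N) :=
  ⟨⟨⟨_, jqModC_mem_full _ N⟩,
    transcendental_subtype _ _ MF.transcendental_jqModC,
    FiniteDimensional.of_finrank_pos (by rw [finrank_adjoin_eq_relfinrank]; exact hdeg.1)⟩⟩

/-- Reduction of places is compatible with divisors of functions. -/
theorem mapDomain_placeReductionModL (h : ReductionInputsModL A N)
    (y : integralFunctions A (IsLocalRing.residue A) N)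
    (hy : integralReduction A (IsLocalRing.residue A) N y ≠ 0)
    (D : Divisor (AlgebraicClosure ℚ) (modularFunctionFieldBar N))
    (hD : ∀ P, D P = P.ord (y : modularFunctionFieldBar N))
    (Q : Place (IsLocalRing.ResidueField A)
      (modularFunctionFieldFullC (IsLocalRing.ResidueField A) N)) :
    Finsupp.mapDomain (placeReductionModL h) D Q =
      Q.ord (integralReduction A (IsLocalRing.residue A) N y) := by
  obtain ⟨ys, hys, hysk⟩ := y.2
  have hval := coe_integralReduction A (IsLocalRing.residue A) N (f := y) hys
  have hne : coeffMap (IsLocalRing.residue A) ys ≠ 0 := by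
    rw [← hval]; exact fun h0 => hy (Subtype.ext h0)
  have hmem : coeffMap A.subtype ys ∈ modularFunctionFieldBar N := hys.symm ▸ y.1.2
  have e1 : (y : modularFunctionFieldBar N) = ⟨coeffMap A.subtype ys, hmem⟩ :=
    Subtype.ext hys.symm
  have e2 : integralReduction A (IsLocalRing.residue A) N y =
      ⟨coeffMap (IsLocalRing.residue A) ys, hysk⟩ := Subtype.ext hval
  rw [e2]
  exact (isPlaceReductionModL_placeReductionModL h).2 ys hmem hysk hne D
    (fun P => by rw [hD, e1]) Q

/-- Zero reduction of a class means a principal reduced divisor. -/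
theorem mapDomain_mem_principal_of_reduction_eq_zero (h : ReductionInputsModL A N)
    (D : Divisor.degZero (K := AlgebraicClosure ℚ) (F := modularFunctionFieldBar N))
    (hz : reductionModL A N (Pic0.mk D) = 0) :
    Finsupp.mapDomain (placeReductionModL h)
        (D : Divisor (AlgebraicClosure ℚ) (modularFunctionFieldBar N)) ∈
      Divisor.principal (K := IsLocalRing.ResidueField A)
        (F := modularFunctionFieldFullC (IsLocalRing.ResidueField A) N) := by
  rw [reductionModL_mk h D] at hz
  exact AddSubgroup.mem_addSubgroupOf.mp ((QuotientAddGroup.eq_zero_iff _).mp hz)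

/-- Reduction is injective on prime-to-`ℓ` torsion, given the degree and genus facts. -/
theorem eq_zero_of_reductionModL_eq_zero {ℓ : ℕ} [Fact ℓ.Prime] (hA : A.LiesOverPrime ℓ)
    (hdeg : SameDegree (AlgebraicClosure ℚ) (IsLocalRing.ResidueField A) N)
    (hgenus : genusFF (AlgebraicClosure ℚ) (modularFunctionFieldBar N) ≤
      genusFF (IsLocalRing.ResidueField A)
        (modularFunctionFieldFullC (IsLocalRing.ResidueField A) N))
    (h : ReductionInputsModL A N) (m : ℕ) (hm : ¬ ℓ ∣ m) (z : JZero N)
    (hmz : m • z = 0) (hz : reductionModL A N z = 0) : z = 0 := by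
  have := isFunctionField_bar hdeg
  have := isFunctionField_residue hdeg
  have := isAlgClosed_residueField A
  obtain ⟨D, rfl⟩ := Pic0.mk_surjective z
  have hr := mapDomain_mem_principal_of_reduction_eq_zero h D hz
  have hmD := AddSubgroup.mem_addSubgroupOf.mp
    ((QuotientAddGroup.eq_zero_iff (m • D)).mp hmz)
  refine (QuotientAddGroup.eq_zero_iff D).mpr (AddSubgroup.mem_addSubgroupOf.mpr ?_)
  exact (gaussData IsLocalRing.residue_surjective hdeg).principal_of_torsion RR.ofFF RR.ofFF hgenus
    (placeReductionModL h) (mapDomain_placeReductionModL h)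
    (natCast_residue_ne_zero A Fact.out hA hm) D.2 hmD hr

end ModL

end Fermat.Agent.Red
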