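import Fermat.Agent.Igusa.Degree
import Fermat.Agent.Red.Modular

/-!
# Reduction of integral series, equal degrees from Igusa's theorem, and torsion injectivity from
the genus inequality

This turns the genus inequality for `X₀(N)` modulo `ℓ ∤ N` into the injectivity of reduction on
prime-to-`ℓ` torsion of `J₀(N)`.
-/

noncomputable section

open ModularCurve AlgebraicCurve IntermediateField

namespace Fermat.Agent.Red

local notation "Qbar" => AlgebraicClosure ℚ

/-- An integral series of level `M` reduces to a function of level `M`. -/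
theorem coeffMap_mem_fullC {M : ℕ} {A : ValuationSubring Qbar} {k : Type*}
    [Field k] {π : A →+* k} (hπ : Function.Surjective π) (hdeg : SameDegree Qbar k M)
    (y : LaurentSeries A) (hy : coeffMap A.subtype y ∈ modularFunctionFieldBar M) :
    coeffMap π y ∈ modularFunctionFieldFullC k M := by
  classical
  set x : modularFunctionFieldBar M := ⟨coeffMap A.subtype y, hy⟩ with hx
  by_cases hx0 : x = 0
  · have h : coeffMap A.subtype y = 0 := congrArg Subtype.val hx0
    rw [show y = 0 from coeffMap_subtype_injective A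
      (by rw [h, map_zero]), map_zero]
    exact zero_mem _
  let G := gaussData (A := A) (π := π) (N := M) hπ hdeg
  obtain ⟨c, u, hu, hc⟩ := G.scale x hx0
  obtain ⟨a, b, hb, hab⟩ := G.mem_O.mp u.2
  rw [G.red_eq hb hab] at hu
  have ha : G.ρ a ≠ 0 := fun h => hu (by rw [h, zero_div])
  obtain ⟨ya, hya, hyak⟩ := a.2
  obtain ⟨yb, hyb, hybk⟩ := b.2
  have hρa : (G.ρ a : LaurentSeries k) = coeffMap π ya := coe_integralReduction A π M hya
  have hρb : (G.ρ b : LaurentSeries k) = coeffMap π yb := coe_integralReduction A π M hyb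
  have hxab : x * (b : modularFunctionFieldBar M) =
      algebraMap Qbar _ c * (a : modularFunctionFieldBar M) := by
    rw [hc, mul_assoc, hab]
  have hser : coeffMap A.subtype y * coeffMap A.subtype yb =
      algebraMap Qbar (LaurentSeries Qbar) c * coeffMap A.subtype ya := by
    rw [hya, hyb]
    exact congrArg Subtype.val hxab
  have hC : ∀ d : A, coeffMap A.subtype (HahnSeries.single 0 d) =
      algebraMap Qbar (LaurentSeries Qbar) d := fun d => by
    rw [coeffMap_single]; exact (algebraMap_laurentSeries_eq_single Qbar (d : Qbar)).symm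
  by_cases hcA : c ∈ A
  · have h := congrArg (coeffMap π) (coeffMap_subtype_injective A
      (show coeffMap A.subtype (y * yb) =
        coeffMap A.subtype (HahnSeries.single 0 (⟨c, hcA⟩ : A) * ya) by
          rw [map_mul, map_mul, hC, hser]))
    rw [map_mul, map_mul, coeffMap_single, ← algebraMap_laurentSeries_eq_single] at h
    have hb' : coeffMap π yb ≠ 0 := by rw [← hρb]; exact fun h0 => hb (Subtype.ext h0)
    rw [(eq_div_iff hb').mpr h]
    exact div_mem (mul_mem ((modularFunctionFieldFullC k M).algebraMap_mem _) hyak) hybk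
  · exfalso
    have hinv : c⁻¹ ∈ A := (A.mem_or_inv_mem c).resolve_left hcA
    have hc0 : c ≠ 0 := fun h => hcA (h ▸ A.zero_mem)
    have h := congrArg (coeffMap π) (coeffMap_subtype_injective A
      (show coeffMap A.subtype (HahnSeries.single 0 (⟨c⁻¹, hinv⟩ : A) * (y * yb)) =
        coeffMap A.subtype ya by
          rw [map_mul, map_mul, hC, hser, ← mul_assoc, ← map_mul, inv_mul_cancel₀ hc0, map_one,
            one_mul]))
    have hnu : π (⟨c⁻¹, hinv⟩ : A) = 0 := by
      by_contra hne
      have := inv_mem_of_pi_ne_zero hπ hne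
      rw [inv_inv] at this
      exact hcA this
    rw [map_mul, coeffMap_single, hnu, HahnSeries.single_eq_zero, zero_mul] at h
    exact ha (Subtype.ext (by rw [hρa, ← h]; rfl))

/-- The degree over `j` is the same on both sides of reduction modulo `ℓ ∤ N`. -/
theorem sameDegree {N ℓ : ℕ} [NeZero N] [Fact ℓ.Prime] (hℓN : ¬ ℓ ∣ N)
    {A : ValuationSubring (AlgebraicClosure ℚ)} (hA : A.LiesOverPrime ℓ) :
    SameDegree (AlgebraicClosure ℚ) (IsLocalRing.ResidueField A) N := by
  have := isAlgClosed_residueField A
  have hk : (N : IsLocalRing.ResidueField A) ≠ 0 := natCast_residue_ne_zero A Fact.out hA hℓN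
  have hL : (N : AlgebraicClosure ℚ) ≠ 0 := by exact_mod_cast NeZero.ne N
  have e1 := Igusa.relfinrank_full (K := IsLocalRing.ResidueField A) N hk
  have e2 := Igusa.relfinrank_full (K := AlgebraicClosure ℚ) N hL
  rw [Igusa.jv_one_one] at e1 e2
  exact ⟨e1 ▸ Igusa.psi_pos N, e2.trans e1.symm⟩

/-- Reduction is injective on prime-to-`ℓ` torsion, given only the genus inequality. -/
theorem eq_zero_of_reductionModL_eq_zero_of_genus_le (N : ℕ) [NeZero N] {ℓ : ℕ} [Fact ℓ.Prime]
    (hℓN : ¬ ℓ ∣ N) (A : ValuationSubring (AlgebraicClosure ℚ)) (hA : A.LiesOverPrime ℓ)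
    (hgenus : genusFF (AlgebraicClosure ℚ) (modularFunctionFieldBar N) ≤
      genusFF (IsLocalRing.ResidueField A)
        (modularFunctionFieldFullC (IsLocalRing.ResidueField A) N))
    (h : ReductionInputsModL A N) (m : ℕ) (hm : ¬ ℓ ∣ m) (z : JZero N)
    (hmz : m • z = 0) (hz : reductionModL A N z = 0) : z = 0 :=
  eq_zero_of_reductionModL_eq_zero hA (sameDegree hℓN hA) hgenus h m hm z hmz hz

end Fermat.Agent.Red
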