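import Fermat.Agent.FF.Degree
import Fermat.Agent.Red.PlaceMap
import Fermat.Agent.Red.PoleBound
import Fermat.Agent.Red.SameDegree

/-!
# Existence of the reduction of places of `X₀(N)` modulo `ℓ`

From the degree theorem and the genus inequality this gives the reduction inputs at `ℓ ∤ N`:
places and principal divisors reduce compatibly.
-/

noncomputable section

open ModularCurve AlgebraicCurve IntermediateField

namespace Fermat.Agent.Red

section Abstract

variable {L F k Fk : Type*} [Field L] [Field F] [Algebra L F] [Field k] [Field Fk] [Algebra k Fk]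
variable {A : ValuationSubring L} {π : A →+* k}
variable [IsAlgClosed L] [FF.IsFunctionField L F] [IsAlgClosed k] [FF.IsFunctionField k Fk]

namespace GaussData

/-- If the genus does not drop, the genera agree and, for large `m`, the reduction of
`L(m (x)_∞)` is all of `L(m (x̄)_∞)`. -/
theorem genus_eq_and_latticeSurj (G : GaussData A π F Fk)
    (hdk : Module.finrank (k⟮G.ρ G.x⟯) Fk = G.d) (hg : genusFF L F ≤ genusFF k Fk) :
    genusFF L F = genusFF k Fk ∧
      G.toRedBase.LatticeSurj (FF.poleDiv (G.x : F)) (FF.poleDiv (G.ρ G.x)) G.d := by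
  have hF : RR L F (genusFF L F) := RR.ofFF
  have hK : RR k Fk (genusFF k Fk) := RR.ofFF
  have hdegL : Divisor.degree (FF.poleDiv (K := L) (G.x : F)) = G.d := by
    rw [FF.degree_poleDiv G.transcendental_x, G.finrank_eq]
  have hdegK : Divisor.degree (FF.poleDiv (K := k) (G.ρ G.x)) = G.d := by
    rw [FF.degree_poleDiv G.transcendental, hdk]
  have hle : ∀ m : ℕ, 0 < m →
      G.toRedBase.redImage (riemannRochSpace (m • FF.poleDiv (K := L) (G.x : F))) ≤
        riemannRochSpace (m • FF.poleDiv (K := k) (G.ρ G.x)) := by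
    rintro m hm _ ⟨u, hu, rfl⟩
    refine mem_riemannRochSpace_iff.mpr fun Q => Or.inr ?_
    have := G.ord_red_ge_of_mem hF (FF.poleDiv_apply (G.x : F)) hdegL hm hu Q
    rwa [Finsupp.smul_apply, nsmul_eq_mul, FF.poleDiv_apply]
  have hd : (1 : ℤ) ≤ G.d := by exact_mod_cast G.d_pos
  -- dimensions
  have key : ∀ m : ℕ, 2 * (genusFF k Fk : ℤ) + 1 ≤ m →
      (genusFF k Fk : ℤ) ≤ genusFF L F ∧
      ell (m • FF.poleDiv (K := k) (G.ρ G.x)) ≤ ell (m • FF.poleDiv (K := L) (G.x : F)) := by
    intro m hm
    have := hF.finiteDim (m • FF.poleDiv (K := L) (G.x : F))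
    have := hK.finiteDim (m • FF.poleDiv (K := k) (G.ρ G.x))
    have h1 := G.finrank_le_redImage (riemannRochSpace (m • FF.poleDiv (K := L) (G.x : F)))
    have h2 := Submodule.finrank_mono (hle m (by omega))
    have h3 := hK.ell_eq_of_large (D := m • FF.poleDiv (K := k) (G.ρ G.x))
      (by rw [map_nsmul, hdegK, nsmul_eq_mul]; nlinarith)
    have h4 := hF.riemann (m • FF.poleDiv (K := L) (G.x : F))
    rw [map_nsmul, hdegK, nsmul_eq_mul] at h3
    rw [map_nsmul, hdegL, nsmul_eq_mul] at h4
    rw [ell] at h3 h4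
    refine ⟨by omega, ?_⟩
    show Module.finrank k _ ≤ Module.finrank L _
    omega
  have heq : genusFF L F = genusFF k Fk :=
    le_antisymm hg (by exact_mod_cast (key (2 * genusFF k Fk + 1) (by push_cast; omega)).1)
  refine ⟨heq, G.d_pos, hdegL, hdegK, fun V hV => G.finrank_le_redImage V,
    2 * genusFF k Fk + 1, fun m hm => ?_⟩
  have := hF.finiteDim (m • FF.poleDiv (K := L) (G.x : F))
  have := hK.finiteDim (m • FF.poleDiv (K := k) (G.ρ G.x))
  exact Submodule.eq_of_le_of_finrank_le (hle m (by omega))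
    ((key m (by omega)).2.trans (G.finrank_le_redImage _))

/-- The genus inequality follows once some large multiple of the pole divisor lifts. -/
theorem genus_le_of_lift (G : GaussData A π F Fk) (hdk : Module.finrank (k⟮G.ρ G.x⟯) Fk = G.d)
    {n : ℕ} (hn : 2 * genusFF L F ≤ n)
    (hlift : ∀ w ∈ riemannRochSpace (n • FF.poleDiv (K := k) (G.ρ G.x)), ∃ u : G.toRedBase.O,
      (u : F) ∈ riemannRochSpace (n • FF.poleDiv (K := L) (G.x : F)) ∧ G.toRedBase.red u = w) :
    genusFF L F ≤ genusFF k Fk := by
  have hF : RR L F (genusFF L F) := RR.ofFF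
  have hK : RR k Fk (genusFF k Fk) := RR.ofFF
  have hd : (1 : ℤ) ≤ G.d := by exact_mod_cast G.d_pos
  have := hF.finiteDim (n • FF.poleDiv (K := L) (G.x : F))
  have h1 : riemannRochSpace (n • FF.poleDiv (K := k) (G.ρ G.x)) ≤
      G.toRedBase.redImage (riemannRochSpace (n • FF.poleDiv (K := L) (G.x : F))) := hlift
  have h2 := (Submodule.finrank_mono h1).trans (G.toRedBase.finrank_redImage_le _)
  have h3 := hK.riemann (n • FF.poleDiv (K := k) (G.ρ G.x))
  have h4 := hF.ell_eq_of_large (D := n • FF.poleDiv (K := L) (G.x : F)) (by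
    rw [map_nsmul, FF.degree_poleDiv G.transcendental_x, G.finrank_eq, nsmul_eq_mul]
    have : (2 * (genusFF L F : ℤ)) ≤ n := by exact_mod_cast hn
    nlinarith)
  rw [map_nsmul, FF.degree_poleDiv G.transcendental, hdk] at h3
  rw [map_nsmul, FF.degree_poleDiv G.transcendental_x, G.finrank_eq] at h4
  rw [ell] at h3 h4
  omega

/-- If the genus does not drop, there is a reduction map on places. -/
theorem exists_placeMap (G : GaussData A π F Fk) (hdk : Module.finrank (k⟮G.ρ G.x⟯) Fk = G.d)
    (hg : genusFF L F ≤ genusFF k Fk) :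
    ∃ r : Place L F → Place k Fk, ∀ y : G.B, G.ρ y ≠ 0 →
      ∀ D : Divisor L F, (∀ v, D v = v.ord (y : F)) →
        ∀ q, Finsupp.mapDomain r D q = q.ord (G.ρ y) := by
  obtain ⟨heq, hS⟩ := G.genus_eq_and_latticeSurj hdk hg
  have hK : RR k Fk (genusFF L F) := heq.symm ▸ RR.ofFF
  obtain ⟨r, hr⟩ := G.toRedBase.exists_placeMap RR.ofFF hK hS
  refine ⟨r, fun y hy D hD q => ?_⟩
  have h := hr ⟨(y : F), G.mem_O_of_mem_B y⟩
    (by show G.red ⟨(y : F), _⟩ ≠ 0; rw [G.red_B]; exact hy) D hD q
  rw [h]
  show q.ord (G.red ⟨(y : F), _⟩) = _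
  rw [G.red_B]

omit [IsAlgClosed L] [FF.IsFunctionField L F] [IsAlgClosed k] [FF.IsFunctionField k Fk] in
/-- The divisor of a nonzero function is the difference of those of two integral functions with
nonzero reduction. -/
theorem principal_le_closure (G : GaussData A π F Fk) {f : F} (hf : f ≠ 0) :
    ∃ y z : G.B, G.ρ y ≠ 0 ∧ G.ρ z ≠ 0 ∧
      ∀ v : Place L F, v.ord f = v.ord (y : F) - v.ord (z : F) := by
  obtain ⟨c, u, hu, hfu⟩ := G.scale f hf
  have hc : c ≠ 0 := by rintro rfl; simp [hfu] at hf
  obtain ⟨y, z, hz, h⟩ := G.mem_O.mp u.2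
  rw [G.red_eq hz h] at hu
  have hy : G.ρ y ≠ 0 := (div_ne_zero_iff.mp hu).1
  refine ⟨y, z, hy, hz, fun v => ?_⟩
  have hy0 : (y : F) ≠ 0 := G.coe_ne_zero hy
  have hz0 : (z : F) ≠ 0 := G.coe_ne_zero hz
  rw [hfu, ord_algebraMap_mul _ hc, show (u : F) = (y : F) / z by rw [eq_div_iff hz0]; exact h,
    ord_div v hy0 hz0]

end GaussData

end Abstract

section ModL

variable {N : ℕ} {A : ValuationSubring (AlgebraicClosure ℚ)}

/-- The divisor of an integral function with nonzero reduction is an integral principal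
divisor. -/
theorem mem_integralPrincipalDivisors
    (y : integralFunctions A (IsLocalRing.residue A) N)
    (hy : integralReduction A (IsLocalRing.residue A) N y ≠ 0)
    (D : Divisor (AlgebraicClosure ℚ) (modularFunctionFieldBar N))
    (hD : ∀ v, D v = v.ord (y : modularFunctionFieldBar N)) :
    D ∈ integralPrincipalDivisors A (IsLocalRing.residue A) N := by
  obtain ⟨ys, hys, hysk⟩ := y.2
  have hval := coe_integralReduction A (IsLocalRing.residue A) N (f := y) hys
  have hmem : coeffMap A.subtype ys ∈ modularFunctionFieldBar N := hys.symm ▸ y.1.2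
  refine ⟨ys, hmem, hysk, by rw [← hval]; exact fun h0 => hy (Subtype.ext h0), fun v => ?_⟩
  rw [hD, show (y : modularFunctionFieldBar N) = ⟨coeffMap A.subtype ys, hmem⟩ from
    Subtype.ext hys.symm]

/-- `ReductionInputsModL` from equality of degrees and the genus inequality. -/
theorem reductionInputsModL_of
    (hdeg : SameDegree (AlgebraicClosure ℚ) (IsLocalRing.ResidueField A) N)
    (hgenus : genusFF (AlgebraicClosure ℚ) (modularFunctionFieldBar N) ≤
      genusFF (IsLocalRing.ResidueField A)
        (modularFunctionFieldFullC (IsLocalRing.ResidueField A) N)) :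
    ReductionInputsModL A N := by
  have := isFunctionField_bar hdeg
  have := isFunctionField_residue hdeg
  have := isAlgClosed_residueField A
  obtain ⟨r, hr⟩ :=
    (gaussData (A := A) (N := N) IsLocalRing.residue_surjective hdeg).exists_placeMap rfl hgenus
  refine ⟨r, ⟨fun P => by rw [FF.place_deg_eq_one, FF.place_deg_eq_one], ?_⟩, ?_⟩
  · intro y hy hyk hne D hD Q
    let f : integralFunctions A (IsLocalRing.residue A) N := ⟨⟨_, hy⟩, y, rfl, hyk⟩
    have hval : integralReduction A (IsLocalRing.residue A) N f =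
        ⟨coeffMap (IsLocalRing.residue A) y, hyk⟩ :=
      Subtype.ext (coe_integralReduction A (IsLocalRing.residue A) N (f := f) rfl)
    have hne' : integralReduction A (IsLocalRing.residue A) N f ≠ 0 := by
      rw [hval]; exact fun h0 => hne (congrArg Subtype.val h0)
    exact (hr f hne' D hD Q).trans (by rw [← hval]; rfl)
  · intro D hD
    obtain ⟨f, hf, hDf⟩ := hD
    obtain ⟨y, z, hy, hz, hord⟩ :=
      (gaussData (A := A) (N := N) IsLocalRing.residue_surjective hdeg).principal_le_closure hf
    have e : D = FF.divOf (y : modularFunctionFieldBar N) -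
        FF.divOf (z : modularFunctionFieldBar N) := Finsupp.ext fun v => by
      rw [Finsupp.sub_apply, FF.divOf_apply, FF.divOf_apply, hDf, hord]
    rw [e]
    exact AddSubgroup.sub_mem _
      (AddSubgroup.subset_closure (mem_integralPrincipalDivisors y hy _ (FF.divOf_apply _)))
      (AddSubgroup.subset_closure (mem_integralPrincipalDivisors z hz _ (FF.divOf_apply _)))

/-- Existence of the reduction inputs for `ℓ ∤ N`, given the genus inequality. -/
theorem reductionInputsModL_of_genus_le [NeZero N] {ℓ : ℕ} [Fact ℓ.Prime] (hℓN : ¬ ℓ ∣ N)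
    (hA : A.LiesOverPrime ℓ)
    (hgenus : genusFF (AlgebraicClosure ℚ) (modularFunctionFieldBar N) ≤
      genusFF (IsLocalRing.ResidueField A)
        (modularFunctionFieldFullC (IsLocalRing.ResidueField A) N)) :
    ReductionInputsModL A N :=
  reductionInputsModL_of (sameDegree hℓN hA) hgenus

end ModL

end Fermat.Agent.Red
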