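import Mathlib.RingTheory.DedekindDomain.IntegralClosure
import Mathlib.RingTheory.Localization.Integral
import Mathlib.RingTheory.Valuation.LocalSubring
import Fermat.Agent.Igusa.SmoothBase
import Fermat.Agent.Red.Modular

/-!
# Finiteness of the charts of the Igusa scheme, and integrality from pole bounds

Finite generation gives the hypotheses of the gluing argument for the reduction of `X₀(N)`.
-/

noncomputable section

open ModularCurve ModularCurve.IgusaScheme AlgebraicCurve Polynomial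

namespace Fermat.Agent.Red

section Integrality

variable {K F : Type*} [Field K] [Field F] [Algebra K F] [IsAlgClosed K] [FF.IsFunctionField K F]

/-- A function without poles where `x` has none is integral over `K[x]`. -/
theorem isIntegral_adjoin_of_ord_nonneg {x f : F}
    (hf : ∀ v : Place K F, 0 ≤ v.ord x → 0 ≤ v.ord f) :
    IsIntegral (Algebra.adjoin K {x}) f := by
  by_contra hno
  let S := Algebra.adjoin K ({x} : Set F)
  let R : Subring F := (integralClosure S F).toSubring
  have : IsIntegrallyClosedIn R F := Subring.isIntegrallyClosedIn_iff.mpr fun {r} hr =>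
    isIntegral_trans (R := S) (A := integralClosure S F) r hr
  obtain ⟨V, hV, hfV⟩ := R.exists_le_valuationSubring_of_isIntegrallyClosedIn (x := f) hno
  have hsub : ∀ a : F, a ∈ S → a ∈ V := fun a ha =>
    hV ((integralClosure S F).algebraMap_mem ⟨a, ha⟩)
  have hK : ∀ c : K, algebraMap K F c ∈ V := fun c => hsub _ (S.algebraMap_mem c)
  have htop : V ≠ ⊤ := fun h => hfV (h ▸ ValuationSubring.mem_top f)
  let w : Place K F := FF.placeOfValuationSubring V hK htop
  exact hfV ((FF.mem_iff_ord_nonneg w).mpr (hf w ((FF.mem_iff_ord_nonneg w).mp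
    (hsub _ (Algebra.subset_adjoin rfl)))))

omit [IsAlgClosed K] [FF.IsFunctionField K F] in
/-- Membership in a place of an element integral over a subring contained in it. -/
theorem mem_place_of_isIntegral {R E : Type*} [CommRing R] [CommRing E] [Algebra R E]
    (v : Place K F) (φ : E →+* F) (h : ∀ r : R, φ (algebraMap R E r) ∈ v.toValuationSubring)
    {y : E} (hy : IsIntegral R y) : φ y ∈ v.toValuationSubring := by
  let ψ : R →+* v.toValuationSubring :=
    (φ.comp (algebraMap R E)).codRestrict v.toValuationSubring.toSubring h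
  have : IsIntegral v.toValuationSubring (φ y) := hy.map_of_comp_eq ψ φ (by ext; rfl)
  obtain ⟨z, hz⟩ := IsIntegrallyClosed.isIntegral_iff.mp this
  exact hz ▸ z.2

end Integrality

section Charts

variable (N : ℕ) [NeZero N] (ℓ : ℕ) [hℓ : Fact ℓ.Prime]

set_option quotPrecheck false in
local notation "ℤℓ" => ↥(GaloisRep.ratLocalizedAt ℓ)
set_option quotPrecheck false in
local notation "F" => ↥(modularFunctionFieldFull N)

omit hℓ in
/-- `P(j)` in `ℚ((q))` is the series of `P(j)` in the function field. -/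
theorem evQ_eq_aeval (P : Polynomial ℤℓ) :
    Igusa.evQ ℓ P = ((aeval (jFull N) P : F) : LaurentSeries ℚ) := by
  induction P using Polynomial.induction_on' with
  | add p q hp hq => rw [map_add, map_add, hp, hq]; rfl
  | monomial n a =>
    rw [← Polynomial.C_mul_X_pow_eq_monomial, map_mul, map_mul, map_pow, map_pow, aeval_X, aeval_C]
    rw [Igusa.evQ, RingHom.comp_apply, RingHom.comp_apply, Polynomial.coe_mapRingHom,
      Polynomial.map_C, Polynomial.map_X, Igusa.evalAt_C, Igusa.evalAt_X, Igusa.jv_one_one,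
      jqModC_rat]
    show HahnSeries.C _ * jq ^ n = _
    rw [MulMemClass.coe_mul, SubmonoidClass.coe_pow, coe_jFull]
    congr 1

/-- The finite chart is a finite `ℤ₍ℓ₎[j]`-module. -/
theorem exists_chartAlgFin_generators (hℓN : ¬ ℓ ∣ N) :
    ∃ s : Finset F, (∀ b ∈ s, b ∈ chartAlgFin N ℓ) ∧ ∀ x ∈ chartAlgFin N ℓ,
      ∃ P : F → Polynomial ℤℓ, x = ∑ b ∈ s, aeval (jFull N) (P b) * b := by
  classical
  obtain ⟨b, hb⟩ := Igusa.exists_goodBasis N ℓ hℓN
  have : IsPrincipalIdealRing ℤℓ := Igusa.isPrincipalIdealRing_ratLocalizedAt ℓ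
  have : IsIntegrallyClosed ℤℓ := Igusa.isIntegrallyClosed_ratLocalizedAt ℓ
  let algCF : Algebra (Polynomial ℤℓ) F := (aeval (jFull N) : ℤℓ[X] →ₐ[ℤℓ] F).toRingHom.toAlgebra
  have hC : ∀ P : Polynomial ℤℓ, algebraMap (Polynomial ℤℓ) F P = aeval (jFull N) P := fun _ => rfl
  have hinj : Function.Injective (algebraMap (Polynomial ℤℓ) F) := by
    intro P Q h
    refine Igusa.evalAt_jv_injective one_ne_zero ?_
    have h' : Igusa.evQ ℓ P = Igusa.evQ ℓ Q := by
      rw [evQ_eq_aeval N, evQ_eq_aeval N, ← hC, ← hC, h]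
    rw [← Igusa.toQ_evZ, ← Igusa.toQ_evZ] at h'
    exact Igusa.toQ_injective ℓ h'
  have : FaithfulSMul (Polynomial ℤℓ) F := (faithfulSMul_iff_algebraMap_injective _ _).mpr hinj
  let : Algebra (FractionRing (Polynomial ℤℓ)) F := FractionRing.liftAlgebra _ _
  have : IsScalarTower (Polynomial ℤℓ) (FractionRing (Polynomial ℤℓ)) F :=
    FractionRing.isScalarTower_liftAlgebra _ _
  have : FiniteDimensional (FractionRing (Polynomial ℤℓ)) F := by
    refine ⟨⟨Finset.univ.image fun i => (⟨_, hb.mem i⟩ : F), Submodule.eq_top_iff'.mpr fun y => ?_⟩⟩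
    obtain ⟨r, P, hr, hP⟩ := hb.span y y.2
    have hP' : algebraMap (Polynomial ℤℓ) F r * y =
        ∑ i, algebraMap (Polynomial ℤℓ) F (P i) * (⟨_, hb.mem i⟩ : F) := Subtype.ext <| by
      rw [MulMemClass.coe_mul, hC, ← evQ_eq_aeval, hP, AddSubmonoidClass.coe_finsetSum]
      exact Finset.sum_congr rfl fun i _ => by rw [MulMemClass.coe_mul, hC, ← evQ_eq_aeval]
    have hy : y = ∑ i, ((algebraMap _ (FractionRing (Polynomial ℤℓ)) r)⁻¹ *
        algebraMap _ (FractionRing (Polynomial ℤℓ)) (P i)) • (⟨_, hb.mem i⟩ : F) := by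
      simp only [Algebra.smul_def, map_mul, map_inv₀, ← IsScalarTower.algebraMap_apply, mul_assoc]
      rw [← Finset.mul_sum, ← hP', inv_mul_cancel_left₀]
      simpa using hinj.ne hr
    rw [hy]
    exact Submodule.sum_mem _ fun i _ =>
      Submodule.smul_mem _ _ (Submodule.subset_span (by simp))
  have : CharZero (FractionRing (Polynomial ℤℓ)) :=
    charZero_of_injective_algebraMap (IsFractionRing.injective (Polynomial ℤℓ) _)
  have : Algebra.IsSeparable (FractionRing (Polynomial ℤℓ)) F :=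
    Algebra.IsAlgebraic.isSeparable_of_perfectField
  have : Module.Finite (Polynomial ℤℓ) (integralClosure (Polynomial ℤℓ) F) :=
    IsIntegralClosure.finite (Polynomial ℤℓ) (FractionRing (Polynomial ℤℓ)) F
      (integralClosure (Polynomial ℤℓ) F)
  obtain ⟨t, ht⟩ := this.fg_top
  have hrange : ∀ r : ℤℓ[X], aeval (jFull N) r ∈
      Algebra.adjoin ℤℓ ({jFull N} : Set F) := fun r => by
    rw [Algebra.adjoin_singleton_eq_range_aeval]; exact ⟨r, rfl⟩
  refine ⟨t.image Subtype.val, ?_, fun x hx => ?_⟩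
  · intro y hy
    obtain ⟨z, -, rfl⟩ := Finset.mem_image.mp hy
    rw [mem_chartAlg_iff]
    exact z.2.map_of_comp_eq ((aeval (jFull N) : ℤℓ[X] →ₐ[ℤℓ] F).toRingHom.codRestrict
      (Algebra.adjoin ℤℓ ({jFull N} : Set F)).toSubring hrange) (RingHom.id F) (by ext; rfl; rfl)
  · have hint : IsIntegral (Polynomial ℤℓ) x := by
      obtain ⟨p, hp, hroot⟩ := (mem_chartAlg_iff N ℓ).mp hx
      have hl : p.map (algebraMap (Algebra.adjoin ℤℓ ({jFull N} : Set F)) F) ∈
          lifts (algebraMap (Polynomial ℤℓ) F) := by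
        refine (lifts_iff_coeff_lifts _).mpr fun i => ?_
        rw [coeff_map]
        have hmem := (p.coeff i).2
        simp only [Algebra.adjoin_singleton_eq_range_aeval] at hmem
        obtain ⟨r, hr⟩ := hmem
        exact ⟨r, hr⟩
      obtain ⟨q, hq, -, hqm⟩ := lifts_and_natDegree_eq_and_monic hl (hp.map _)
      exact ⟨q, hqm, by rw [eval₂_eq_eval_map, hq, eval_map, hroot]⟩
    have hspan : (⟨x, hint⟩ : integralClosure (Polynomial ℤℓ) F) ∈
        Submodule.span (Polynomial ℤℓ) (t : Set (integralClosure (Polynomial ℤℓ) F)) := by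
      rw [ht]; trivial
    obtain ⟨c, hc⟩ := Submodule.mem_span_finset'.mp hspan
    let P : F → Polynomial ℤℓ := fun y =>
      if h : ∃ z ∈ t, (z : F) = y then c ⟨h.choose, h.choose_spec.1⟩ else 0
    refine ⟨P, ?_⟩
    rw [Finset.sum_image (fun a _ b _ h => Subtype.val_injective h)]
    have hval := congrArg Subtype.val hc
    rw [AddSubmonoidClass.coe_finsetSum] at hval
    rw [show x = ((⟨x, hint⟩ : integralClosure (Polynomial ℤℓ) F) : F) from rfl, ← hval,
      ← Finset.sum_coe_sort t]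
    refine Finset.sum_congr rfl fun z _ => ?_
    have hex : ∃ w ∈ t, (w : F) = ((z : integralClosure (Polynomial ℤℓ) F) : F) := ⟨z, z.2, rfl⟩
    have e : (⟨hex.choose, hex.choose_spec.1⟩ : t) = z :=
      Subtype.ext (Subtype.val_injective hex.choose_spec.2)
    simp only [P, dif_pos hex, e]
    rfl

/-- Every element of the middle chart splits across the two charts after a large fixed twist. -/
theorem exists_split (hℓN : ¬ ℓ ∣ N) :
    ∃ n₀ : ℕ, ∀ n, n₀ ≤ n → ∀ z ∈ chartAlgMid N ℓ,
      ∃ f ∈ chartAlgFin N ℓ, ∃ g ∈ chartAlgInf N ℓ, z = f + jFull N ^ n * g := by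
  classical
  obtain ⟨s, hs, hgen⟩ := exists_chartAlgFin_generators N ℓ hℓN
  have hb : ∀ b ∈ s, ∃ m : ℕ, ((jFull N)⁻¹) ^ m * b ∈ chartAlgInf N ℓ := by
    intro b hb
    refine exists_pow_mul_mem_chartAlg (Set.mem_singleton _) (inv_ne_zero (jFull_ne_zero N)) ?_
    refine chartAlg_mono N ℓ ?_ (hs b hb)
    rw [inv_inv]
    exact Set.singleton_subset_iff.mpr (Set.mem_insert _ _)
  choose m hm using hb
  refine ⟨∑ b ∈ s.attach, m b b.2, fun n hn z hz => ?_⟩
  have hj : jFull N ≠ 0 := jFull_ne_zero N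
  have hji : (jFull N)⁻¹ ∈ chartAlgInf N ℓ := subset_chartAlg N ℓ _ rfl
  have hjf : jFull N ∈ chartAlgFin N ℓ := subset_chartAlg N ℓ _ rfl
  obtain ⟨M, hM⟩ := exists_pow_mul_mem_chartAlg (Set.mem_singleton (jFull N)) hj (x := z) (by
    rw [show insert (jFull N)⁻¹ ({jFull N} : Set F) = {jFull N, (jFull N)⁻¹}
      from Set.pair_comm _ _]
    exact hz)
  obtain ⟨P, hP⟩ := hgen _ hM
  have hzsum : z = ∑ b ∈ s, ∑ i ∈ Finset.range ((P b).natDegree + 1),
      algebraMap ℤℓ F ((P b).coeff i) * jFull N ^ i / jFull N ^ M * b := by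
    have h1 : z = (jFull N ^ M * z) / jFull N ^ M := by field_simp
    rw [h1, hP, Finset.sum_div]
    refine Finset.sum_congr rfl fun b _ => ?_
    rw [aeval_eq_sum_range, Finset.sum_mul, Finset.sum_div]
    exact Finset.sum_congr rfl fun i _ => by rw [Algebra.smul_def]; ring
  have key : ∀ b ∈ s, ∀ (i : ℕ) (c : ℤℓ), ∃ f ∈ chartAlgFin N ℓ, ∃ g ∈ chartAlgInf N ℓ,
      algebraMap ℤℓ F c * jFull N ^ i / jFull N ^ M * b = f + jFull N ^ n * g := by
    intro b hb i c
    rcases le_or_gt M i with h | h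
    · refine ⟨_, ?_, 0, zero_mem _, by rw [mul_zero, add_zero]⟩
      obtain ⟨k, rfl⟩ := Nat.exists_eq_add_of_le h
      rw [pow_add, ← mul_assoc, mul_right_comm _ (jFull N ^ M), mul_div_assoc,
        div_self (pow_ne_zero _ hj), mul_one]
      exact mul_mem (mul_mem (Subalgebra.algebraMap_mem _ c) (pow_mem hjf k)) (hs b hb)
    · obtain ⟨d, rfl⟩ := Nat.exists_eq_add_of_le h.le
      obtain ⟨e, rfl⟩ : ∃ e, n = m b hb + e := Nat.exists_eq_add_of_le
        ((Finset.single_le_sum (f := fun b : s => m b b.2) (fun _ _ => Nat.zero_le _)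
          (Finset.mem_attach s ⟨b, hb⟩)).trans hn)
      refine ⟨0, zero_mem _,
        algebraMap ℤℓ F c * ((jFull N)⁻¹) ^ (d + e) * (((jFull N)⁻¹) ^ m b hb * b),
        mul_mem (mul_mem (Subalgebra.algebraMap_mem _ c) (pow_mem hji _)) (hm b hb), ?_⟩
      rw [zero_add, inv_pow, inv_pow]
      field_simp
      ring
  rw [hzsum]
  refine Finset.sum_induction _
    (fun y => ∃ f ∈ chartAlgFin N ℓ, ∃ g ∈ chartAlgInf N ℓ, y = f + jFull N ^ n * g) ?_
    ⟨0, zero_mem _, 0, zero_mem _, by simp⟩ fun b hb => ?_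
  · rintro _ _ ⟨f, hf, g, hg, rfl⟩ ⟨f', hf', g', hg', rfl⟩
    exact ⟨f + f', add_mem hf hf', g + g', add_mem hg hg', by ring⟩
  · refine Finset.sum_induction _
      (fun y => ∃ f ∈ chartAlgFin N ℓ, ∃ g ∈ chartAlgInf N ℓ, y = f + jFull N ^ n * g) ?_
      ⟨0, zero_mem _, 0, zero_mem _, by simp⟩ fun i _ => key b hb i _
    rintro _ _ ⟨f, hf, g, hg, rfl⟩ ⟨f', hf', g', hg', rfl⟩
    exact ⟨f + f', add_mem hf hf', g + g', add_mem hg hg', by ring⟩

end Charts

end Fermat.Agent.Red
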