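import Mathlib.Algebra.Field.ZMod
import Fermat.Agent.Red.ChartFinite
import Fermat.Agent.Red.Existence

/-!
# Two-chart gluing for a Gauss reduction

If two charts with normal reductions glue along a middle chart `M` which is pure and defined over
the prime field, large multiples of the pole divisor lift, hence the genus inequality.
-/

noncomputable section

open AlgebraicCurve IntermediateField

namespace Fermat.Agent.Red

section Combo

variable {R M B : Type*} [CommRing R] [CommRing M] [CommRing B] (cA : R →+* B) (ι : M →+* B)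

/-- The element `∑ x, cA (aₓ) * ι x` of `B` given by a finitely supported family `a : M →₀ R`. -/
def combo : (M →₀ R) →+ B :=
  Finsupp.liftAddHom fun x => (AddMonoidHom.mulRight (ι x)).comp cA.toAddMonoidHom

theorem combo_single (x : M) (a : R) : combo cA ι (Finsupp.single x a) = cA a * ι x :=
  Finsupp.liftAddHom_apply_single _ _ _

theorem combo_eq_sum (c : M →₀ R) : combo cA ι c = ∑ x ∈ c.support, cA (c x) * ι x := rfl

theorem combo_smul (a : R) (c : M →₀ R) : combo cA ι (a • c) = cA a * combo cA ι c := by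
  induction c using Finsupp.induction_linear with
  | zero => simp
  | add c d hc hd => rw [smul_add, map_add, map_add, hc, hd, mul_add]
  | single x b =>
    rw [Finsupp.smul_single, combo_single, combo_single, smul_eq_mul, map_mul, mul_assoc]

/-- Translating a combination by `y` multiplies it by `ι y`. -/
theorem combo_mapDomain_mul (y : M) (c : M →₀ R) :
    combo cA ι (c.mapDomain (y * ·)) = ι y * combo cA ι c := by
  induction c using Finsupp.induction_linear with
  | zero => simp
  | add c d hc hd => rw [Finsupp.mapDomain_add, map_add, map_add, hc, hd, mul_add]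
  | single x b => rw [Finsupp.mapDomain_single, combo_single, combo_single, map_mul]; ring

end Combo

variable {L F k Fk : Type*} [Field L] [Field F] [Algebra L F] [Field k] [Field Fk] [Algebra k Fk]
  {A : ValuationSubring L} {π : A →+* k}

namespace GaussData

variable (G : GaussData A π F Fk)

variable {M : Type*} [CommRing M] (ι : M →+* G.B)

/-- An element of the span of the reductions of `S` is the reduction of a combination supported
on `S`. -/
theorem exists_combo_of_mem_span {S : Set M} {z : Fk}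
    (hz : z ∈ Submodule.span k ((fun x => G.ρ (ι x)) '' S)) :
    ∃ c : M →₀ A, (∀ x ∈ c.support, x ∈ S) ∧ G.ρ (combo G.ιB ι c) = z := by
  classical
  induction hz using Submodule.span_induction with
  | mem z hz =>
    obtain ⟨x, hx, rfl⟩ := hz
    refine ⟨Finsupp.single x 1, fun u hu => ?_, by rw [combo_single, map_one, one_mul]⟩
    rwa [Finset.mem_singleton.mp (Finsupp.support_single_subset hu)]
  | zero => exact ⟨0, by simp, by simp⟩
  | add z z' _ _ hc hc' =>
    obtain ⟨c, hc, rfl⟩ := hc
    obtain ⟨c', hc', rfl⟩ := hc'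
    refine ⟨c + c', fun u hu => ?_, by rw [map_add, map_add]⟩
    rcases Finset.mem_union.mp (Finsupp.support_add hu) with h | h
    exacts [hc u h, hc' u h]
  | smul r z _ hc =>
    obtain ⟨c, hc, rfl⟩ := hc
    obtain ⟨a, rfl⟩ := G.surj_pi r
    exact ⟨a • c, fun u hu => hc u (Finsupp.support_smul hu), by
      rw [combo_smul, map_mul, ρ_ιB, ← Algebra.smul_def]⟩

variable (ℓ : ℕ) [Fact ℓ.Prime] [CharP k ℓ]

/-- A combination with zero reduction equals one with all coefficients in the kernel of `π`: the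
relation is defined over `𝔽_ℓ`, so by purity it comes from multiples of `ℓ`. -/
theorem exists_small_combo
    (hrat : ∀ (s : Finset M) (a : M → k), ∑ x ∈ s, algebraMap k Fk (a x) * G.ρ (ι x) = 0 →
      ∀ φ : k →+ ZMod ℓ, ∑ x ∈ s, ((φ (a x)).val : Fk) * G.ρ (ι x) = 0)
    (hpur : ∀ x, G.ρ (ι x) = 0 → ∃ x', x = (ℓ : M) * x')
    (c : M →₀ A) (hc : G.ρ (combo G.ιB ι c) = 0) :
    ∃ c' : M →₀ A, (∀ x, π (c' x) = 0) ∧ combo G.ιB ι c' = combo G.ιB ι c := by
  classical
  let : Algebra (ZMod ℓ) k := ZMod.algebra k ℓ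
  let β := Module.Basis.ofVectorSpace (ZMod ℓ) k
  let co : M → _ →₀ ZMod ℓ := fun x => β.repr (π (c x))
  set T := c.support.biUnion fun x => (co x).support with hT
  choose βt hβt using fun b => G.surj_pi (β b)
  let m : M → _ → ℕ := fun x b => (co x b).val
  have hrepr : ∀ x ∈ c.support, π (c x) = ∑ b ∈ T, π ((m x b : A) * βt b) := by
    intro x hx
    conv_lhs => rw [← β.linearCombination_repr (π (c x)), Finsupp.linearCombination_apply]
    show (co x).sum (fun b r => r • β b) = _
    rw [Finsupp.sum_of_support_subset (co x)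
      (Finset.subset_biUnion_of_mem (fun x => (co x).support) hx)
      (fun b r => r • β b) (fun b _ => zero_smul _ _)]
    refine Finset.sum_congr rfl fun b _ => ?_
    rw [map_mul, map_natCast, hβt, Algebra.smul_def, ← map_natCast (algebraMap (ZMod ℓ) k),
      ZMod.natCast_zmod_val]
  have hx' : ∀ b, ∃ x' : M, ∑ x ∈ c.support, (m x b : M) * x = (ℓ : M) * x' := by
    intro b
    refine hpur _ ?_
    rw [combo_eq_sum, map_sum] at hc
    simp only [map_mul, ρ_ιB] at hc
    have h := hrat c.support (fun x => π (c x)) hc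
      ((Finsupp.applyAddHom b).comp β.repr.toAddEquiv.toAddMonoidHom)
    simp only [map_sum, map_mul, map_natCast]
    exact h
  choose x' hx' using hx'
  refine ⟨(∑ x ∈ c.support, Finsupp.single x (c x - ∑ b ∈ T, (m x b : A) * βt b)) +
    ∑ b ∈ T, Finsupp.single (x' b) (βt b * (ℓ : A)), fun u => ?_, ?_⟩
  · rw [Finsupp.add_apply, Finsupp.finsetSum_apply, Finsupp.finsetSum_apply, map_add, map_sum,
      map_sum, Finset.sum_eq_zero fun x hx => ?_, Finset.sum_eq_zero fun b _ => ?_, add_zero]
    · rw [Finsupp.single_apply]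
      split_ifs
      · rw [map_mul, map_natCast, CharP.cast_eq_zero, mul_zero]
      · exact map_zero _
    · rw [Finsupp.single_apply]
      split_ifs
      · rw [map_sub, map_sum, ← hrepr x hx, sub_self]
      · exact map_zero _
  · simp only [map_add, map_sum, combo_single, combo_eq_sum G.ιB ι c]
    have key : ∀ b ∈ T, G.ιB (βt b * (ℓ : A)) * ι (x' b) =
        ∑ x ∈ c.support, G.ιB ((m x b : A) * βt b) * ι x := by
      intro b _
      rw [map_mul, map_natCast, mul_assoc, ← map_natCast ι, ← map_mul ι, ← hx', map_sum,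
        Finset.mul_sum]
      exact Finset.sum_congr rfl fun x _ => by rw [map_mul, map_mul, map_natCast, map_natCast]; ring
    rw [Finset.sum_congr rfl key, Finset.sum_comm, ← Finset.sum_add_distrib]
    refine Finset.sum_congr rfl fun x _ => ?_
    rw [map_sub, map_sum, sub_mul, Finset.sum_mul, sub_add_cancel]

variable [IsAlgClosed L] [FF.IsFunctionField L F] [IsAlgClosed k] [FF.IsFunctionField k Fk]

/-- **Gluing.** If the middle ring `M` is pure and its reductions satisfy relations over `𝔽_ℓ`
only, and the two charts `Sfin`, `Sinf` split `M` and have normal reductions, then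
`g(F) ≤ g(Fk)`. -/
theorem genus_le_of_charts (hdk : Module.finrank (k⟮G.ρ G.x⟯) Fk = G.d) {n : ℕ}
    (hn : 2 * genusFF L F ≤ n) (J : M) (hJ : ι J = G.x) (Sfin Sinf : Set M)
    (hsplit : ∀ z : M, ∃ f ∈ Sfin, ∃ g ∈ Sinf, z = f + J ^ n * g)
    (hrat : ∀ (s : Finset M) (a : M → k), ∑ x ∈ s, algebraMap k Fk (a x) * G.ρ (ι x) = 0 →
      ∀ φ : k →+ ZMod ℓ, ∑ x ∈ s, ((φ (a x)).val : Fk) * G.ρ (ι x) = 0)
    (hpur : ∀ x, G.ρ (ι x) = 0 → ∃ x', x = (ℓ : M) * x')
    (hnorm1 : ∀ w : Fk, IsIntegral (Algebra.adjoin k ({G.ρ G.x} : Set Fk)) w →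
      w ∈ Submodule.span k ((fun x => G.ρ (ι x)) '' Sfin))
    (hnorm2 : ∀ w : Fk, IsIntegral (Algebra.adjoin k ({(G.ρ G.x)⁻¹} : Set Fk)) w →
      w ∈ Submodule.span k ((fun x => G.ρ (ι x)) '' Sinf))
    (hreg1 : ∀ v : Place L F, 0 ≤ v.ord (G.x : F) → ∀ x ∈ Sfin,
      ((ι x : G.B) : F) ∈ v.toValuationSubring)
    (hreg2 : ∀ v : Place L F, v.ord (G.x : F) ≤ 0 → ∀ x ∈ Sinf,
      ((ι x : G.B) : F) ∈ v.toValuationSubring) :
    genusFF L F ≤ genusFF k Fk := by
  classical
  refine G.genus_le_of_lift hdk hn fun w hw => ?_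
  set jb := G.ρ G.x with hjb
  have hjb0 : jb ≠ 0 := fun h0 => by
    have ht := G.transcendental
    rw [← hjb, h0] at ht
    exact ht isAlgebraic_zero
  have hwle := mem_riemannRochSpace_iff.mp hw
  have hint1 : IsIntegral (Algebra.adjoin k ({jb} : Set Fk)) w := by
    refine isIntegral_adjoin_of_ord_nonneg fun v hv => ?_
    rcases hwle v with h | h
    · simp [h]
    · rw [Finsupp.smul_apply, nsmul_eq_mul, FF.poleDiv_apply, max_eq_right (neg_nonpos.mpr hv),
        mul_zero, neg_zero] at h
      exact h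
  have hint2 : IsIntegral (Algebra.adjoin k ({jb⁻¹} : Set Fk)) (w / jb ^ n) := by
    refine isIntegral_adjoin_of_ord_nonneg fun v hv => ?_
    rcases eq_or_ne w 0 with h0 | h0
    · simp [h0]
    rcases hwle v with h | h
    · exact absurd h h0
    · rw [Finsupp.smul_apply, nsmul_eq_mul, FF.poleDiv_apply] at h
      rw [Place.ord_inv] at hv
      rw [max_eq_left hv] at h
      rw [FF.ord_div v h0 (pow_ne_zero _ hjb0), FF.ord_pow]
      linarith
  obtain ⟨cx, hcx, hcxw⟩ := G.exists_combo_of_mem_span ι (hnorm1 w hint1)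
  obtain ⟨cy, hcy, hcyw⟩ := G.exists_combo_of_mem_span ι (hnorm2 _ hint2)
  obtain ⟨c', hc'π, hc'⟩ := G.exists_small_combo ι ℓ hrat hpur
    (cx - cy.mapDomain (J ^ n * ·)) (by
      rw [map_sub, combo_mapDomain_mul, map_sub, map_mul, map_pow, map_pow, hJ, hcxw, hcyw,
        mul_div_cancel₀ _ (pow_ne_zero _ hjb0), sub_self])
  choose f hf g hg hfg using hsplit
  set e1 := ∑ x ∈ c'.support, G.ιB (c' x) * ι (f x) with he1
  set e2 := ∑ x ∈ c'.support, G.ιB (c' x) * ι (g x) with he2
  have hdec : combo G.ιB ι c' = e1 + ι J ^ n * e2 := by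
    rw [combo_eq_sum, he1, he2, Finset.mul_sum, ← Finset.sum_add_distrib]
    refine Finset.sum_congr rfl fun x _ => ?_
    rw [show ι x = ι (f x) + ι J ^ n * ι (g x) by rw [← map_pow, ← map_mul, ← map_add, ← hfg x]]
    ring
  have hu : combo G.ιB ι cx - e1 = ι J ^ n * (combo G.ιB ι cy + e2) := by
    rw [map_sub, combo_mapDomain_mul, map_pow, hdec] at hc'
    linear_combination -hc'
  refine ⟨⟨_, G.mem_O_of_mem_B (combo G.ιB ι cx - e1)⟩, ?_, ?_⟩
  · refine mem_riemannRochSpace_iff.mpr fun v => ?_
    show ((combo G.ιB ι cx - e1 : G.B) : F) = 0 ∨ _ ≤ v.ord ((combo G.ιB ι cx - e1 : G.B) : F)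
    rcases eq_or_ne ((combo G.ιB ι cx - e1 : G.B) : F) 0 with h0 | h0
    · exact Or.inl h0
    refine Or.inr ?_
    have hsum : ∀ (s : Finset M) (a : M → A) (u : M → M),
        (∀ x ∈ s, ((ι (u x) : G.B) : F) ∈ v.toValuationSubring) →
        ((∑ x ∈ s, G.ιB (a x) * ι (u x) : G.B) : F) ∈ v.toValuationSubring := by
      intro s a u hu
      rw [AddSubmonoidClass.coe_finsetSum]
      exact sum_mem fun x hx => mul_mem (v.algebraMap_mem' _) (hu x hx)
    rw [Finsupp.smul_apply, nsmul_eq_mul, FF.poleDiv_apply]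
    rcases le_or_gt 0 (v.ord (G.x : F)) with hv | hv
    · have hmem : ((combo G.ιB ι cx - e1 : G.B) : F) ∈ v.toValuationSubring := by
        rw [AddSubgroupClass.coe_sub, combo_eq_sum, he1]
        exact sub_mem (hsum _ _ id fun x hx => hreg1 v hv _ (hcx x hx))
          (hsum _ _ f fun x _ => hreg1 v hv _ (hf x))
      rw [max_eq_right (neg_nonpos.mpr hv), mul_zero, neg_zero]
      exact (FF.mem_iff_ord_nonneg v).mp hmem
    · have hz : ((combo G.ιB ι cy + e2 : G.B) : F) ∈ v.toValuationSubring := by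
        rw [AddMemClass.coe_add, combo_eq_sum, he2]
        exact add_mem (hsum _ _ id fun x hx => hreg2 v hv.le _ (hcy x hx))
          (hsum _ _ g fun x _ => hreg2 v hv.le _ (hg x))
      have e : ((combo G.ιB ι cx - e1 : G.B) : F) =
          (G.x : F) ^ n * ((combo G.ιB ι cy + e2 : G.B) : F) := by
        rw [hu, hJ]; rfl
      rw [e, v.ord_mul (left_ne_zero_of_mul (e ▸ h0)) (right_ne_zero_of_mul (e ▸ h0)),
        FF.ord_pow, max_eq_left (by omega)]
      have := (FF.mem_iff_ord_nonneg v).mp hz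
      linarith
  · show G.red ⟨_, _⟩ = w
    rw [G.red_B, map_sub, hcxw, he1, map_sum, Finset.sum_eq_zero, sub_zero]
    intro x _
    rw [map_mul, ρ_ιB, hc'π, map_zero, zero_mul]

end GaussData

section Rational

variable {k : Type*} [Field k] (ℓ : ℕ) [Fact ℓ.Prime] [CharP k ℓ]

/-- Relations over `k` between series with coefficients in the prime field descend. -/
theorem sum_eq_zero_of_prime_coeff {ι' : Type*} (s : Finset ι') (z : ι' → LaurentSeries k)
    (hz : ∀ x i, ∃ q : ZMod ℓ, (z x).coeff i = ZMod.castHom dvd_rfl k q) (a : ι' → k)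
    (h : ∑ x ∈ s, algebraMap k (LaurentSeries k) (a x) * z x = 0) (φ : k →+ ZMod ℓ) :
    ∑ x ∈ s, ((φ (a x)).val : LaurentSeries k) * z x = 0 := by
  let : Algebra (ZMod ℓ) k := ZMod.algebra k ℓ
  ext i
  choose q hq using fun x => hz x i
  have h1 : ∑ x ∈ s, a x * ZMod.castHom dvd_rfl k (q x) = 0 := by
    have h0 := congrArg (fun f : LaurentSeries k => f.coeff i) h
    simp only [HahnSeries.coeff_sum, HahnSeries.coeff_zero] at h0
    rw [← h0]
    refine Finset.sum_congr rfl fun x _ => ?_
    rw [ModularCurve.algebraMap_laurentSeries_eq_single, HahnSeries.coeff_single_mul, sub_zero, hq]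
  have h2 : ∑ x ∈ s, φ (a x) * q x = 0 := by
    rw [← map_zero φ, ← h1, map_sum]
    refine Finset.sum_congr rfl fun x _ => ?_
    have e : a x * ZMod.castHom dvd_rfl k (q x) = (q x).val • a x := by
      rw [nsmul_eq_mul, mul_comm]
      congr 1
      rw [← map_natCast (ZMod.castHom dvd_rfl k), ZMod.natCast_zmod_val]
    rw [e, map_nsmul, nsmul_eq_mul, ZMod.natCast_zmod_val, mul_comm]
  have h3 := congrArg (ZMod.castHom dvd_rfl k) h2
  rw [map_sum, map_zero] at h3
  simp only [HahnSeries.coeff_sum, HahnSeries.coeff_zero]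
  rw [← h3]
  refine Finset.sum_congr rfl fun x _ => ?_
  rw [← map_natCast (algebraMap k (LaurentSeries k)),
    ModularCurve.algebraMap_laurentSeries_eq_single, HahnSeries.coeff_single_mul, sub_zero, hq,
    map_mul, ← map_natCast (ZMod.castHom dvd_rfl k), ZMod.natCast_zmod_val]

end Rational

end Fermat.Agent.Red
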