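import Fermat.Agent.Igusa.SmoothRed
import Fermat.Agent.Red.Glue

/-!
# The genus inequality `g(F_N) ≤ g(F_N mod ℓ)` from normal special fibres

If the special fibres of the two charts of the Igusa scheme are normal, every function on the
special fibre with poles bounded by `n` times the pole divisor of `j` lifts, for `n` large.
-/

noncomputable section

open ModularCurve ModularCurve.IgusaScheme AlgebraicCurve

namespace Fermat.Agent.Red

section Integral

variable {k : Type*} [Field k] {E : Type*} [Field E] [Algebra k E]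

/-- Integrality passes from a subfield to the ambient field. -/
theorem isIntegral_coe {Fk : IntermediateField k E} {x f : Fk}
    (h : IsIntegral (Algebra.adjoin k ({x} : Set Fk)) f) :
    IsIntegral (Algebra.adjoin k ({(x : E)} : Set E)) (f : E) := by
  refine h.map_of_comp_eq (R := Algebra.adjoin k ({x} : Set Fk)) (S := Fk)
    ((Fk.val.comp (Algebra.adjoin k ({x} : Set Fk)).val).codRestrict
      (Algebra.adjoin k ({(x : E)} : Set E)) ?_).toRingHom Fk.val.toRingHom (by ext; rfl)
  rintro ⟨r, hr⟩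
  have : Fk.val r ∈ (Algebra.adjoin k ({x} : Set Fk)).map Fk.val := ⟨r, hr, rfl⟩
  rwa [AlgHom.map_adjoin, Set.image_singleton] at this

/-- Membership in a span can be checked on the series. -/
theorem mem_span_coe {Fk : IntermediateField k (LaurentSeries k)} {T : Set Fk}
    {Z : Set (LaurentSeries k)} {w : Fk}
    (hZ : ∀ z ∈ Z, ∃ t ∈ T, (t : LaurentSeries k) = z)
    (hw : (w : LaurentSeries k) ∈ Submodule.span k Z) : w ∈ Submodule.span k T := by
  suffices h : ∀ u ∈ Submodule.span k Z,
      ∃ w' ∈ Submodule.span k T, (w' : LaurentSeries k) = u by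
    obtain ⟨w', hw', e⟩ := h _ hw
    rwa [Subtype.ext e] at hw'
  intro u hu
  induction hu using Submodule.span_induction with
  | mem z hz =>
    obtain ⟨t, ht, h⟩ := hZ z hz
    exact ⟨t, Submodule.subset_span ht, h⟩
  | zero => exact ⟨0, zero_mem _, rfl⟩
  | add x y _ _ hx hy =>
    obtain ⟨a, ha, rfl⟩ := hx
    obtain ⟨b, hb, rfl⟩ := hy
    exact ⟨a + b, add_mem ha hb, rfl⟩
  | smul r x _ hx =>
    obtain ⟨a, ha, rfl⟩ := hx
    refine ⟨r • a, Submodule.smul_mem _ _ ha, ?_⟩
    rw [← HahnSeries.C_mul_eq_smul, Algebra.smul_def, MulMemClass.coe_mul,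
      IntermediateField.coe_algebraMap_apply, algebraMap_laurentSeries_eq_single]
    rfl

end Integral

variable {N ℓ : ℕ} [NeZero N] [hℓ : Fact ℓ.Prime]
  (A : ValuationSubring (AlgebraicClosure ℚ))

/-- The residue field of a place over `ℓ` has characteristic `ℓ`. -/
theorem charP_residueField (hA : A.LiesOverPrime ℓ) : CharP (IsLocalRing.ResidueField A) ℓ := by
  refine ⟨fun x => ⟨fun h => ?_, fun ⟨c, hc⟩ => by
    rw [hc, Nat.cast_mul, natCast_residue_self A hA, zero_mul]⟩⟩
  by_contra hx
  exact natCast_residue_ne_zero A hℓ.out hA hx h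

/-- A valuation ring over `ℓ` contains `ℤ₍ℓ₎`. -/
theorem algebraMap_ratLocalizedAt_mem (hA : A.LiesOverPrime ℓ)
    (q : ↥(GaloisRep.ratLocalizedAt ℓ)) :
    algebraMap ℚ (AlgebraicClosure ℚ) (q : ℚ) ∈ A := by
  have hden : IsLocalRing.residue A ((q : ℚ).den : A) ≠ 0 := by
    rw [map_natCast]
    exact natCast_residue_ne_zero A hℓ.out hA
      (hℓ.out.coprime_iff_not_dvd.mp (Nat.Coprime.symm q.2))
  have hinv := inv_mem_of_pi_ne_zero IsLocalRing.residue_surjective hden
  have e : algebraMap ℚ (AlgebraicClosure ℚ) (q : ℚ) =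
      ((q : ℚ).num : AlgebraicClosure ℚ) * ((q : ℚ).den : AlgebraicClosure ℚ)⁻¹ := by
    conv_lhs => rw [← Rat.num_div_den (q : ℚ)]
    rw [map_div₀, map_intCast, map_natCast, div_eq_mul_inv]
  rw [e]
  exact mul_mem (intCast_mem A _) (by simpa using hinv)

/-- The inclusion `ℤ₍ℓ₎ → A` of a valuation ring over `ℓ`. -/
def toA (hA : A.LiesOverPrime ℓ) : ↥(GaloisRep.ratLocalizedAt ℓ) →+* A :=
  ((algebraMap ℚ (AlgebraicClosure ℚ)).comp
    (GaloisRep.ratLocalizedAt ℓ).subtype).codRestrict A.toSubring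
    (algebraMap_ratLocalizedAt_mem A hA)

variable (N) in
/-- The inclusion of `F_N` in `Q̄ · F_N`. -/
def epsBar : ↥(modularFunctionFieldFull N) →+* ↥(modularFunctionFieldBar N) :=
  ((coeffEmb (AlgebraicClosure ℚ)).comp (modularFunctionFieldFull N).toSubfield.subtype).codRestrict
    (modularFunctionFieldBar N).toSubfield fun x => coeffEmb_mem_laurentBaseChange _ x.2

omit [NeZero N] in
theorem coe_epsBar (x : ↥(modularFunctionFieldFull N)) :
    ((epsBar N x : ↥(modularFunctionFieldBar N)) : LaurentSeries (AlgebraicClosure ℚ)) =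
      coeffEmb (AlgebraicClosure ℚ) (x : LaurentSeries ℚ) := rfl

omit [NeZero N] in
/-- An integral expansion over `ℤ₍ℓ₎` is one over `A`. -/
theorem coeffMap_subtype_toA (hA : A.LiesOverPrime ℓ) {x : ↥(modularFunctionFieldFull N)}
    {y : LaurentSeries ↥(GaloisRep.ratLocalizedAt ℓ)} (hy : Igusa.toQ ℓ y = (x : LaurentSeries ℚ)) :
    coeffMap A.subtype (coeffMap (toA A hA) y) =
      ((epsBar N x : ↥(modularFunctionFieldBar N)) : LaurentSeries (AlgebraicClosure ℚ)) := by
  rw [coe_epsBar, ← hy, coeffEmb, coeffMap_coeffMap, coeffMap_coeffMap]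
  rfl

/-- An element of the chart attached to `S` is regular at a place where `S` is regular. -/
theorem epsBar_mem_place (v : Place (AlgebraicClosure ℚ) ↥(modularFunctionFieldBar N))
    {S : Set ↥(modularFunctionFieldFull N)}
    (hv : ∀ s ∈ S, epsBar N s ∈ v.toValuationSubring) {x : ↥(modularFunctionFieldFull N)}
    (hx : x ∈ chartAlg N ℓ S) : epsBar N x ∈ v.toValuationSubring := by
  refine mem_place_of_isIntegral v (epsBar N) ?_ ((mem_chartAlg_iff N ℓ).mp hx)
  rintro ⟨r, hr⟩
  show epsBar N r ∈ v.toValuationSubring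
  induction hr using Algebra.adjoin_induction with
  | mem s hs => exact hv s hs
  | algebraMap c =>
    have e : epsBar N (algebraMap ↥(GaloisRep.ratLocalizedAt ℓ) ↥(modularFunctionFieldFull N) c) =
        algebraMap (AlgebraicClosure ℚ) ↥(modularFunctionFieldBar N)
          (algebraMap ℚ (AlgebraicClosure ℚ) (c : ℚ)) := by
      show ((epsBar N).comp (algebraMap ℚ ↥(modularFunctionFieldFull N))) (c : ℚ) =
        ((algebraMap (AlgebraicClosure ℚ) ↥(modularFunctionFieldBar N)).comp
          (algebraMap ℚ (AlgebraicClosure ℚ))) (c : ℚ)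
      exact RingHom.congr_fun (Subsingleton.elim _ _) _
    rw [e]
    exact v.algebraMap_mem' _
  | add a b _ _ ha hb => rw [map_add]; exact add_mem ha hb
  | mul a b _ _ ha hb => rw [map_mul]; exact mul_mem ha hb

/-- **The genus inequality**, from normality of the special fibres of the two charts. -/
theorem genus_le_of_normality (hℓN : ¬ ℓ ∣ N) (hA : A.LiesOverPrime ℓ)
    (hnorm : letI : Algebra ↥(GaloisRep.ratLocalizedAt ℓ) (IsLocalRing.ResidueField A) :=
        ((IsLocalRing.residue A).comp (toA A hA)).toAlgebra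
      (∀ {w : LaurentSeries (IsLocalRing.ResidueField A)},
        w ∈ modularFunctionFieldFullC (IsLocalRing.ResidueField A) N →
        IsIntegral (Algebra.adjoin (IsLocalRing.ResidueField A)
          {jqModC (IsLocalRing.ResidueField A)}) w →
        w ∈ Submodule.span (IsLocalRing.ResidueField A)
          (Igusa.redSet N ℓ (IsLocalRing.ResidueField A) {jFull N})) ∧
      (∀ {w : LaurentSeries (IsLocalRing.ResidueField A)},
        w ∈ modularFunctionFieldFullC (IsLocalRing.ResidueField A) N →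
        IsIntegral (Algebra.adjoin (IsLocalRing.ResidueField A)
          {(jqModC (IsLocalRing.ResidueField A))⁻¹}) w →
        w ∈ Submodule.span (IsLocalRing.ResidueField A)
          (Igusa.redSet N ℓ (IsLocalRing.ResidueField A) {(jFull N)⁻¹}))) :
    genusFF (AlgebraicClosure ℚ) (modularFunctionFieldBar N) ≤
      genusFF (IsLocalRing.ResidueField A)
        (modularFunctionFieldFullC (IsLocalRing.ResidueField A) N) := by
  classical
  let algk : Algebra ↥(GaloisRep.ratLocalizedAt ℓ) (IsLocalRing.ResidueField A) :=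
    ((IsLocalRing.residue A).comp (toA A hA)).toAlgebra
  have hdeg : SameDegree (AlgebraicClosure ℚ) (IsLocalRing.ResidueField A) N := sameDegree hℓN hA
  have := isFunctionField_bar hdeg
  have := isFunctionField_residue hdeg
  have := isAlgClosed_residueField A
  have := charP_residueField A hA
  obtain ⟨n₀, hsplit⟩ := exists_split N ℓ hℓN
  have hιmem : ∀ x : chartAlgMid N ℓ,
      epsBar N x ∈ integralFunctions A (IsLocalRing.residue A) N := fun x => by
    obtain ⟨y, hy⟩ := Igusa.exists_series N ℓ hℓN subset_rfl x.2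
    refine ⟨coeffMap (toA A hA) y, coeffMap_subtype_toA A hA hy, ?_⟩
    rw [coeffMap_coeffMap]
    exact Igusa.red_mem N ℓ _ hℓN (hy ▸ (x : ↥(modularFunctionFieldFull N)).2)
  let ι : chartAlgMid N ℓ →+* integralFunctions A (IsLocalRing.residue A) N :=
    ((epsBar N).comp (chartAlgMid N ℓ).val.toRingHom).codRestrict _ hιmem
  have hρι : ∀ (x : chartAlgMid N ℓ) (y : LaurentSeries ↥(GaloisRep.ratLocalizedAt ℓ)),
      Igusa.toQ ℓ y = ((x : ↥(modularFunctionFieldFull N)) : LaurentSeries ℚ) →
      (integralReduction A (IsLocalRing.residue A) N (ι x) :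
        LaurentSeries (IsLocalRing.ResidueField A)) =
        coeffMap (algebraMap ↥(GaloisRep.ratLocalizedAt ℓ) (IsLocalRing.ResidueField A)) y := by
    intro x y hy
    rw [coe_integralReduction A _ N (f := ι x) (coeffMap_subtype_toA A hA hy), coeffMap_coeffMap]
    rfl
  have hjb : (integralReduction A (IsLocalRing.residue A) N (jIntegral A _ N 1 (one_dvd N)) :
      LaurentSeries (IsLocalRing.ResidueField A)) = jqModC _ :=
    (coe_integralReduction_jIntegral A _ N 1 (one_dvd N)).trans (qExpand_one_apply _)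
  let J : chartAlgMid N ℓ := ⟨jFull N, subset_chartAlg N ℓ _ (Set.mem_insert _ _)⟩
  have hιJ : ι J = jIntegral A (IsLocalRing.residue A) N 1 (one_dvd N) := by
    refine Subtype.ext (Subtype.ext ?_)
    show coeffEmb (AlgebraicClosure ℚ) jq = qExpand (AlgebraicClosure ℚ) 1 (jqModC _)
    rw [coeffEmb, ← jqModC_rat, coeffMap_jqModC, qExpand_one_apply]
  refine (gaussData (A := A) (N := N) IsLocalRing.residue_surjective hdeg).genus_le_of_charts
    (M := chartAlgMid N ℓ) ι ℓ rfl (n := max n₀ _) (le_max_right _ _) J hιJ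
    {x | (x : ↥(modularFunctionFieldFull N)) ∈ chartAlgFin N ℓ}
    {x | (x : ↥(modularFunctionFieldFull N)) ∈ chartAlgInf N ℓ}
    (fun z => ?_) (fun s a h φ => ?_) (fun x hx => ?_) (fun w hw => ?_) (fun w hw => ?_)
    (fun v hv x hx => ?_) (fun v hv x hx => ?_)
  · obtain ⟨f, hf, g, hg, h⟩ := hsplit _ (le_max_left _ _) z z.2
    exact ⟨⟨f, chartAlg_mono N ℓ (sFin_subset N) hf⟩, hf,
      ⟨g, chartAlg_mono N ℓ (sInf_subset N) hg⟩, hg, Subtype.ext h⟩
  · refine Subtype.ext ?_
    have h' := congrArg Subtype.val h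
    simp only [AddSubmonoidClass.coe_finsetSum, MulMemClass.coe_mul] at h' ⊢
    exact sum_eq_zero_of_prime_coeff ℓ s
      (fun x => (integralReduction A (IsLocalRing.residue A) N (ι x) :
        LaurentSeries (IsLocalRing.ResidueField A)))
      (fun x i => by
        obtain ⟨y, hy⟩ := Igusa.exists_series N ℓ hℓN subset_rfl x.2
        exact ⟨Igusa.redZ ℓ (y.coeff i), by
          rw [hρι x y hy, coeffMap_coeff, Igusa.algebraMap_eq_cast_redZ]⟩) a h' φ
  · obtain ⟨y, hy⟩ := Igusa.exists_series N ℓ hℓN subset_rfl x.2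
    obtain ⟨x', hx', e⟩ := Igusa.exists_eq_natCast_mul N ℓ (IsLocalRing.ResidueField A) hℓN
      (Or.inr (Or.inr rfl)) x.2 hy
      ((hρι x y hy).symm.trans (congrArg Subtype.val hx))
    exact ⟨⟨x', hx'⟩, Subtype.ext e⟩
  · have hint := isIntegral_coe hw
    erw [hjb] at hint
    refine mem_span_coe ?_ (hnorm.1 w.2 hint)
    rintro _ ⟨y, x, hx, hy, rfl⟩
    exact ⟨_, ⟨⟨x, chartAlg_mono N ℓ (sFin_subset N) hx⟩, hx, rfl⟩, hρι _ y hy⟩
  · have hint := isIntegral_coe hw
    rw [IntermediateField.coe_inv] at hint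
    erw [hjb] at hint
    refine mem_span_coe ?_ (hnorm.2 w.2 hint)
    rintro _ ⟨y, x, hx, hy, rfl⟩
    exact ⟨_, ⟨⟨x, chartAlg_mono N ℓ (sInf_subset N) hx⟩, hx, rfl⟩, hρι _ y hy⟩
  · refine epsBar_mem_place v ?_ hx
    rintro s rfl
    refine (FF.mem_iff_ord_nonneg v).mpr ?_
    rw [show epsBar N (jFull N) = ((ι J : integralFunctions A (IsLocalRing.residue A) N) :
      ↥(modularFunctionFieldBar N)) from rfl, hιJ]
    exact hv
  · refine epsBar_mem_place v ?_ hx
    rintro s rfl
    refine (FF.mem_iff_ord_nonneg v).mpr ?_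
    rw [map_inv₀, show epsBar N (jFull N) =
      ((ι J : integralFunctions A (IsLocalRing.residue A) N) :
        ↥(modularFunctionFieldBar N)) from rfl, hιJ, Place.ord_inv]
    exact neg_nonneg.mpr hv

end Fermat.Agent.Red
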