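import Fermat.Agent.Igusa.SmoothCharts
import Fermat.Agent.Red.Existence
import Fermat.Agent.Red.GenusLift

/-!
# The genus inequality for `X₀(N)` modulo `ℓ ∤ N`

Together with Igusa's degree theorem it gives the reduction inputs at every `ℓ ∤ N`, hence
injectivity of reduction on prime-to-`ℓ` torsion.
-/

noncomputable section

open ModularCurve AlgebraicCurve

namespace Fermat.Agent.Red

variable {N : ℕ} [NeZero N] {ℓ : ℕ} [Fact ℓ.Prime] (A : ValuationSubring (AlgebraicClosure ℚ))

/-- The genus inequality. -/
theorem genus_le (hℓN : ¬ ℓ ∣ N) (hA : A.LiesOverPrime ℓ) :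
    genusFF (AlgebraicClosure ℚ) (modularFunctionFieldBar N) ≤
      genusFF (IsLocalRing.ResidueField A)
        (modularFunctionFieldFullC (IsLocalRing.ResidueField A) N) := by
  refine genus_le_of_normality (A := A) hℓN hA ?_
  let : Algebra ↥(GaloisRep.ratLocalizedAt ℓ) (IsLocalRing.ResidueField A) :=
    ((IsLocalRing.residue A).comp (Red.toA A hA)).toAlgebra
  have := Red.isAlgClosed_residueField A
  have := Red.charP_residueField A hA
  exact ⟨fun hw hi => Igusa.mem_span_redSet_fin hℓN hw hi,
    fun hw hi => Igusa.mem_span_redSet_inf hℓN hw hi⟩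

/-- The reduction inputs at `ℓ ∤ N`. -/
theorem reductionInputsModL (hℓN : ¬ ℓ ∣ N) (hA : A.LiesOverPrime ℓ) :
    ReductionInputsModL A N :=
  reductionInputsModL_of_genus_le hℓN hA (genus_le A hℓN hA)

end Fermat.Agent.Red
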