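import Mathlib.LinearAlgebra.Basis.VectorSpace
import Mathlib.LinearAlgebra.FiniteDimensional.Lemmas
import Mathlib.RingTheory.Ideal.Maps
import Mathlib.RingTheory.Valuation.ValuationSubring
import Mathlib.Tactic.LinearCombination
import Fermat.Prelude.Def_AlgebraicCurve_Repartitions

/-!
# Reduction data for function fields

An abstract package for "constant reduction" of a function field `F/L` to a function field `Fk/k`
along a valuation subring `A` of `L` with residue map `π : A →+* k`: a subring `O` of `F`, a
reduction map `red : O →+* Fk`, a scaling property, and a map `r` on places which is compatible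
with divisors of functions having nonzero reduction.

It is the framework in which the genus inequality and the injectivity of reduction on torsion of
`X₀(N)` are proved.
-/

noncomputable section

open AlgebraicCurve

namespace Fermat.Agent.Red

variable {L F k Fk : Type*} [Field L] [Field F] [Algebra L F] [Field k] [Field Fk] [Algebra k Fk]

section ResidueMap

variable {A : ValuationSubring L} {π : A →+* k}

/-- The kernel of a surjective residue map consists of the non-units. -/
theorem pi_eq_zero_iff (hπ : Function.Surjective π) {a : A} : π a = 0 ↔ ¬ IsUnit a := by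
  have hker : RingHom.ker π = IsLocalRing.maximalIdeal A :=
    IsLocalRing.eq_maximalIdeal (RingHom.ker_isMaximal_of_surjective π hπ)
  rw [← RingHom.mem_ker, hker, IsLocalRing.mem_maximalIdeal, mem_nonunits_iff]

theorem pi_ne_zero_of_mul_eq_one {a : A} {b : L} (hb : b ∈ A)
    (h : (a : L) * b = 1) : π a ≠ 0 := by
  intro h0
  have h1 : a * ⟨b, hb⟩ = 1 := Subtype.ext h
  have := congrArg π h1
  rw [map_mul, h0, zero_mul, map_one] at this
  exact zero_ne_one this

/-- An element with nonzero residue has its inverse in `A`. -/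
theorem inv_mem_of_pi_ne_zero (hπ : Function.Surjective π) {a : A} (h : π a ≠ 0) :
    ((a : L))⁻¹ ∈ A := by
  have hu : IsUnit a := not_not.mp fun hn => h ((pi_eq_zero_iff hπ).mpr hn)
  obtain ⟨u, rfl⟩ := hu
  have h1 : ((u : A) : L) * ((u⁻¹ : Aˣ) : A) = 1 := by
    rw [← MulMemClass.coe_mul, Units.mul_inv, OneMemClass.coe_one]
  rw [inv_eq_of_mul_eq_one_right h1]
  exact SetLike.coe_mem _

end ResidueMap

/-- A constant reduction of functions along `π`; the target may be a field or a product of
fields. -/
structure RedBase (A : ValuationSubring L) (π : A →+* k) (F Fk : Type*) [Field F] [Algebra L F]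
    [CommRing Fk] [Algebra k Fk] where
  /-- the functions with a reduction -/
  O : Subring F
  /-- the reduction map -/
  red : O →+* Fk
  /-- the constants in `A` have a reduction -/
  algebraMap_mem : ∀ a : A, algebraMap L F a ∈ O
  red_algebraMap : ∀ a : A, red ⟨algebraMap L F a, algebraMap_mem a⟩ = algebraMap k Fk (π a)
  /-- every nonzero function is a constant times a function with nonzero reduction -/
  scale : ∀ f : F, f ≠ 0 → ∃ c : L, ∃ u : O, red u ≠ 0 ∧ f = algebraMap L F c * u
  surj_pi : Function.Surjective π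

/-- Reduction data along `π`. -/
structure RedData (A : ValuationSubring L) (π : A →+* k) (F Fk : Type*) [Field F] [Algebra L F]
    [Field Fk] [Algebra k Fk] extends RedBase A π F Fk where
  /-- the place reduction map -/
  r : Place L F → Place k Fk
  /-- `r` pushes the divisor of `u` to that of its reduction -/
  push : ∀ u : O, red u ≠ 0 → ∀ D : Divisor L F, (∀ P, D P = P.ord (u : F)) →
    ∀ Q, Finsupp.mapDomain r D Q = Q.ord (red u)

namespace RedBase

variable {A : ValuationSubring L} {π : A →+* k} {Fk : Type*} [CommRing Fk] [Algebra k Fk]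
  (R : RedBase A π F Fk)

/-- The constants of `A`, as elements of `O`. -/
def ι : A →+* R.O :=
  ((algebraMap L F).comp A.subtype).codRestrict R.O R.algebraMap_mem

@[simp] theorem coe_ι (a : A) : ((R.ι a : R.O) : F) = algebraMap L F a := rfl

@[simp] theorem red_ι (a : A) : R.red (R.ι a) = algebraMap k Fk (π a) := R.red_algebraMap a

theorem coe_ne_zero {u : R.O} (hu : R.red u ≠ 0) : (u : F) ≠ 0 := fun h =>
  hu (by rw [show u = 0 from Subtype.ext h, map_zero])

/-- If `c • u` lies in `O` and `red u ≠ 0`, then `c ∈ A`. -/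
theorem mem_of_smul_mem {u : R.O} (hu : R.red u ≠ 0) {c : L} {f : R.O}
    (h : (f : F) = algebraMap L F c * u) : c ∈ A := by
  by_contra hc
  have hci : c⁻¹ ∈ A := (A.mem_or_inv_mem c).resolve_left hc
  have hc0 : c ≠ 0 := fun h0 => hc (h0 ▸ A.zero_mem)
  have h0 : π ⟨c⁻¹, hci⟩ = 0 := by
    by_contra hne
    exact hc (inv_inv c ▸ inv_mem_of_pi_ne_zero R.surj_pi hne)
  have he : u = R.ι ⟨c⁻¹, hci⟩ * f := by
    refine Subtype.ext ?_
    rw [Subring.coe_mul, coe_ι, h, ← mul_assoc, ← map_mul, inv_mul_cancel₀ hc0, map_one, one_mul]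
  rw [he, map_mul, red_ι, h0, map_zero, zero_mul] at hu
  exact hu rfl

/-- A nonzero element of `O` is `a • v` with `a ∈ A` and `red v ≠ 0`. -/
theorem exists_scale_mem {f : R.O} (hf : (f : F) ≠ 0) :
    ∃ a : A, ∃ v : R.O, R.red v ≠ 0 ∧ f = R.ι a * v := by
  obtain ⟨c, v, hv, h⟩ := R.scale f hf
  exact ⟨⟨c, R.mem_of_smul_mem hv h⟩, v, hv, Subtype.ext h⟩

/-- If the reductions of the `u_i` are independent, a combination scaled by its largest
coefficient has nonzero reduction. -/
theorem red_ne_zero_of_max_coeff {ι' : Type*} (s : Finset ι') (u : ι' → R.O)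
    (hu : LinearIndependent k fun i : s => R.red (u i)) (c : ι' → L) {i₁ : ι'} (hi₁ : i₁ ∈ s)
    (hM0 : c i₁ ≠ 0) (hmax : ∀ i ∈ s, A.valuation (c i) ≤ A.valuation (c i₁)) (g : R.O)
    (hg : (g : F) = algebraMap L F (c i₁)⁻¹ * ∑ i ∈ s, algebraMap L F (c i) * u i) :
    R.red g ≠ 0 := by
  intro h0
  have hd : ∀ i ∈ s, c i / c i₁ ∈ A := by
    intro i hi
    rw [← A.valuation_le_one_iff, map_div₀]
    exact div_le_one_of_le₀ (hmax i hi) zero_le
  classical
  let d : ι' → A := fun i => if hi : i ∈ s then ⟨c i / c i₁, hd i hi⟩ else 0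
  have he : g = ∑ i ∈ s, R.ι (d i) * u i := by
    refine Subtype.ext ?_
    rw [hg, Finset.mul_sum, AddSubmonoidClass.coe_finsetSum]
    refine Finset.sum_congr rfl fun i hi => ?_
    rw [Subring.coe_mul, coe_ι, ← mul_assoc, ← map_mul]
    simp only [d, dif_pos hi, div_eq_inv_mul]
  rw [he, map_sum] at h0
  simp only [map_mul, red_ι, ← Algebra.smul_def] at h0
  rw [← Finset.sum_coe_sort s] at h0
  have hz := Fintype.linearIndependent_iff.mp hu (fun i => π (d i)) h0 ⟨i₁, hi₁⟩
  have h1 : d i₁ = 1 := by
    simp only [d, dif_pos hi₁]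
    exact Subtype.ext (div_self hM0)
  simp [h1] at hz

/-- If `∑ c_i u_i ∈ O` and the reductions of the `u_i` are independent, then all `c_i ∈ A`. -/
theorem coeff_mem_of_linearIndependent {ι' : Type*} (s : Finset ι') (u : ι' → R.O)
    (hu : LinearIndependent k fun i : s => R.red (u i)) (c : ι' → L) (f : R.O)
    (h : (f : F) = ∑ i ∈ s, algebraMap L F (c i) * u i) : ∀ i ∈ s, c i ∈ A := by
  by_contra hcon
  push Not at hcon
  obtain ⟨i₀, hi₀, hc₀⟩ := hcon
  obtain ⟨i₁, hi₁, hmax⟩ := s.exists_max_image (fun i => A.valuation (c i)) ⟨i₀, hi₀⟩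
  have hM : c i₁ ∉ A := fun hmem => hc₀ <| (A.valuation_le_one_iff _).mp <|
    (hmax i₀ hi₀).trans ((A.valuation_le_one_iff _).mpr hmem)
  have hM0 : c i₁ ≠ 0 := fun h0 => hM (h0 ▸ A.zero_mem)
  have hMi : (c i₁)⁻¹ ∈ A := (A.mem_or_inv_mem _).resolve_left hM
  refine R.red_ne_zero_of_max_coeff s u hu c hi₁ hM0 hmax (R.ι ⟨(c i₁)⁻¹, hMi⟩ * f)
    (by rw [Subring.coe_mul, coe_ι, h]) ?_
  have h0 : π ⟨(c i₁)⁻¹, hMi⟩ = 0 := by
    by_contra hne
    exact hM (inv_inv (c i₁) ▸ inv_mem_of_pi_ne_zero R.surj_pi hne)
  rw [map_mul, red_ι, h0, map_zero, zero_mul]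

/-- Functions with independent reductions are independent. -/
theorem coeff_eq_zero_of_linearIndependent {ι' : Type*} (s : Finset ι') (u : ι' → R.O)
    (hu : LinearIndependent k fun i : s => R.red (u i)) (c : ι' → L)
    (h : ∑ i ∈ s, algebraMap L F (c i) * u i = 0) : ∀ i ∈ s, c i = 0 := by
  by_contra hcon
  push Not at hcon
  obtain ⟨i₀, hi₀, hc₀⟩ := hcon
  obtain ⟨i₁, hi₁, hmax⟩ := s.exists_max_image (fun i => A.valuation (c i)) ⟨i₀, hi₀⟩
  have hM0 : c i₁ ≠ 0 := fun h0 => hc₀ <| (map_eq_zero A.valuation).mp <|
    le_zero_iff.mp (by simpa [h0] using hmax i₀ hi₀)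
  exact R.red_ne_zero_of_max_coeff s u hu c hi₁ hM0 hmax 0
    (by rw [h, mul_zero, ZeroMemClass.coe_zero]) (map_zero _)

/-- The reductions of the elements of `V ∩ O`. -/
def redImage (V : Submodule L F) : Submodule k Fk where
  carrier := {w | ∃ u : R.O, (u : F) ∈ V ∧ R.red u = w}
  zero_mem' := ⟨0, V.zero_mem, map_zero _⟩
  add_mem' := by
    rintro _ _ ⟨u, hu, rfl⟩ ⟨v, hv, rfl⟩
    exact ⟨u + v, V.add_mem hu hv, map_add _ _ _⟩
  smul_mem' := by
    rintro c _ ⟨u, hu, rfl⟩
    obtain ⟨a, rfl⟩ := R.surj_pi c
    refine ⟨R.ι a * u, ?_, ?_⟩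
    · rw [Subring.coe_mul, coe_ι, ← Algebra.smul_def]
      exact V.smul_mem _ hu
    · rw [map_mul, red_ι, Algebra.smul_def]

/-- Membership in the reduction of a subspace. -/
theorem mem_redImage {V : Submodule L F} {w : Fk} :
    w ∈ R.redImage V ↔ ∃ u : R.O, (u : F) ∈ V ∧ R.red u = w := Iff.rfl

theorem redImage_mono {V W : Submodule L F} (hVW : V ≤ W) : R.redImage V ≤ R.redImage W := by
  rintro _ ⟨u, hu, rfl⟩
  exact ⟨u, hVW hu, rfl⟩

/-- Lifts of `k`-independent reductions are `L`-independent. -/
theorem linearIndependent_lift {ι' : Type*} (u : ι' → R.O)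
    (hu : LinearIndependent k fun i => R.red (u i)) :
    LinearIndependent L fun i => (u i : F) := by
  rw [linearIndependent_iff']
  intro s c h
  refine R.coeff_eq_zero_of_linearIndependent s u
    (hu.comp _ Subtype.val_injective) c ?_
  simpa [Algebra.smul_def] using h

/-- An independent family in the reduction of `V` is no larger than `dim V`. -/
theorem card_le_finrank_of_linearIndependent {V : Submodule L F} [FiniteDimensional L V]
    {ι' : Type*} [Fintype ι'] {w : ι' → R.redImage V} (hw : LinearIndependent k w) :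
    Fintype.card ι' ≤ Module.finrank L V := by
  choose u huV hu using fun i => (R.mem_redImage).mp (w i).2
  have hl : LinearIndependent k fun i => R.red (u i) := by
    simpa [hu, Function.comp_def] using
      hw.map' (R.redImage V).subtype (Submodule.ker_subtype _)
  have hli : LinearIndependent L fun i => (⟨(u i : F), huV i⟩ : V) :=
    LinearIndependent.of_comp V.subtype (R.linearIndependent_lift u hl)
  exact hli.fintype_card_le_finrank

/-- The reduction of a finite dimensional space is finite dimensional. -/
instance finiteDimensional_redImage (V : Submodule L F) [FiniteDimensional L V] :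
    FiniteDimensional k (R.redImage V) :=
  Module.rank_lt_aleph0_iff.mp <| lt_of_le_of_lt
    (rank_le fun s hs => (Fintype.card_coe s).symm.trans_le
      (R.card_le_finrank_of_linearIndependent hs))
    (Cardinal.natCast_lt_aleph0 (n := Module.finrank L V))

/-- Reduction does not increase dimension. -/
theorem finrank_redImage_le (V : Submodule L F) [FiniteDimensional L V] :
    Module.finrank k (R.redImage V) ≤ Module.finrank L V := by
  simpa using R.card_le_finrank_of_linearIndependent
    (Module.finBasis k (R.redImage V)).linearIndependent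

/-- Inside a space of full reduction rank every subspace has full reduction rank. -/
theorem finrank_redImage_eq_of_le {E V : Submodule L F} [FiniteDimensional L E]
    (hE : Module.finrank k (R.redImage E) = Module.finrank L E) (hV : V ≤ E) :
    Module.finrank k (R.redImage V) = Module.finrank L V := by
  have : FiniteDimensional L V := Submodule.finiteDimensional_of_le hV
  refine le_antisymm (R.finrank_redImage_le V) ?_
  set W := R.redImage V
  set S := R.redImage E
  have hWS : W ≤ S := R.redImage_mono hV
  obtain ⟨C₀, hC₀⟩ := W.exists_isCompl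
  set C : Submodule k Fk := C₀ ⊓ S with hC
  have : FiniteDimensional k C := Submodule.finiteDimensional_of_le inf_le_right
  have hWC : W ⊔ C = S := by
    rw [hC, ← sup_inf_assoc_of_le C₀ hWS, hC₀.sup_eq_top, top_inf_eq]
  have hWC' : Disjoint W C := hC₀.disjoint.mono_right inf_le_left
  let b := Module.finBasis k C
  choose v hvE hv using fun j => (show (b j : Fk) ∈ S from (b j).2.2)
  have hvli : LinearIndependent k fun j => R.red (v j) := by
    simp only [hv]
    exact b.linearIndependent.map' C.subtype (Submodule.ker_subtype _)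
  set VC : Submodule L F := Submodule.span L (Set.range fun j => (v j : F)) with hVC
  have hVCE : VC ≤ E := Submodule.span_le.mpr (by rintro _ ⟨j, rfl⟩; exact hvE j)
  have : FiniteDimensional L VC := FiniteDimensional.span_of_finite L (Set.finite_range _)
  have hVCdim : Module.finrank L VC = Module.finrank k C := by
    rw [hVC, finrank_span_eq_card (R.linearIndependent_lift v hvli), Fintype.card_fin]
  have hdisj : Disjoint V VC := by
    rw [Submodule.disjoint_def]
    intro f hfV hfC
    by_contra hf0
    obtain ⟨c, z, hz, hfz⟩ := R.scale f hf0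
    have hc : c ≠ 0 := by rintro rfl; simp [hfz] at hf0
    have hzmem : ∀ U : Submodule L F, f ∈ U → (z : F) ∈ U := fun U hU => by
      have := U.smul_mem c⁻¹ hU
      rwa [Algebra.smul_def, hfz, ← mul_assoc, ← map_mul, inv_mul_cancel₀ hc, map_one, one_mul]
        at this
    obtain ⟨e, he⟩ := (Submodule.mem_span_range_iff_exists_fun L).mp (hzmem _ hfC)
    have heA := R.coeff_mem_of_linearIndependent Finset.univ v
      (hvli.comp _ Subtype.val_injective) e z (by rw [← he]; simp [Algebra.smul_def])
    have he' : z = ∑ j, R.ι ⟨e j, heA j (Finset.mem_univ j)⟩ * v j := by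
      refine Subtype.ext ?_
      rw [AddSubmonoidClass.coe_finsetSum, ← he]
      exact Finset.sum_congr rfl fun j _ => by rw [Algebra.smul_def]; rfl
    have hzC : R.red z ∈ C := by
      rw [he', map_sum]
      refine Submodule.sum_mem _ fun j _ => ?_
      rw [map_mul, red_ι, hv, ← Algebra.smul_def]
      exact Submodule.smul_mem _ _ (b j).2
    exact hz ((Submodule.disjoint_def.mp hWC') _ ⟨z, hzmem _ hfV, rfl⟩ hzC)
  have h1 : Module.finrank L V + Module.finrank L VC ≤ Module.finrank L E := by
    have h3 := Submodule.finrank_mono (sup_le hV hVCE)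
    have h4 := Submodule.finrank_sup_add_finrank_inf_eq V VC
    rw [hdisj.eq_bot, finrank_bot, add_zero] at h4
    omega
  have h2 : Module.finrank k W + Module.finrank k C = Module.finrank k S := by
    have h6 := Submodule.finrank_sup_add_finrank_inf_eq W C
    rw [hWC, hWC'.eq_bot, finrank_bot, add_zero] at h6
    exact h6.symm
  omega

end RedBase

end Fermat.Agent.Red
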